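import Mathlib

/-!
# Burnside's theorem in dimension two
-/

set_option autoImplicit false

namespace FLTAgent.Deformation

open Matrix

variable {G K : Type} [Group G] [Field K]

/-- A line in `K²` is not stable under the given set of matrices. -/
def MovesEveryLine (S : Set (Matrix (Fin 2) (Fin 2) K)) : Prop :=
  ∀ v : Fin 2 → K, v ≠ 0 → ∃ m ∈ S, ∀ c : K, m *ᵥ v ≠ c • v

lemma eq_top_of_single_zero_zero_mem (M : Subalgebra K (Matrix (Fin 2) (Fin 2) K))
    (hM : MovesEveryLine (M : Set (Matrix (Fin 2) (Fin 2) K)))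
    (he : Matrix.single (0 : Fin 2) (0 : Fin 2) (1 : K) ∈ M) : M = ⊤ := by
  have hf : Matrix.single (1 : Fin 2) (1 : Fin 2) (1 : K) ∈ M := by
    have : Matrix.single (1 : Fin 2) (1 : Fin 2) (1 : K) = 1 - Matrix.single (0 : Fin 2) (0 : Fin 2) 1 := by
      ext i j
      fin_cases i <;> fin_cases j <;> simp
    rw [this]
    exact sub_mem (one_mem M) he
  have h10 : Matrix.single (1 : Fin 2) (0 : Fin 2) (1 : K) ∈ M := by
    obtain ⟨m, hm, hne⟩ := hM ![1, 0] (by simp)
    have h : m 1 0 ≠ 0 := fun h0 => hne (m 0 0) (by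
      ext i; fin_cases i <;> simp [h0, Matrix.mulVec, dotProduct])
    have := M.smul_mem (mul_mem (mul_mem hf hm) he) (m 1 0)⁻¹
    convert this using 1
    ext i j
    fin_cases i <;> fin_cases j <;> simp [Matrix.mul_apply, h]
  have h01 : Matrix.single (0 : Fin 2) (1 : Fin 2) (1 : K) ∈ M := by
    obtain ⟨m, hm, hne⟩ := hM ![0, 1] (by simp)
    have h : m 0 1 ≠ 0 := fun h0 => hne (m 1 1) (by
      ext i; fin_cases i <;> simp [h0, Matrix.mulVec, dotProduct])
    have := M.smul_mem (mul_mem (mul_mem he hm) hf) (m 0 1)⁻¹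
    convert this using 1
    ext i j
    fin_cases i <;> fin_cases j <;> simp [Matrix.mul_apply, h]
  refine eq_top_iff.mpr fun x _ => ?_
  rw [Matrix.matrix_eq_sum_single x]
  refine sum_mem fun i _ => sum_mem fun j _ => ?_
  rw [← mul_one (x i j), ← smul_eq_mul, ← Matrix.smul_single]
  refine M.smul_mem ?_ _
  fin_cases i <;> fin_cases j <;> assumption

theorem span_range_eq_top_of_movesEveryLine [IsAlgClosed K] (r : G →* Matrix (Fin 2) (Fin 2) K)
    (hr : MovesEveryLine (Set.range r)) : Submodule.span K (Set.range r) = ⊤ := by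
  let M₀ : Subalgebra K (Matrix (Fin 2) (Fin 2) K) := Algebra.adjoin K (Set.range r)
  have hspan : Subalgebra.toSubmodule M₀ = Submodule.span K (Set.range r) := by
    rw [Algebra.adjoin_eq_span, ← MonoidHom.coe_mrange, Submonoid.closure_eq]
  suffices H : M₀ = ⊤ by rw [← hspan, H, Algebra.top_toSubmodule]
  obtain ⟨g, hg⟩ : ∃ g, ∀ c : K, r g ≠ c • 1 := by
    obtain ⟨m, ⟨g, rfl⟩, hm⟩ := hr ![1, 0] (by simp)
    exact ⟨g, fun c hc => hm c (by rw [hc, Matrix.smul_mulVec, Matrix.one_mulVec])⟩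
  obtain ⟨t, ht⟩ := IsAlgClosed.exists_root (r g).charpoly (by
    rw [Matrix.charpoly_degree_eq_dim]; simp)
  let y : Matrix (Fin 2) (Fin 2) K := r g - t • 1
  have hyM : y ∈ M₀ :=
    sub_mem (Algebra.subset_adjoin ⟨g, rfl⟩) (M₀.smul_mem (one_mem M₀) t)
  have hy0 : y ≠ 0 := fun h => hg t (sub_eq_zero.mp h)
  have hydet : y.det = 0 := by
    have h1 := Matrix.eval_charpoly (r g) t
    rw [ht] at h1
    have h2 : y = -(Matrix.scalar (Fin 2) t - r g) := by
      simp only [y, neg_sub, Matrix.scalar_apply, Matrix.smul_one_eq_diagonal]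
    rw [h2, Matrix.det_neg, ← h1, mul_zero]
  -- reduce to a statement stable under conjugation
  have conjCase : ∀ (P : (Matrix (Fin 2) (Fin 2) K)ˣ)
      (e : Matrix (Fin 2) (Fin 2) K), e ∈ M₀ →
      ((↑P⁻¹ : Matrix (Fin 2) (Fin 2) K) * e * (P : Matrix (Fin 2) (Fin 2) K) = Matrix.single (0 : Fin 2) (0 : Fin 2) 1 ∨
        (↑P⁻¹ : Matrix (Fin 2) (Fin 2) K) * e * (P : Matrix (Fin 2) (Fin 2) K) = Matrix.single (0 : Fin 2) (1 : Fin 2) 1) → M₀ = ⊤ := by
    intro P e heM hcase
    let Φ := MulSemiringAction.toAlgEquiv K (Matrix (Fin 2) (Fin 2) K) (ConjAct.toConjAct P⁻¹)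
    have hΦ : ∀ x, Φ x = (↑P⁻¹ : Matrix (Fin 2) (Fin 2) K) * x * (P : Matrix (Fin 2) (Fin 2) K) := fun x => by
      simp [Φ, ConjAct.units_smul_def]
    let M' := M₀.map Φ.toAlgHom
    have hM' : MovesEveryLine (M' : Set (Matrix (Fin 2) (Fin 2) K)) := by
      intro v hv
      obtain ⟨m, hm, hne⟩ := hr ((P : Matrix (Fin 2) (Fin 2) K) *ᵥ v) (fun h => hv (by
        have := congrArg ((↑P⁻¹ : Matrix (Fin 2) (Fin 2) K) *ᵥ ·) h
        simp only [Matrix.mulVec_mulVec, Units.inv_mul, Matrix.one_mulVec, Matrix.mulVec_zero] at this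
        exact this))
      refine ⟨Φ m, Subalgebra.mem_map.mpr ⟨m, Algebra.subset_adjoin hm, rfl⟩, fun c hc => hne c ?_⟩
      have := congrArg ((P : Matrix (Fin 2) (Fin 2) K) *ᵥ ·) hc
      simp only [hΦ, Matrix.mulVec_mulVec, Matrix.mulVec_smul, ← mul_assoc, Units.mul_inv,
        one_mul] at this
      rw [Matrix.mulVec_mulVec]
      exact this
    have heM' : (↑P⁻¹ : Matrix (Fin 2) (Fin 2) K) * e * (P : Matrix (Fin 2) (Fin 2) K) ∈ M' :=
      Subalgebra.mem_map.mpr ⟨e, heM, hΦ e⟩
    have h00 : Matrix.single (0 : Fin 2) (0 : Fin 2) (1 : K) ∈ M' := by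
      rcases hcase with h | h
      · rwa [h] at heM'
      · rw [h] at heM'
        obtain ⟨m, hm, hne⟩ := hM' ![1, 0] (by simp)
        have h10 : m 1 0 ≠ 0 := fun h0 => hne (m 0 0) (by
          ext i; fin_cases i <;> simp [h0, Matrix.mulVec, dotProduct])
        have := M'.smul_mem (sub_mem (mul_mem heM' hm) (M'.smul_mem heM' (m 1 1))) (m 1 0)⁻¹
        convert this using 1
        ext i j
        fin_cases i <;> fin_cases j <;> simp [Matrix.mul_apply, h10]
    have htop := eq_top_of_single_zero_zero_mem M' hM' h00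
    refine eq_top_iff.mpr fun x _ => ?_
    obtain ⟨x', hx', hxx⟩ :=
      Subalgebra.mem_map.mp (show Φ x ∈ M' from htop ▸ Algebra.mem_top)
    exact Φ.injective hxx ▸ hx'
  obtain ⟨v₀, hv₀, hker⟩ := Matrix.exists_mulVec_eq_zero_iff.mpr hydet
  -- a vector with non-zero image
  obtain ⟨u, hu⟩ : ∃ u, y *ᵥ u ≠ 0 := by
    by_contra h
    push Not at h
    refine hy0 (Matrix.ext fun i j => ?_)
    simpa using congrFun (h (Pi.single j 1)) i
  have hCH : y * y = y.trace • y := by
    have h := hydet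
    rw [Matrix.det_fin_two] at h
    ext i j
    fin_cases i <;> fin_cases j <;>
      simp [Matrix.mul_apply, Fin.sum_univ_two, Matrix.trace_fin_two] <;>
      first | ring1 | linear_combination h | linear_combination -h
  have mkBasis : ∀ a b : Fin 2 → K, (∀ c d : K, c • a + d • b = 0 → c = 0 ∧ d = 0) →
      IsUnit (Matrix.of fun i j => (![a, b] j) i : Matrix (Fin 2) (Fin 2) K) := by
    intro a b hab
    rw [← Matrix.mulVec_injective_iff_isUnit]
    intro p q hpq
    have h0 : (p - q) 0 • a + (p - q) 1 • b = 0 := by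
      ext i
      have := congrFun hpq i
      simp [Matrix.mulVec, dotProduct, Fin.sum_univ_two] at this
      simp
      linear_combination this
    obtain ⟨h1, h2⟩ := hab _ _ h0
    ext i
    fin_cases i
    · exact sub_eq_zero.mp h1
    · exact sub_eq_zero.mp h2
  have hyyu : y *ᵥ (y *ᵥ u) = y.trace • (y *ᵥ u) := by
    rw [Matrix.mulVec_mulVec, hCH, Matrix.smul_mulVec]
  by_cases htr : y.trace = 0
  · obtain ⟨P, hP⟩ := mkBasis (y *ᵥ u) u fun c d h => by
      have h1 := congrArg (y *ᵥ ·) h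
      simp only [Matrix.mulVec_add, Matrix.mulVec_smul, hyyu, htr, zero_smul, smul_zero, zero_add,
        Matrix.mulVec_zero] at h1
      obtain rfl : d = 0 := (smul_eq_zero.mp h1).resolve_right hu
      rw [zero_smul, add_zero] at h
      exact ⟨(smul_eq_zero.mp h).resolve_right hu, rfl⟩
    refine conjCase P y hyM (Or.inr ?_)
    rw [mul_assoc, Units.inv_mul_eq_iff_eq_mul]
    have h10 := congrFun hyyu 0
    have h11 := congrFun hyyu 1
    simp [htr, Matrix.mulVec, dotProduct, Fin.sum_univ_two] at h10 h11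
    ext i j
    fin_cases i <;> fin_cases j <;>
      simp [hP, Matrix.mul_apply, Fin.sum_univ_two, Matrix.mulVec, dotProduct] <;>
      first | ring1 | linear_combination h10 | linear_combination h11
  · obtain ⟨P, hP⟩ := mkBasis (y *ᵥ u) v₀ fun c d h => by
      have h1 := congrArg (y *ᵥ ·) h
      simp only [Matrix.mulVec_add, Matrix.mulVec_smul, hyyu, hker, smul_zero, add_zero,
        Matrix.mulVec_zero, smul_smul] at h1
      obtain rfl : c = 0 :=
        (mul_eq_zero.mp ((smul_eq_zero.mp h1).resolve_right hu)).resolve_right htr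
      rw [zero_smul, zero_add] at h
      exact ⟨rfl, (smul_eq_zero.mp h).resolve_right hv₀⟩
    refine conjCase P (y.trace⁻¹ • y) (M₀.smul_mem hyM _) (Or.inl ?_)
    rw [mul_assoc, Units.inv_mul_eq_iff_eq_mul]
    have h10 := congrFun hyyu 0
    have h11 := congrFun hyyu 1
    have h20 := congrFun hker 0
    have h21 := congrFun hker 1
    simp [Matrix.mulVec, dotProduct, Fin.sum_univ_two] at h10 h11 h20 h21
    ext i j
    fin_cases i <;> fin_cases j <;>
      simp [hP, Matrix.mul_apply, Fin.sum_univ_two, Matrix.mulVec, dotProduct] <;>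
      field_simp <;>
      first | ring1 | linear_combination h10 | linear_combination h11 | linear_combination h20 |
        linear_combination h21

theorem span_eq_top_of_map_span_eq_top {k : Type} [Field k] (ψ : k →+* K)
    (S : Set (Matrix (Fin 2) (Fin 2) k))
    (h : Submodule.span K ((fun m : Matrix (Fin 2) (Fin 2) k => m.map ψ) '' S) = ⊤) :
    Submodule.span k S = ⊤ := by
  by_contra hne
  obtain ⟨f, hf, hfk⟩ := Submodule.exists_dual_map_eq_bot_of_lt_top (lt_top_iff_ne_top.mpr hne)
    inferInstance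
  apply hf
  let a := fun i j => f (Matrix.single i j (1 : k))
  have hfx : ∀ x, f x = ∑ i, ∑ j, x i j * a i j := fun x => by
    conv_lhs => rw [Matrix.matrix_eq_sum_single x]
    rw [map_sum]
    refine Finset.sum_congr rfl fun i _ => ?_
    rw [map_sum]
    refine Finset.sum_congr rfl fun j _ => ?_
    rw [← mul_one (x i j), ← smul_eq_mul, ← Matrix.smul_single, map_smul]
    simp [a]
  let F : Matrix (Fin 2) (Fin 2) K →ₗ[K] K :=
    { toFun := fun x => ∑ i, ∑ j, x i j * ψ (a i j)
      map_add' := fun x y => by simp [add_mul, Finset.sum_add_distrib]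
      map_smul' := fun c x => by simp [Fin.sum_univ_two, mul_add, mul_assoc] }
  have hF : ∀ x ∈ Submodule.span K ((fun m : Matrix (Fin 2) (Fin 2) k => m.map ψ) '' S),
      F x = 0 := by
    intro x hx
    induction hx using Submodule.span_induction with
    | mem _ hx =>
      obtain ⟨m, hm, rfl⟩ := hx
      have h0 : f m = 0 := (Submodule.eq_bot_iff _).mp hfk _
        (Submodule.mem_map_of_mem (Submodule.subset_span hm))
      show ∑ i, ∑ j, ψ (m i j) * ψ (a i j) = 0
      simp only [← map_mul, ← map_sum, ← hfx, h0, map_zero]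
    | zero => simp
    | add _ _ _ _ hu hv => simp [hu, hv]
    | smul c _ _ hu => simp [hu]
  refine LinearMap.ext fun x => ?_
  rw [hfx, LinearMap.zero_apply]
  refine Finset.sum_eq_zero fun i _ => Finset.sum_eq_zero fun j _ => ?_
  have h1 := hF (Matrix.single i j 1) (h ▸ trivial)
  have h2 : F (Matrix.single i j 1) = ψ (a i j) := by
    show ∑ u, ∑ v, Matrix.single i j (1 : K) u v * ψ (a u v) = _
    fin_cases i <;> fin_cases j <;> simp [Fin.sum_univ_two]
  rw [h2, map_eq_zero] at h1
  rw [h1, mul_zero]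

end FLTAgent.Deformation
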