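import Fermat.Agent.Deformation.MatrixLifts
import Fermat.Agent.Deformation.Burnside
import Fermat.Prelude.Def_GaloisRep_Adic

/-!
# Dictionary between two-dimensional Galois representations and matrix representations
-/

set_option autoImplicit false

namespace FLTAgent.Deformation

open IsLocalRing Matrix
open scoped TensorProduct

local notation "GG" => (AlgebraicClosure ℚ ≃ₐ[ℚ] AlgebraicClosure ℚ)

section Basic

variable {A : Type} [CommRing A] [IsLocalRing A]

/-- Adic continuity of a matrix representation. -/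
def MatCts (r : GG →* M2 A) : Prop :=
  ∀ n : ℕ, ∃ L : IntermediateField ℚ (AlgebraicClosure ℚ), FiniteDimensional ℚ L ∧
    ∀ σ : GG, (∀ x ∈ L, σ x = x) → ∀ i j, (r σ - 1) i j ∈ maximalIdeal A ^ n

lemma isAdicContinuous_toLin {r : GG →* M2 A} (h : MatCts r) :
    GaloisActionIsAdicContinuous A
      ((Matrix.toLinAlgEquiv' (R := A) (n := Fin 2)).toRingEquiv.toRingHom.toMonoidHom.comp r) := by
  intro n
  obtain ⟨L, hL, h1⟩ := h n
  refine ⟨L, hL, fun σ hσ v => ?_⟩
  show Matrix.toLinAlgEquiv' (r σ) v - v ∈ _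
  rw [Matrix.toLinAlgEquiv'_apply]
  have hv : r σ *ᵥ v - v = (r σ - 1) *ᵥ v := by rw [Matrix.sub_mulVec, Matrix.one_mulVec]
  rw [hv]
  have : (r σ - 1) *ᵥ v = ∑ i, ∑ j, ((r σ - 1) i j * v j) • (Pi.single i 1 : Fin 2 → A) := by
    ext k
    fin_cases k <;> simp [Matrix.mulVec, dotProduct]
  rw [this]
  exact Submodule.sum_mem _ fun i _ => Submodule.sum_mem _ fun j _ =>
    Submodule.smul_mem_smul (Ideal.mul_mem_right _ _ (h1 σ hσ i j)) Submodule.mem_top

/-- The representation on `A²` given by matrices. -/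
noncomputable def repOfMatrix (r : GG →* M2 A) (h : MatCts r) : GaloisRepAdic A where
  V := Fin 2 → A
  finrank_eq := by simp
  ρ := (Matrix.toLinAlgEquiv' (R := A) (n := Fin 2)).toRingEquiv.toRingHom.toMonoidHom.comp r
  isAdicContinuous := isAdicContinuous_toLin h

/-- The matrices of a representation in a basis. -/
noncomputable def matOf (ρ : GaloisRepAdic A) (b : Module.Basis (Fin 2) A ρ.V) : GG →* M2 A :=
  (LinearMap.toMatrixAlgEquiv b).toRingEquiv.toRingHom.toMonoidHom.comp ρ.ρ

lemma matOf_apply (ρ : GaloisRepAdic A) (b : Module.Basis (Fin 2) A ρ.V) (σ : GG) (i j : Fin 2) :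
    matOf ρ b σ i j = b.repr (ρ.ρ σ (b j)) i :=
  LinearMap.toMatrixAlgEquiv_apply b (ρ.ρ σ) i j

lemma matCts_matOf (ρ : GaloisRepAdic A) (b : Module.Basis (Fin 2) A ρ.V) :
    MatCts (matOf ρ b) := by
  intro n
  obtain ⟨L, hL, h1⟩ := ρ.isAdicContinuous n
  refine ⟨L, hL, fun σ hσ i j => ?_⟩
  have h2 : (matOf ρ b σ - 1) i j = b.repr (ρ.ρ σ (b j) - b j) i := by
    rw [map_sub, Finsupp.sub_apply, Matrix.sub_apply, matOf_apply, b.repr_self,
      Finsupp.single_apply, Matrix.one_apply]
    simp [eq_comm]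
  rw [h2]
  refine Submodule.smul_induction_on (p := fun x => b.repr x i ∈ maximalIdeal A ^ n)
    (h1 σ hσ (b j)) (fun a ha w _ => ?_) (fun x y hx hy => ?_)
  · simp only [map_smul, Finsupp.smul_apply, smul_eq_mul]
    exact Ideal.mul_mem_right _ _ ha
  · simp only [map_add, Finsupp.add_apply]
    exact add_mem hx hy

lemma nonempty_basis (ρ : GaloisRepAdic A) : Nonempty (Module.Basis (Fin 2) A ρ.V) :=
  ⟨Module.finBasisOfFinrankEq A ρ.V ρ.finrank_eq⟩

lemma isEquiv_symm {ρ₁ ρ₂ : GaloisRepAdic A} (h : ρ₁.IsEquiv ρ₂) : ρ₂.IsEquiv ρ₁ :=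
  h.map fun e => e.symm

lemma isEquiv_trans {ρ₁ ρ₂ ρ₃ : GaloisRepAdic A} (h : ρ₁.IsEquiv ρ₂) (h' : ρ₂.IsEquiv ρ₃) :
    ρ₁.IsEquiv ρ₃ :=
  h.elim fun e => h'.map fun e' => e.trans e'

lemma isEquiv_repOfMatrix (ρ : GaloisRepAdic A) (b : Module.Basis (Fin 2) A ρ.V)
    (r : GG →* M2 A) (h : MatCts r) (hr : ∀ σ, matOf ρ b σ = r σ) :
    (repOfMatrix r h).IsEquiv ρ := by
  refine ⟨⟨b.equivFun.symm, fun σ (x : Fin 2 → A) => ?_⟩⟩
  show b.equivFun.symm (r σ *ᵥ x) = ρ.ρ σ (b.equivFun.symm x)
  apply b.equivFun.injective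
  rw [LinearEquiv.apply_symm_apply]
  rw [← hr σ]
  ext i
  rw [Matrix.mulVec, dotProduct, Module.Basis.equivFun_symm_apply]
  simp only [map_sum, map_smul, Finset.sum_apply, Pi.smul_apply, smul_eq_mul,
    Module.Basis.equivFun_apply, matOf_apply]
  exact Finset.sum_congr rfl fun j _ => mul_comm _ _

lemma isEquiv_repOfMatrix_of_conj {r r' : GG →* M2 A} (h : MatCts r) (h' : MatCts r')
    {P : M2 A} (hP : IsUnit P) (hconj : ∀ σ, P * r σ = r' σ * P) :
    (repOfMatrix r h).IsEquiv (repOfMatrix r' h') := by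
  obtain ⟨u, rfl⟩ := hP
  let e : (Fin 2 → A) ≃ₗ[A] (Fin 2 → A) :=
    LinearEquiv.ofLinear (Matrix.toLin' (u : M2 A)) (Matrix.toLin' (↑u⁻¹ : M2 A))
      (by rw [← Matrix.toLin'_mul, Units.mul_inv, Matrix.toLin'_one])
      (by rw [← Matrix.toLin'_mul, Units.inv_mul, Matrix.toLin'_one])
  refine ⟨⟨e, fun σ (x : Fin 2 → A) => ?_⟩⟩
  show (u : M2 A) *ᵥ (r σ *ᵥ x) = r' σ *ᵥ ((u : M2 A) *ᵥ x)
  rw [Matrix.mulVec_mulVec, Matrix.mulVec_mulVec, hconj]

lemma trace_eq_of_isEquiv {ρ₁ ρ₂ : GaloisRepAdic A} (h : ρ₁.IsEquiv ρ₂) (σ : GG) :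
    ρ₁.trace σ = ρ₂.trace σ := by
  obtain ⟨e⟩ := h
  have h' : ρ₂.ρ σ = e.toLinearEquiv.conj (ρ₁.ρ σ) := by
    refine LinearMap.ext fun y => ?_
    rw [LinearEquiv.conj_apply_apply, e.map_apply, LinearEquiv.apply_symm_apply]
  rw [GaloisRepAdic.trace, GaloisRepAdic.trace, h', LinearMap.trace_conj']

lemma trace_matOf (ρ : GaloisRepAdic A) (b : Module.Basis (Fin 2) A ρ.V) (σ : GG) :
    trace (matOf ρ b σ) = ρ.trace σ := by
  rw [GaloisRepAdic.trace, LinearMap.trace_eq_matrix_trace A b]
  rfl

lemma trace_repOfMatrix (r : GG →* M2 A) (h : MatCts r) (σ : GG) :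
    (repOfMatrix r h).trace σ = trace (r σ) := by
  show LinearMap.trace A (Fin 2 → A) (Matrix.toLin' (r σ)) = _
  exact Matrix.trace_toLin'_eq (r σ)

end Basic

section Map

variable {A B : Type} [CommRing A] [CommRing B]

/-- Apply a ring homomorphism to a matrix representation. -/
noncomputable def mapMat (φ : A →+* B) (r : GG →* M2 A) : GG →* M2 B :=
  φ.mapMatrix.toMonoidHom.comp r

@[simp] lemma mapMat_apply (φ : A →+* B) (r : GG →* M2 A) (σ : GG) :
    mapMat φ r σ = (r σ).map φ := rfl

lemma trace_mapMat (φ : A →+* B) (r : GG →* M2 A) (σ : GG) :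
    trace (mapMat φ r σ) = φ (trace (r σ)) := by
  simp [Matrix.trace_fin_two]

lemma map_maximalIdeal_pow_le [IsLocalRing A] [IsLocalRing B] (φ : A →+* B) (hφ : IsLocalHom φ)
    (n : ℕ) : (maximalIdeal A ^ n).map φ ≤ maximalIdeal B ^ n := by
  rw [Ideal.map_pow]
  exact Ideal.pow_right_mono (Ideal.map_le_iff_le_comap.mpr fun a ha =>
    Ideal.mem_comap.mpr (have := hφ; map_nonunit φ a ha)) n

lemma MatCts.map [IsLocalRing A] [IsLocalRing B] {r : GG →* M2 A} (h : MatCts r) (φ : A →+* B)
    (hφ : IsLocalHom φ) : MatCts (mapMat φ r) := by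
  intro n
  obtain ⟨L, hL, h1⟩ := h n
  refine ⟨L, hL, fun σ hσ i j => ?_⟩
  have h2 : (mapMat φ r σ - 1) i j = φ ((r σ - 1) i j) := by
    simp [Matrix.one_apply, apply_ite φ]
  rw [h2]
  exact map_maximalIdeal_pow_le φ hφ n (Ideal.mem_map_of_mem φ (h1 σ hσ i j))

lemma baseChange_isEquiv [IsLocalRing A] [IsLocalRing B] (φ : A →+* B) (hφ : IsLocalHom φ)
    (ρ : GaloisRepAdic A) (r : GG →* M2 A) (h : MatCts r) (b : Module.Basis (Fin 2) A ρ.V)
    (hr : ∀ σ, matOf ρ b σ = r σ) :
    (repOfMatrix (mapMat φ r) (h.map φ hφ)).IsEquiv (ρ.baseChangeAlong φ hφ) := by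
  let : Algebra A B := φ.toAlgebra
  let b' : Module.Basis (Fin 2) B (ρ.baseChangeAlong φ hφ).V := Algebra.TensorProduct.basis B b
  refine isEquiv_repOfMatrix (ρ.baseChangeAlong φ hφ) b' _ _ fun σ => ?_
  rw [mapMat_apply, ← hr σ]
  ext i j
  rw [Matrix.map_apply, matOf_apply, matOf_apply]
  show (Algebra.TensorProduct.basis B b).repr
    ((ρ.ρ σ).baseChange B (Algebra.TensorProduct.basis B b j)) i = _
  rw [Algebra.TensorProduct.basis_apply, LinearMap.baseChange_tmul,
    Algebra.TensorProduct.basis_repr_tmul]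
  simp [RingHom.algebraMap_toAlgebra]

lemma baseChange_repOfMatrix [IsLocalRing A] [IsLocalRing B] (φ : A →+* B) (hφ : IsLocalHom φ)
    (r : GG →* M2 A) (h : MatCts r) :
    (repOfMatrix (mapMat φ r) (h.map φ hφ)).IsEquiv
      ((repOfMatrix r h).baseChangeAlong φ hφ) := by
  let bb : Module.Basis (Fin 2) A (repOfMatrix r h).V := Pi.basisFun A (Fin 2)
  refine baseChange_isEquiv φ hφ _ r h bb fun σ => ?_
  ext i j
  rw [matOf_apply]
  show (Pi.basisFun A (Fin 2)).repr (r σ *ᵥ Pi.basisFun A (Fin 2) j) i = _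
  simp [Matrix.mulVec, dotProduct, Pi.single_apply]

end Map

section Field

variable {k : Type} [Field k]

/-- The matrices of a residual representation in a basis. -/
noncomputable def resMat (ρ : ResidualGaloisRep k) (b : Module.Basis (Fin 2) k ρ.V) : GG →* M2 k :=
  (LinearMap.toMatrixAlgEquiv b).toRingEquiv.toRingHom.toMonoidHom.comp ρ.ρ

lemma span_resMat_eq_top (ρ : ResidualGaloisRep k) (b : Module.Basis (Fin 2) k ρ.V)
    (habs : ρ.IsAbsolutelyIrreducible) : Submodule.span k (Set.range (resMat ρ b)) = ⊤ := by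
  classical
  let K := AlgebraicClosure k
  let ψ : k →+* K := algebraMap _ _
  let rK : GG →* M2 K := mapMat ψ (resMat ρ b)
  let bK : Module.Basis (Fin 2) K (ρ.baseChange K).V :=
    Algebra.TensorProduct.basis K b
  have hmat : ∀ σ x, bK.equivFun ((ρ.baseChange K).ρ σ x) = rK σ *ᵥ bK.equivFun x := by
    intro σ x
    have hlin : bK.equivFun.toLinearMap ∘ₗ ((ρ.baseChange K).ρ σ) =
        (Matrix.toLin' (rK σ)) ∘ₗ bK.equivFun.toLinearMap := by
      refine bK.ext fun j => ?_
      ext i
      simp only [LinearMap.comp_apply, LinearEquiv.coe_coe, Module.Basis.equivFun_apply,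
        Matrix.toLin'_apply, Module.Basis.repr_self]
      show bK.repr ((ρ.ρ σ).baseChange K (bK j)) i = _
      simp only [bK, Algebra.TensorProduct.basis_apply, LinearMap.baseChange_tmul,
        Algebra.TensorProduct.basis_repr_tmul]
      simp [rK, ψ, resMat, LinearMap.toMatrixAlgEquiv_apply, Matrix.mulVec, dotProduct,
        Finsupp.single_apply, Algebra.smul_def]
    exact congrArg (fun f : (ρ.baseChange K).V →ₗ[K] (Fin 2 → K) => f x) hlin
  have hmoves : MovesEveryLine (Set.range rK) := by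
    intro v hv
    by_contra hcon
    push Not at hcon
    let W : Submodule K (ρ.baseChange K).V := Submodule.span K {bK.equivFun.symm v}
    have hW : ∀ σ, ∀ x ∈ W, (ρ.baseChange K).ρ σ x ∈ W := by
      intro σ x hx
      obtain ⟨a, rfl⟩ := Submodule.mem_span_singleton.mp hx
      obtain ⟨c, hc⟩ := hcon (rK σ) ⟨σ, rfl⟩
      refine Submodule.mem_span_singleton.mpr ⟨a * c, bK.equivFun.injective ?_⟩
      rw [hmat, map_smul, map_smul, LinearEquiv.apply_symm_apply, Matrix.mulVec_smul, hc,
        smul_smul]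
    rcases habs W hW with hbot | htop
    · exact hv (bK.equivFun.symm.map_eq_zero_iff.mp (Submodule.span_singleton_eq_bot.mp hbot))
    · have h1 := finrank_span_le_card (R := K) ({bK.equivFun.symm v} : Set (ρ.baseChange K).V)
      change Module.finrank K W ≤ _ at h1
      rw [htop, finrank_top, (ρ.baseChange K).finrank_eq] at h1
      simp at h1
  refine span_eq_top_of_map_span_eq_top ψ _ ?_
  rw [← Set.range_comp]
  exact span_range_eq_top_of_movesEveryLine rK hmoves

end Field

section Residual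

variable {O : Type} [CommRing O] [IsLocalRing O] (ρbar : ResidualGaloisRep (ResidueField O))

/-- A fixed basis of a residual representation. -/
noncomputable def barBasis : Module.Basis (Fin 2) (ResidueField O) ρbar.V :=
  Module.finBasisOfFinrankEq _ _ ρbar.finrank_eq

/-- The matrices of a residual representation in the fixed basis. -/
noncomputable def barMat : GG →* M2 (ResidueField O) :=
  (LinearMap.toMatrixAlgEquiv (barBasis ρbar)).toRingEquiv.toRingHom.toMonoidHom.comp ρbar.ρ

/-- Entrywise lifts to `O` of the residual matrices. -/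
noncomputable def barLift (σ : GG) : M2 O :=
  Matrix.of fun i j => (residue_surjective (barMat ρbar σ i j)).choose

lemma residue_barLift (σ : GG) (i j : Fin 2) :
    residue O (barLift ρbar σ i j) = barMat ρbar σ i j :=
  (residue_surjective (barMat ρbar σ i j)).choose_spec

variable {A : Type} [CommRing A] [IsLocalRing A] [Algebra O A]

/-- A matrix representation over an `O`-algebra lifts the residual one. -/
def Reduces (r : GG →* M2 A) : Prop :=
  ∀ σ i j, r σ i j - algebraMap O A (barLift ρbar σ i j) ∈ maximalIdeal A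

lemma reduces_iff [IsLocalHom (algebraMap O A)] (r : GG →* M2 A) :
    Reduces ρbar r ↔
      ∀ σ, (r σ).map (residue A) = (barMat ρbar σ).map (ResidueField.map (algebraMap O A)) := by
  have key : ∀ σ i j, (r σ i j - algebraMap O A (barLift ρbar σ i j) ∈ maximalIdeal A) ↔
      residue A (r σ i j) = ResidueField.map (algebraMap O A) (barMat ρbar σ i j) := by
    intro σ i j
    rw [← residue_eq_zero_iff, map_sub, sub_eq_zero, ← residue_barLift,
      ResidueField.map_residue]
  constructor
  · intro h σ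
    ext i j
    exact (key σ i j).mp (h σ i j)
  · intro h σ i j
    exact (key σ i j).mpr (congrFun (congrFun (h σ) i) j)

lemma Reduces.map {r : GG →* M2 A} (h : Reduces ρbar r) {B : Type} [CommRing B] [IsLocalRing B]
    [Algebra O B] (φ : A →ₐ[O] B) (hφ : IsLocalHom (φ : A →+* B)) :
    Reduces ρbar (mapMat (φ : A →+* B) r) := by
  intro σ i j
  have h1 := map_nonunit (φ : A →+* B) _ (h σ i j)
  simpa using h1

lemma Reduces.residue_eq {r r' : GG →* M2 A} (h : Reduces ρbar r) (h' : Reduces ρbar r') (σ : GG) :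
    (r σ).map (residue A) = (r' σ).map (residue A) := by
  ext i j
  rw [Matrix.map_apply, Matrix.map_apply, ← sub_eq_zero, ← map_sub, residue_eq_zero_iff]
  simpa using sub_mem (h σ i j) (h' σ i j)

lemma spansResidue_of_reduces [IsLocalHom (algebraMap O A)]
    (habs : ρbar.IsAbsolutelyIrreducible) {r : GG →* M2 A} (h : Reduces ρbar r) :
    SpansResidue r := by
  have hk : Submodule.span (ResidueField O) (Set.range (barMat ρbar)) = ⊤ :=
    span_resMat_eq_top ρbar (barBasis ρbar) habs
  refine top_le_iff.mp fun x _ => ?_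
  let ι := ResidueField.map (algebraMap O A)
  have hrange : ∀ y : M2 (ResidueField O), y.map ι ∈
      Submodule.span (ResidueField A) (Set.range fun σ => (r σ).map (residue A)) := by
    intro y
    have hy : y ∈ Submodule.span (ResidueField O) (Set.range (barMat ρbar)) := hk ▸ trivial
    induction hy using Submodule.span_induction with
    | mem _ hx =>
      obtain ⟨σ, rfl⟩ := hx
      rw [← (reduces_iff ρbar r).mp h σ]
      exact Submodule.subset_span ⟨σ, rfl⟩
    | zero => simp
    | add _ _ _ _ hu hv => rw [Matrix.map_add _ (map_add ι)]; exact add_mem hu hv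
    | smul c u _ hu =>
      have : (c • u).map ι = ι c • u.map ι := by ext i j; simp
      rw [this]
      exact Submodule.smul_mem _ _ hu
  rw [Matrix.matrix_eq_sum_single x]
  refine Submodule.sum_mem _ fun i _ => Submodule.sum_mem _ fun j _ => ?_
  rw [← mul_one (x i j), ← smul_eq_mul, ← Matrix.smul_single]
  refine Submodule.smul_mem _ _ ?_
  convert hrange (Matrix.single i j 1) using 1
  simp

lemma residual_isEquiv_of_reduces [IsLocalHom (algebraMap O A)] (ρ : GaloisRepAdic A)
    (b : Module.Basis (Fin 2) A ρ.V) (h : Reduces ρbar (matOf ρ b)) :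
    ρ.residual.IsEquiv (ρbar.baseChangeAlong (ResidueField.map (algebraMap O A))) := by
  let ι := ResidueField.map (algebraMap O A)
  let : Algebra (ResidueField O) (ResidueField A) := ι.toAlgebra
  let b₁ : Module.Basis (Fin 2) (ResidueField A) ρ.residual.V :=
    Algebra.TensorProduct.basis (ResidueField A) b
  let b₂ : Module.Basis (Fin 2) (ResidueField A) (ρbar.baseChangeAlong ι).V :=
    Algebra.TensorProduct.basis (ResidueField A) (barBasis ρbar)
  refine ⟨⟨b₁.equiv b₂ (Equiv.refl _), fun σ x => ?_⟩⟩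
  have hlin : (b₁.equiv b₂ (Equiv.refl _)).toLinearMap ∘ₗ (ρ.residual.ρ σ) =
      ((ρbar.baseChangeAlong ι).ρ σ) ∘ₗ (b₁.equiv b₂ (Equiv.refl _)).toLinearMap := by
    refine b₁.ext fun j => ?_
    simp only [LinearMap.comp_apply, LinearEquiv.coe_coe, Module.Basis.equiv_apply,
      Equiv.refl_apply]
    apply b₂.repr.injective
    ext i
    have h1 : b₁.repr (ρ.residual.ρ σ (b₁ j)) i = residue A (matOf ρ b σ i j) := by
      show (Algebra.TensorProduct.basis (ResidueField A) b).repr ((ρ.ρ σ).baseChange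
        (ResidueField A) (Algebra.TensorProduct.basis (ResidueField A) b j)) i = _
      rw [Algebra.TensorProduct.basis_apply, LinearMap.baseChange_tmul,
        Algebra.TensorProduct.basis_repr_tmul]
      simp [matOf_apply, ResidueField.algebraMap_eq]
    have h2 : b₂.repr ((ρbar.baseChangeAlong ι).ρ σ (b₂ j)) i = ι (barMat ρbar σ i j) := by
      show (Algebra.TensorProduct.basis (ResidueField A) (barBasis ρbar)).repr
        ((ρbar.ρ σ).baseChange (ResidueField A)
          (Algebra.TensorProduct.basis (ResidueField A) (barBasis ρbar) j)) i = _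
      rw [Algebra.TensorProduct.basis_apply, LinearMap.baseChange_tmul,
        Algebra.TensorProduct.basis_repr_tmul]
      simp [barMat, LinearMap.toMatrixAlgEquiv_apply, RingHom.algebraMap_toAlgebra]
    have h3 := congrFun (congrFun ((reduces_iff ρbar (matOf ρ b)).mp h σ) i) j
    simp only [Matrix.map_apply] at h3
    rw [h2, ← h3, ← h1]
    simp [Module.Basis.equiv]
  exact congrArg (fun f : ρ.residual.V →ₗ[ResidueField A] (ρbar.baseChangeAlong ι).V => f x) hlin

lemma exists_basis_reduces [IsLocalHom (algebraMap O A)] (ρ : GaloisRepAdic A)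
    (h : ρ.residual.IsEquiv (ρbar.baseChangeAlong (ResidueField.map (algebraMap O A)))) :
    ∃ b : Module.Basis (Fin 2) A ρ.V, Reduces ρbar (matOf ρ b) := by
  obtain ⟨e⟩ := h
  obtain ⟨b₀⟩ := nonempty_basis ρ
  let ι := ResidueField.map (algebraMap O A)
  let : Algebra (ResidueField O) (ResidueField A) := ι.toAlgebra
  let c : Module.Basis (Fin 2) (ResidueField A) (ρbar.baseChangeAlong ι).V :=
    Algebra.TensorProduct.basis (ResidueField A) (barBasis ρbar)
  let c' : Module.Basis (Fin 2) (ResidueField A) ρ.residual.V := c.map e.toLinearEquiv.symm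
  have hsurj : ∀ w : ρ.residual.V, ∃ v : ρ.V, (1 : ResidueField A) ⊗ₜ[A] v = w :=
    fun w => TensorProduct.mk_surjective A ρ.V (ResidueField A) residue_surjective w
  choose v hv using fun j => hsurj (c' j)
  let bR : Module.Basis (Fin 2) (ResidueField A) ρ.residual.V :=
    Algebra.TensorProduct.basis (ResidueField A) b₀
  let P : M2 A := b₀.toMatrix v
  have hPres : P.map (residue A) = bR.toMatrix c' := by
    ext i j
    simp only [P, Matrix.map_apply, Module.Basis.toMatrix_apply, ← hv j]
    show _ = (Algebra.TensorProduct.basis (ResidueField A) b₀).repr (1 ⊗ₜ[A] v j) i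
    rw [Algebra.TensorProduct.basis_repr_tmul]
    simp [ResidueField.algebraMap_eq]
  have hPu : IsUnit P.det := by
    refine IsUnit.of_map (residue A) _ ?_
    rw [RingHom.map_det, RingHom.mapMatrix_apply, hPres]
    have := bR.invertibleToMatrix c'
    exact Matrix.isUnit_det_of_invertible _
  obtain ⟨hli, hsp⟩ : LinearIndependent A v ∧ Submodule.span A (Set.range v) = ⊤ :=
    (Module.Basis.is_basis_iff_det b₀).mpr (by rwa [Module.Basis.det_apply])
  let b : Module.Basis (Fin 2) A ρ.V := Module.Basis.mk hli hsp.ge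
  have hb : ∀ j, b j = v j := fun j => Module.Basis.mk_apply hli hsp.ge j
  refine ⟨b, (reduces_iff ρbar _).mpr fun σ => ?_⟩
  let bb : Module.Basis (Fin 2) (ResidueField A) ρ.residual.V :=
    Algebra.TensorProduct.basis (ResidueField A) b
  have hbb : bb = c' := Module.Basis.eq_of_apply_eq fun j => by
    show Algebra.TensorProduct.basis (ResidueField A) b j = _
    rw [Algebra.TensorProduct.basis_apply, hb, hv]
  ext i j
  have h1 : residue A (matOf ρ b σ i j) = bb.repr (ρ.residual.ρ σ (bb j)) i := by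
    show _ = (Algebra.TensorProduct.basis (ResidueField A) b).repr ((ρ.ρ σ).baseChange
        (ResidueField A) (Algebra.TensorProduct.basis (ResidueField A) b j)) i
    rw [Algebra.TensorProduct.basis_apply, LinearMap.baseChange_tmul,
      Algebra.TensorProduct.basis_repr_tmul]
    simp [matOf_apply, ResidueField.algebraMap_eq]
  rw [Matrix.map_apply, Matrix.map_apply, h1, hbb]
  simp only [c', Module.Basis.map_apply, Module.Basis.map_repr, LinearEquiv.trans_apply]
  rw [LinearEquiv.symm_symm, e.map_apply, LinearEquiv.apply_symm_apply]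
  show (Algebra.TensorProduct.basis (ResidueField A) (barBasis ρbar)).repr
    ((ρbar.ρ σ).baseChange (ResidueField A)
      (Algebra.TensorProduct.basis (ResidueField A) (barBasis ρbar) j)) i = _
  rw [Algebra.TensorProduct.basis_apply, LinearMap.baseChange_tmul,
    Algebra.TensorProduct.basis_repr_tmul]
  simp [ι, barMat, LinearMap.toMatrixAlgEquiv_apply, RingHom.algebraMap_toAlgebra]

end Residual

end FLTAgent.Deformation
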