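import Fermat.Agent.Deformation.RegularSeq

/-!
# Completeness of `𝒪⟦X₁, …, X_r⟧` for its maximal ideal
-/

set_option autoImplicit false

namespace FLTAgent.Deformation

open IsLocalRing

/-- If a ring is precomplete for two ideals then it is precomplete for their supremum. -/
theorem isPrecomplete_sup {P : Type*} [CommRing P] (I J : Ideal P) [IsPrecomplete I P]
    [IsPrecomplete J P] : IsPrecomplete (I ⊔ J) P := by
  refine ⟨fun x hx => ?_⟩
  have hmem : ∀ n, x (2 * (n + 1)) - x (2 * n) ∈ I ^ n ⊔ J ^ n := by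
    intro n
    have h := SModEq.sub_mem.mp (hx (m := 2 * n) (n := 2 * (n + 1)) (by lia)).symm
    rw [smul_eq_mul, Ideal.mul_top] at h
    have h' : (I ⊔ J) ^ (2 * n) = (I ⊔ J) ^ (n + n) := by rw [two_mul]
    exact (Ideal.sup_pow_add_le_pow_sup_pow (I := I) (J := J)) (h' ▸ h)
  choose a ha b hb hab using fun n => Submodule.mem_sup.mp (hmem n)
  have hconv : ∀ (K : Ideal P) [IsPrecomplete K P] (d : ℕ → P), (∀ n, d n ∈ K ^ n) →
      ∃ L, ∀ n, L - ∑ i ∈ Finset.range n, d i ∈ K ^ n := by
    intro K _ d hd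
    obtain ⟨L, hL⟩ := IsPrecomplete.prec (I := K) ‹_›
      (f := fun n => ∑ i ∈ Finset.range n, d i) (fun {m n} hmn => by
        refine (SModEq.sub_mem.mpr ?_).symm
        rw [smul_eq_mul, Ideal.mul_top, ← Finset.sum_Ico_eq_sub _ hmn]
        exact Submodule.sum_mem _ fun i hi =>
          Ideal.pow_le_pow_right (Finset.mem_Ico.mp hi).1 (hd i))
    refine ⟨L, fun n => ?_⟩
    have := SModEq.sub_mem.mp (hL n).symm
    rwa [smul_eq_mul, Ideal.mul_top] at this
  obtain ⟨La, hLa⟩ := hconv I a ha
  obtain ⟨Lb, hLb⟩ := hconv J b hb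
  refine ⟨x 0 + La + Lb, fun n => ?_⟩
  have htel : x (2 * n) = x 0 + ∑ i ∈ Finset.range n, a i + ∑ i ∈ Finset.range n, b i := by
    rw [add_assoc, ← Finset.sum_add_distrib, Finset.sum_congr rfl fun i _ => hab i,
      Finset.sum_range_sub (fun i => x (2 * i))]
    ring
  refine (hx (m := n) (n := 2 * n) (by lia)).trans (SModEq.sub_mem.mpr ?_).symm.symm
  rw [smul_eq_mul, Ideal.mul_top, htel]
  have : x 0 + ∑ i ∈ Finset.range n, a i + ∑ i ∈ Finset.range n, b i - (x 0 + La + Lb) =
      -((La - ∑ i ∈ Finset.range n, a i) + (Lb - ∑ i ∈ Finset.range n, b i)) := by ring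
  rw [this]
  exact neg_mem (add_mem (Ideal.pow_right_mono le_sup_left n (hLa n))
    (Ideal.pow_right_mono le_sup_right n (hLb n)))

variable {O : Type} [CommRing O]

theorem isPrecomplete_span_C {σ : Type*} (w : O) [IsPrecomplete (Ideal.span {w}) O] :
    IsPrecomplete (Ideal.span {(MvPowerSeries.C w : MvPowerSeries σ O)}) (MvPowerSeries σ O) := by
  have hmem : ∀ (n : ℕ) (g : MvPowerSeries σ O),
      g ∈ Ideal.span {(MvPowerSeries.C w : MvPowerSeries σ O)} ^ n ↔ ∀ e, MvPowerSeries.coeff e g ∈ Ideal.span {w} ^ n := by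
    intro n g
    simp only [Ideal.span_singleton_pow, Ideal.mem_span_singleton, ← map_pow]
    constructor
    · rintro ⟨q, rfl⟩ e
      exact ⟨MvPowerSeries.coeff e q, MvPowerSeries.coeff_C_mul e q _⟩
    · intro h
      choose q hq using h
      let Q : MvPowerSeries σ O := fun e => q e
      have hQ : ∀ e, MvPowerSeries.coeff e Q = q e := fun e => rfl
      refine ⟨Q, MvPowerSeries.ext fun e => ?_⟩
      rw [MvPowerSeries.coeff_C_mul, hQ, hq e]
  refine ⟨fun x hx => ?_⟩
  have hc : ∀ e, ∃ L : O, ∀ n, MvPowerSeries.coeff e (x n) ≡ L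
      [SMOD (Ideal.span {w} ^ n • ⊤ : Submodule O O)] := by
    intro e
    refine IsPrecomplete.prec inferInstance fun {m n} hmn => ?_
    refine SModEq.sub_mem.mpr ?_
    have h := SModEq.sub_mem.mp (hx hmn)
    rw [smul_eq_mul, Ideal.mul_top] at h ⊢
    simpa using (hmem m _).mp h e
  choose L hL using hc
  let F : MvPowerSeries σ O := fun e => L e
  have hF : ∀ e, MvPowerSeries.coeff e F = L e := fun e => rfl
  refine ⟨F, fun n => SModEq.sub_mem.mpr ?_⟩
  rw [smul_eq_mul, Ideal.mul_top, hmem]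
  intro e
  have h := SModEq.sub_mem.mp (hL e n)
  rw [smul_eq_mul, Ideal.mul_top] at h
  rw [map_sub, hF]
  exact h

variable [IsDomain O] [IsDiscreteValuationRing O]

/-- The power series ring over a complete discrete valuation ring is complete. -/
theorem isAdicComplete_mvPowerSeries [IsAdicComplete (maximalIdeal O) O] (r : ℕ) :
    IsAdicComplete (maximalIdeal (MvPowerSeries (Fin r) O)) (MvPowerSeries (Fin r) O) := by
  obtain ⟨w, hw⟩ := IsDiscreteValuationRing.exists_irreducible O
  have : IsPrecomplete (Ideal.span {w}) O := by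
    rw [← hw.maximalIdeal_eq]; infer_instance
  have := isPrecomplete_span_C (σ := Fin r) w
  have hprec := isPrecomplete_sup
    (Ideal.span (Set.range (MvPowerSeries.X : Fin r → MvPowerSeries (Fin r) O)))
    (Ideal.span {MvPowerSeries.C w})
  have heq : Ideal.span (Set.range (MvPowerSeries.X : Fin r → MvPowerSeries (Fin r) O)) ⊔
      Ideal.span {MvPowerSeries.C w} = maximalIdeal (MvPowerSeries (Fin r) O) := by
    refine le_antisymm (sup_le ?_ ?_) fun f hf => ?_
    · rw [Ideal.span_le]
      rintro _ ⟨j, rfl⟩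
      simp [MvPowerSeries.isUnit_iff_constantCoeff]
    · rw [Ideal.span_le, Set.singleton_subset_iff]
      simpa [MvPowerSeries.isUnit_iff_constantCoeff] using hw.not_isUnit
    · rw [mem_maximalIdeal, mem_nonunits_iff, MvPowerSeries.isUnit_iff_constantCoeff,
        ← mem_nonunits_iff, ← mem_maximalIdeal, hw.maximalIdeal_eq, Ideal.mem_span_singleton] at hf
      obtain ⟨u, hu⟩ := hf
      rw [← sub_add_cancel f (MvPowerSeries.C (MvPowerSeries.constantCoeff f))]
      refine add_mem (Submodule.mem_sup_left ?_) (Submodule.mem_sup_right ?_)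
      · exact mem_span_range_X_of_constantCoeff_eq_zero r _ (by simp)
      · rw [hu, map_mul]
        exact Ideal.mul_mem_right _ _ (Ideal.subset_span rfl)
  rw [heq] at hprec
  exact { }

end FLTAgent.Deformation
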