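import Fermat.Agent.Deformation.Tower
import Fermat.Agent.Deformation.PowerSeriesComplete
import Fermat.Prelude.Thm_IsLocalRing_isAdicComplete_of_module_finite

/-!
# The complete Noetherian ring cut out by a tower of finite test algebras
-/

set_option autoImplicit false

namespace FLTAgent.Deformation

open IsLocalRing GaloisRep

variable {O : Type} [CommRing O] [IsDomain O] [IsDiscreteValuationRing O]
  {ρbar : ResidualGaloisRep (ResidueField O)}
  {𝒟 : ∀ ⦃A : Type⦄ [CommRing A] [IsLocalRing A] [Algebra O A], GaloisRepAdic A → Prop}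

lemma map_maximalIdeal_of_surjective {A B : Type} [CommRing A] [IsLocalRing A] [CommRing B]
    [IsLocalRing B] (f : A →+* B) (hf : Function.Surjective f) :
    (maximalIdeal A).map f = maximalIdeal B := by
  have := IsLocalHom.of_surjective f hf
  refine le_antisymm (Ideal.map_le_iff_le_comap.mpr fun a ha => map_nonunit f a ha) fun b hb => ?_
  obtain ⟨a, rfl⟩ := hf b
  exact Ideal.mem_map_of_mem f ((mem_maximalIdeal a).mpr fun h => (mem_maximalIdeal _).mp hb (h.map f))

/-- A complete Noetherian local ring presenting a tower of test algebras. -/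
structure LimitData (E : ℕ → TDef ρbar 𝒟) (t : ∀ n, (E (n + 1)).A →ₐ[O] (E n).A) : Type 1 where
  /-- The ring. -/
  R : Type
  [ring : CommRing R]
  [loc : IsLocalRing R]
  [noeth : IsNoetherianRing R]
  [complete : IsAdicComplete (maximalIdeal R) R]
  [alg : Algebra O R]
  residue_surjective : Function.Surjective (residue R ∘ algebraMap O R)
  /-- The projections. -/
  q : ∀ n, R →ₐ[O] (E n).A
  q_surjective : ∀ n, Function.Surjective (q n)
  q_compat : ∀ n x, t n (q (n + 1) x) = q n x
  ker_q : ∀ n, RingHom.ker (q n) = maximalIdeal R ^ (n + 2)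

attribute [instance] LimitData.ring LimitData.loc LimitData.noeth LimitData.complete LimitData.alg

theorem nonempty_limitData [IsAdicComplete (maximalIdeal O) O] (E : ℕ → TDef ρbar 𝒟)
    (t : ∀ n, (E (n + 1)).A →ₐ[O] (E n).A) (ht : ∀ n, Function.Surjective (t n))
    (hker : ∀ n, RingHom.ker (t n) = maximalIdeal (E (n + 1)).A ^ (n + 2))
    (hnil : ∀ n, maximalIdeal (E n).A ^ (n + 2) = ⊥) {C : ℕ} (x : Fin C → (E 0).A)
    (hxm : ∀ i, x i ∈ maximalIdeal (E 0).A)
    (hx : ∀ a ∈ maximalIdeal (E 0).A, ∃ i, a - x i ∈ cotIdeal O (E 0).A) :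
    Nonempty (LimitData E t) := by
  classical
  let P := MvPowerSeries (Fin C) O
  -- compatible generators
  let xs : ∀ n, Fin C → (E n).A := fun n => Nat.rec (motive := fun n => Fin C → (E n).A) x
    (fun n prev i => Function.surjInv (ht n) (prev i)) n
  have hxs : ∀ n i, t n (xs (n + 1) i) = xs n i := fun n i => Function.surjInv_eq (ht n) _
  have hxsm : ∀ n i, xs n i ∈ maximalIdeal (E n).A := by
    intro n
    induction n with
    | zero => exact hxm
    | succ n ih =>
      intro i
      rw [mem_maximalIdeal, mem_nonunits_iff]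
      intro h
      exact (mem_maximalIdeal _).mp (hxs n i ▸ ih i) (h.map (t n))
  -- evaluation at the generators
  have hvars : ∀ n, ∀ p ∈ MvPolynomial.idealOfVars (Fin C) O ^ (n + 2),
      MvPolynomial.aeval (xs n) p = 0 := by
    intro n p hp
    have h1 : (MvPolynomial.idealOfVars (Fin C) O).map (MvPolynomial.aeval (R := O) (xs n)) ≤
        maximalIdeal (E n).A := by
      rw [MvPolynomial.idealOfVars, Ideal.map_span, Ideal.span_le]
      rintro _ ⟨_, ⟨i, rfl⟩, rfl⟩
      rw [MvPolynomial.aeval_X]
      exact hxsm n i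
    have h2 := Ideal.mem_map_of_mem (MvPolynomial.aeval (R := O) (xs n)) hp
    rw [Ideal.map_pow] at h2
    have h3 := Ideal.pow_right_mono h1 _ h2
    rwa [hnil n, Ideal.mem_bot] at h3
  let f : ∀ n, P →ₐ[O] (E n).A := fun n =>
    (Ideal.Quotient.liftₐ _ (MvPolynomial.aeval (R := O) (xs n)) (hvars n)).comp
      ((MvPowerSeries.truncTotalAlgHom (Fin C) O (n + 2)).restrictScalars O)
  have hf : ∀ n p, f n p = MvPolynomial.aeval (xs n) (MvPowerSeries.truncTotal (n + 2) p) :=
    fun n p => rfl
  have hfpoly : ∀ n (p : MvPolynomial (Fin C) O),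
      f n (algebraMap (MvPolynomial (Fin C) O) P p) = MvPolynomial.aeval (xs n) p := by
    intro n p
    show Ideal.Quotient.liftₐ _ (MvPolynomial.aeval (R := O) (xs n)) (hvars n)
      (MvPowerSeries.truncTotalAlgHom (Fin C) O (n + 2) (algebraMap (MvPolynomial (Fin C) O) P p)) = _
    rw [AlgHom.commutes]
    rfl
  have hcompat : ∀ n p, t n (f (n + 1) p) = f n p := by
    intro n p
    rw [hf, hf, ← AlgHom.comp_apply, MvPolynomial.comp_aeval]
    have : (fun i => t n (xs (n + 1) i)) = xs n := funext (hxs n)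
    rw [this, ← sub_eq_zero, ← map_sub]
    exact hvars n _ (MvPowerSeries.truncTotal_sub_truncTotal_mem_pow_idealOfVars
      (Nat.le_succ _) le_rfl p)
  -- projections to the bottom level
  let t0 : ∀ n, (E n).A →ₐ[O] (E 0).A := fun n =>
    Nat.rec (motive := fun n => (E n).A →ₐ[O] (E 0).A) (AlgHom.id O _)
      (fun n prev => prev.comp (t n)) n
  have ht0 : ∀ n, Function.Surjective (t0 n) ∧ RingHom.ker (t0 n) ≤ maximalIdeal (E n).A ^ 2 ∧
      ∀ i, t0 n (xs n i) = x i := by
    intro n
    induction n with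
    | zero => exact ⟨Function.surjective_id, fun a ha => by
        rw [show a = 0 from ha]; exact zero_mem _, fun i => rfl⟩
    | succ n ih =>
      refine ⟨ih.1.comp (ht n), fun a ha => ?_, fun i => ?_⟩
      · have h1 : t n a ∈ maximalIdeal (E n).A ^ 2 := ih.2.1 ha
        rw [← map_maximalIdeal_of_surjective (t n : (E (n + 1)).A →+* (E n).A) (ht n),
          ← Ideal.map_pow] at h1
        obtain ⟨b, hb, hab⟩ := (Ideal.mem_map_iff_of_surjective _ (ht n)).mp h1
        have h2 : a - b ∈ RingHom.ker (t n) := by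
          rw [RingHom.mem_ker, map_sub, sub_eq_zero]; exact hab.symm
        rw [hker n] at h2
        simpa using add_mem (Ideal.pow_le_pow_right (show 2 ≤ n + 2 by omega) h2) hb
      · show t0 n (t n (xs (n + 1) i)) = x i
        rw [hxs, ih.2.2]
  have hfsurj : ∀ n, Function.Surjective (f n) := by
    intro n
    obtain ⟨hs, hk, hxi⟩ := ht0 n
    refine surjective_of_cot (E n).test (f n) fun a ha => ?_
    have hloc := IsLocalHom.of_surjective (t0 n : (E n).A →+* (E 0).A) hs
    obtain ⟨i, hi⟩ := hx _ (map_nonunit (t0 n : (E n).A →+* (E 0).A) a ha)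
    refine ⟨algebraMap (MvPolynomial (Fin C) O) P (MvPolynomial.X i), ?_⟩
    rw [hfpoly, MvPolynomial.aeval_X]
    have hmap : (cotIdeal O (E n).A).map (t0 n : (E n).A →+* (E 0).A) = cotIdeal O (E 0).A := by
      rw [cotIdeal, cotIdeal, Ideal.map_sup, Ideal.map_pow, map_maximalIdeal_of_surjective (t0 n : (E n).A →+* (E 0).A) hs,
        Ideal.map_map]
      congr 2
      exact RingHom.ext fun o => (t0 n).commutes o
    rw [← hmap] at hi
    obtain ⟨s, hsm, hst⟩ := (Ideal.mem_map_iff_of_surjective _ hs).mp hi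
    have h2 : a - xs n i - s ∈ RingHom.ker (t0 n) := by
      rw [RingHom.mem_ker, map_sub, map_sub, hxi, sub_eq_zero]
      exact hst.symm
    have h3 := add_mem (Submodule.mem_sup_left (hk h2) : _ ∈ cotIdeal O (E n).A) hsm
    rwa [sub_add_cancel] at h3
  -- the quotient ring
  have hPc : IsAdicComplete (maximalIdeal P) P := isAdicComplete_mvPowerSeries C
  let K : Ideal P := ⨅ n, RingHom.ker (f n)
  let R := P ⧸ K
  have hKtop : K ≠ ⊤ := fun h => by
    have h1 : (1 : P) ∈ RingHom.ker (f 0) := (Ideal.mem_iInf.mp (show (1 : P) ∈ K by rw [h]; trivial)) 0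
    rw [RingHom.mem_ker, map_one] at h1
    exact one_ne_zero h1
  have : Nontrivial R := Ideal.Quotient.nontrivial_iff.mpr hKtop
  have : IsLocalRing R :=
    IsLocalRing.of_surjective' (Ideal.Quotient.mk K) Ideal.Quotient.mk_surjective
  have : IsLocalHom (algebraMap P R) :=
    IsLocalHom.of_surjective _ Ideal.Quotient.mk_surjective
  have hRc : IsAdicComplete (maximalIdeal R) R :=
    IsLocalRing.isAdicComplete_of_module_finite (𝒪 := P)
  let q : ∀ n, R →ₐ[O] (E n).A := fun n => Ideal.Quotient.liftₐ K (f n) fun a ha =>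
    RingHom.mem_ker.mp (Ideal.mem_iInf.mp ha n)
  have hfm : ∀ n j, (maximalIdeal P ^ j).map (f n) = maximalIdeal (E n).A ^ j := fun n j => by
    rw [Ideal.map_pow]
    exact congrArg (· ^ j) (map_maximalIdeal_of_surjective (f n : P →+* (E n).A) (hfsurj n))
  have hkerf : ∀ n, ∀ p, f n p = 0 → ∃ y ∈ K, p - y ∈ maximalIdeal P ^ (n + 2) := by
    intro n p hp
    have step : ∀ j (u : P), f j u = 0 → ∃ v, f (j + 1) v = 0 ∧ u - v ∈ maximalIdeal P ^ (j + 2) := by
      intro j u hu
      have h1 : f (j + 1) u ∈ maximalIdeal (E (j + 1)).A ^ (j + 2) := by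
        rw [← hker j, RingHom.mem_ker, hcompat, hu]
      rw [← hfm] at h1
      obtain ⟨w, hw, hwu⟩ := (Ideal.mem_map_iff_of_surjective _ (hfsurj (j + 1))).mp h1
      exact ⟨u - w, by rw [map_sub, sub_eq_zero, hwu], by simpa using hw⟩
    choose v hv hvm using step
    let u : ∀ j, {u : P // f (n + j) u = 0} := fun j => Nat.rec (motive := fun j =>
      {u : P // f (n + j) u = 0}) ⟨p, hp⟩ (fun j prev => ⟨v (n + j) prev.1 prev.2, hv _ _ _⟩) j
    have hu : ∀ j, (u j).1 - (u (j + 1)).1 ∈ maximalIdeal P ^ (n + j + 2) := fun j => hvm _ _ _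
    have hdiff : ∀ i j, i ≤ j → (u i).1 - (u j).1 ∈ maximalIdeal P ^ (n + i + 2) := by
      intro i j hij
      induction j, hij using Nat.le_induction with
      | base => simp
      | succ j hj ih =>
        have := add_mem ih (Ideal.pow_le_pow_right (by omega) (hu j))
        simpa using this
    obtain ⟨y, hy⟩ := IsPrecomplete.prec (I := maximalIdeal P) inferInstance
      (f := fun j => (u j).1) (fun {i j} hij => by
        rw [SModEq.sub_mem, smul_eq_mul, Ideal.mul_top]
        exact Ideal.pow_le_pow_right (by omega) (hdiff i j hij))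
    have hy' : ∀ j, (u j).1 - y ∈ maximalIdeal P ^ (n + j + 2) := by
      intro j
      have h1 := hy (n + j + 2)
      rw [SModEq.sub_mem, smul_eq_mul, Ideal.mul_top] at h1
      simpa using add_mem (hdiff j (n + j + 2) (by omega)) h1
    have hfy : ∀ j, f (n + j) y = 0 := by
      intro j
      have h1 := Ideal.mem_map_of_mem (f (n + j)) (hy' j)
      rw [hfm, hnil (n + j), Ideal.mem_bot, map_sub, (u j).2, zero_sub, neg_eq_zero] at h1
      exact h1
    refine ⟨y, Ideal.mem_iInf.mpr fun j => ?_, hy' 0⟩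
    have hdown : ∀ a b, a ≤ b → f b y = 0 → f a y = 0 := by
      intro a b hab
      induction b, hab using Nat.le_induction with
      | base => exact id
      | succ b hb ih => intro h; exact ih (by rw [← hcompat, h, map_zero])
    exact RingHom.mem_ker.mpr (hdown j (n + j) (Nat.le_add_left j n) (hfy j))
  refine ⟨{
    R := R
    residue_surjective := ?_
    q := q
    q_surjective := ?_
    q_compat := ?_
    ker_q := ?_ }⟩
  · intro y
    obtain ⟨z, rfl⟩ := residue_surjective y
    obtain ⟨p, rfl⟩ := Ideal.Quotient.mk_surjective z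
    refine ⟨MvPowerSeries.constantCoeff p, ?_⟩
    show residue R (Ideal.Quotient.mk K (algebraMap O P (MvPowerSeries.constantCoeff p))) = _
    rw [← sub_eq_zero, ← map_sub, residue_eq_zero_iff, ← map_sub]
    refine map_nonunit (algebraMap P R) _ ?_
    rw [mem_maximalIdeal, mem_nonunits_iff, MvPowerSeries.isUnit_iff_constantCoeff]
    have h0 : MvPowerSeries.constantCoeff (algebraMap O P (MvPowerSeries.constantCoeff p)) -
        MvPowerSeries.constantCoeff p = 0 := by
      rw [sub_eq_zero]
      exact MvPowerSeries.constantCoeff_C _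
    rw [map_sub, h0]
    exact not_isUnit_zero
  · intro n a
    obtain ⟨p, hp⟩ := hfsurj n a
    exact ⟨Ideal.Quotient.mk K p, hp⟩
  · intro n z
    obtain ⟨p, rfl⟩ := Ideal.Quotient.mk_surjective z
    exact hcompat n p
  · intro n
    refine le_antisymm (fun z hz => ?_) ?_
    · obtain ⟨p, rfl⟩ := Ideal.Quotient.mk_surjective z
      obtain ⟨y, hy, hpy⟩ := hkerf n p hz
      have h1 : Ideal.Quotient.mk K p = Ideal.Quotient.mk K (p - y) := by
        rw [map_sub, Ideal.Quotient.eq_zero_iff_mem.mpr hy, sub_zero]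
      rw [h1, ← map_maximalIdeal_of_surjective (Ideal.Quotient.mk K) Ideal.Quotient.mk_surjective,
        ← Ideal.map_pow]
      exact Ideal.mem_map_of_mem _ hpy
    · rw [← map_maximalIdeal_of_surjective (Ideal.Quotient.mk K) Ideal.Quotient.mk_surjective,
        ← Ideal.map_pow, Ideal.map_le_iff_le_comap]
      intro p hp
      show f n p = 0
      have h1 := Ideal.mem_map_of_mem (f n) hp
      rw [hfm, hnil n, Ideal.mem_bot] at h1
      exact h1

end FLTAgent.Deformation
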