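import Mathlib

/-!
# Lifts of a residually spanning two-dimensional matrix representation

Over a local ring such lifts are determined up to strict conjugation by their traces (Carayol), and
descend to any subring containing the traces.
-/

set_option autoImplicit false

namespace FLTAgent.Deformation

open IsLocalRing Matrix

/-- Square matrices of size two. -/
abbrev M2 (A : Type*) := Matrix (Fin 2) (Fin 2) A

variable {G A : Type} [Group G] [CommRing A] [IsLocalRing A]

/-- The residual matrices of `r` span the full matrix algebra of the residue field. -/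
def SpansResidue (r : G →* M2 A) : Prop :=
  Submodule.span (ResidueField A) (Set.range fun g => (r g).map (residue A)) = ⊤

lemma exists_single (x : M2 A) : x = ∑ i, ∑ j, x i j • Matrix.single i j (1 : A) := by
  conv_lhs => rw [Matrix.matrix_eq_sum_single x]
  simp [Matrix.smul_single]

lemma eq_zero_of_forall_trace_mul {x : M2 A} (h : ∀ y, trace (x * y) = 0) : x = 0 := by
  ext i j
  simpa [Matrix.trace_mul_single] using h (Matrix.single j i (1 : A))

lemma map_residue_mem_span_lift {r : G →* M2 A} (S : Set A)
    (hS : ∀ a : A, ∃ b ∈ S, residue A b = residue A a) (hr : SpansResidue r) (y : M2 A) :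
    ∃ c : G →₀ A, (∀ g, c g ∈ insert 0 S) ∧
      (c.sum fun g a => a • r g).map (residue A) = y.map (residue A) := by
  classical
  have hy : y.map (residue A) ∈
      Submodule.span (ResidueField A) (Set.range fun g => (r g).map (residue A)) := hr ▸ trivial
  obtain ⟨c, hc⟩ := (Finsupp.mem_span_range_iff_exists_finsupp).mp hy
  have hlift : ∀ q : ResidueField A, ∃ b ∈ insert 0 S, residue A b = q ∧ (q = 0 → b = 0) := by
    intro q
    by_cases hq : q = 0
    · exact ⟨0, Set.mem_insert _ _, by simp [hq], fun _ => rfl⟩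
    · obtain ⟨a, rfl⟩ := residue_surjective q
      obtain ⟨b, hb, hb'⟩ := hS a
      exact ⟨b, Set.mem_insert_of_mem _ hb, hb', fun h => absurd h hq⟩
  choose l hlS hl hl0 using hlift
  refine ⟨c.mapRange l (hl0 0 rfl), fun g => by simpa using hlS (c g), ?_⟩
  rw [Finsupp.sum_mapRange_index (by simp), ← hc, Finsupp.sum, Finsupp.sum]
  ext i j
  simp [Matrix.map_apply, Matrix.sum_apply, hl]

lemma span_range_eq_top {r : G →* M2 A} (hr : SpansResidue r) :
    Submodule.span A (Set.range r) = ⊤ := by
  refine top_le_iff.mp ?_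
  refine Submodule.le_of_le_smul_of_le_jacobson_bot (I := maximalIdeal A)
    Module.Finite.fg_top (maximalIdeal_le_jacobson _) ?_
  intro y _
  obtain ⟨c, -, hc⟩ := map_residue_mem_span_lift Set.univ (fun a => ⟨a, trivial, rfl⟩) hr y
  rw [Submodule.mem_sup]
  refine ⟨c.sum fun g a => a • r g, ?_, y - c.sum fun g a => a • r g, ?_, by abel⟩
  · exact Submodule.sum_mem _ fun g _ => Submodule.smul_mem _ _ (Submodule.subset_span ⟨g, rfl⟩)
  · rw [exists_single (y - c.sum fun g a => a • r g)]
    refine Submodule.sum_mem _ fun i _ => Submodule.sum_mem _ fun j _ => ?_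
    refine Submodule.smul_mem_smul ?_ Submodule.mem_top
    rw [← residue_eq_zero_iff, Matrix.sub_apply, map_sub, sub_eq_zero]
    exact (congrFun (congrFun hc i) j).symm

lemma SpansResidue.of_map_eq {r r' : G →* M2 A} (hr : SpansResidue r)
    (hres : ∀ g, (r g).map (residue A) = (r' g).map (residue A)) : SpansResidue r' := by
  have : (fun g => (r' g).map (residue A)) = fun g => (r g).map (residue A) :=
    funext fun g => (hres g).symm
  rw [SpansResidue, this]
  exact hr

lemma isUnit_of_map_residue_eq_one {P : M2 A} (h : P.map (residue A) = 1) : IsUnit P := by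
  have hd : residue A P.det = 1 := by
    rw [RingHom.map_det, RingHom.mapMatrix_apply, h, det_one]
  rw [Matrix.isUnit_iff_isUnit_det]
  exact IsUnit.of_map (residue A) _ (hd ▸ isUnit_one)

/-- Residually spanning lifts with equal traces differ by an algebra endomorphism. -/
lemma exists_hom_of_trace_eq (r r' : G →* M2 A) (hr : SpansResidue r) (hr' : SpansResidue r')
    (htr : ∀ g, trace (r g) = trace (r' g)) :
    ∃ Θ : M2 A →ₗ[A] M2 A, (∀ g, Θ (r g) = r' g) ∧ Θ 1 = 1 ∧
      ∀ x y, Θ (x * y) = Θ x * Θ y := by
  have hs := span_range_eq_top hr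
  have hs' := span_range_eq_top (hr')
  let L : (G →₀ A) →ₗ[A] M2 A := Finsupp.linearCombination A r
  let L' : (G →₀ A) →ₗ[A] M2 A := Finsupp.linearCombination A r'
  have hker : LinearMap.ker L ≤ LinearMap.ker L' := by
    intro c hc
    refine eq_zero_of_forall_trace_mul fun y => ?_
    have hy : y ∈ Submodule.span A (Set.range r') := hs' ▸ trivial
    induction hy using Submodule.span_induction with
    | mem _ hx =>
      obtain ⟨h, rfl⟩ := hx
      have h0 : trace (L c * r h) = 0 := by rw [LinearMap.mem_ker.mp hc, zero_mul, trace_zero]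
      simp only [L, L', Finsupp.linearCombination_apply, Finsupp.sum, Finset.sum_mul,
        smul_mul_assoc, trace_sum, trace_smul, ← map_mul, ← htr] at h0 ⊢
      exact h0
    | zero => simp
    | add _ _ _ _ hx hy => rw [mul_add, trace_add, hx, hy, add_zero]
    | smul a _ _ hx => rw [mul_smul_comm, trace_smul, hx, smul_zero]
  have hL : Function.Surjective L := by
    rw [← LinearMap.range_eq_top, Finsupp.range_linearCombination, hs]
  let Θ : M2 A →ₗ[A] M2 A :=
    ((LinearMap.ker L).liftQ L' hker).comp (L.quotKerEquivOfSurjective hL).symm.toLinearMap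
  have hΘ : ∀ g, Θ (r g) = r' g := by
    intro g
    have h1 : (L.quotKerEquivOfSurjective hL).symm (r g) =
        Submodule.Quotient.mk (Finsupp.single g 1) := by
      rw [LinearEquiv.symm_apply_eq]
      show r g = L (Finsupp.single g 1)
      simp [L]
    simp only [Θ, LinearMap.comp_apply, LinearEquiv.coe_coe, h1]
    show L' (Finsupp.single g 1) = _
    simp [L']
  have hone : Θ 1 = 1 := by simpa using hΘ 1
  have hmul : ∀ x y, Θ (x * y) = Θ x * Θ y := by
    intro x y
    have hx : x ∈ Submodule.span A (Set.range r) := hs ▸ trivial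
    have hy : y ∈ Submodule.span A (Set.range r) := hs ▸ trivial
    induction hx using Submodule.span_induction with
    | mem _ hx =>
      obtain ⟨g, rfl⟩ := hx
      induction hy using Submodule.span_induction with
      | mem _ hy =>
        obtain ⟨h, rfl⟩ := hy
        rw [← map_mul, hΘ, hΘ, hΘ, map_mul]
      | zero => simp
      | add _ _ _ _ hu hv => simp [mul_add, hu, hv]
      | smul a _ _ hu => simp [hu]
    | zero => simp
    | add _ _ _ _ hu hv => simp [add_mul, hu, hv]
    | smul a _ _ hu => simp [hu]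
  exact ⟨Θ, hΘ, hone, hmul⟩

lemma conj_mulVec_single (Θ : M2 A →ₗ[A] M2 A) (hmul : ∀ x y, Θ (x * y) = Θ x * Θ y)
    (v : Fin 2 → A) (x : M2 A) (i j : Fin 2) :
    (Θ x * Θ (Matrix.single j 0 (1 : A))) *ᵥ v =
      ∑ k, x k j • (Θ (Matrix.single k 0 (1 : A)) *ᵥ v) := by
  have h2 : Θ x * Θ (Matrix.single j 0 (1 : A)) =
      ∑ k, x k j • Θ (Matrix.single k 0 (1 : A)) := by
    rw [← hmul, ← Finset.sum_congr rfl (fun k _ => map_smul Θ _ _), ← map_sum]
    congr 1
    ext u v
    fin_cases v <;> simp [Matrix.mul_apply, Matrix.sum_apply, Matrix.single_apply]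
  rw [h2, Matrix.sum_mulVec]
  exact Finset.sum_congr rfl fun k _ => Matrix.smul_mulVec _ _ _

/-- The intertwiner built from an algebra endomorphism and a vector. -/
def intertwiner (Θ : M2 A →ₗ[A] M2 A) (v : Fin 2 → A) : M2 A :=
  Matrix.of fun i j => (Θ (Matrix.single j 0 (1 : A)) *ᵥ v) i

lemma intertwiner_mul (Θ : M2 A →ₗ[A] M2 A) (hmul : ∀ x y, Θ (x * y) = Θ x * Θ y)
    (v : Fin 2 → A) (x : M2 A) : intertwiner Θ v * x = Θ x * intertwiner Θ v := by
  ext i j
  have h := congrFun (conj_mulVec_single Θ hmul v x i j) i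
  rw [← Matrix.mulVec_mulVec] at h
  simp only [Finset.sum_apply, Pi.smul_apply, smul_eq_mul] at h
  simp only [Matrix.mul_apply, intertwiner, Matrix.of_apply]
  refine Eq.trans ?_ h.symm
  exact Finset.sum_congr rfl fun k _ => mul_comm _ _

/-- Carayol: residually spanning lifts with equal traces are strictly conjugate. -/
theorem exists_conj_of_trace_eq (r r' : G →* M2 A)
    (hres : ∀ g, (r g).map (residue A) = (r' g).map (residue A)) (hr : SpansResidue r)
    (htr : ∀ g, trace (r g) = trace (r' g)) :
    ∃ P : M2 A, IsUnit P ∧ P.map (residue A) = 1 ∧ ∀ g, P * r g = r' g * P := by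
  obtain ⟨Θ, hΘ, hone, hmul⟩ := exists_hom_of_trace_eq r r' hr (hr.of_map_eq hres) htr
  have hs := span_range_eq_top hr
  have hred : ∀ x, (Θ x).map (residue A) = x.map (residue A) := by
    intro x
    have hx : x ∈ Submodule.span A (Set.range r) := hs ▸ trivial
    induction hx using Submodule.span_induction with
    | mem _ hx =>
      obtain ⟨g, rfl⟩ := hx
      rw [hΘ, hres]
    | zero => simp
    | add u v _ _ hu hv =>
      ext i j
      have h1 := congrFun (congrFun hu i) j
      have h2 := congrFun (congrFun hv i) j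
      simp only [Matrix.map_apply] at h1 h2
      simp [h1, h2]
    | smul a u _ hu =>
      ext i j
      have h1 := congrFun (congrFun hu i) j
      simp only [Matrix.map_apply] at h1
      simp [h1]
  let P := intertwiner Θ (Pi.single 0 1)
  have hP : P.map (residue A) = 1 := by
    ext i j
    have h1 := congrFun (congrFun (hred (Matrix.single j 0 1)) i) 0
    simp only [Matrix.map_apply] at h1
    simp only [P, intertwiner, Matrix.map_apply, Matrix.of_apply, Matrix.mulVec_single_one,
      Matrix.col_apply, h1]
    fin_cases i <;> fin_cases j <;> simp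
  exact ⟨P, isUnit_of_map_residue_eq_one hP, hP,
    fun g => by rw [intertwiner_mul Θ hmul, hΘ]⟩

/-- Brauer–Nesbitt in dimension two: residual spanning passes along equal traces. -/
lemma SpansResidue.of_trace_eq {r r' : G →* M2 A} (hr : SpansResidue r)
    (htr : ∀ g, trace (r g) = trace (r' g)) : SpansResidue r' := by
  let rb : G →* M2 (ResidueField A) := (residue A).mapMatrix.toMonoidHom.comp r
  let rb' : G →* M2 (ResidueField A) := (residue A).mapMatrix.toMonoidHom.comp r'
  have htrb : ∀ g, trace (rb g) = trace (rb' g) := fun g => by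
    have := congrArg (residue A) (htr g)
    simpa [rb, rb', Matrix.trace_fin_two] using this
  let L : (G →₀ (ResidueField A)) →ₗ[(ResidueField A)] M2 (ResidueField A) := Finsupp.linearCombination (ResidueField A) rb
  let L' : (G →₀ (ResidueField A)) →ₗ[(ResidueField A)] M2 (ResidueField A) := Finsupp.linearCombination (ResidueField A) rb'
  have hL : LinearMap.range L = ⊤ := by rw [Finsupp.range_linearCombination]; exact hr
  have hker : LinearMap.ker L' ≤ LinearMap.ker L := by
    intro c hc
    refine eq_zero_of_forall_trace_mul fun y => ?_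
    have hy : y ∈ Submodule.span (ResidueField A) (Set.range rb) := by
      rw [show Submodule.span (ResidueField A) (Set.range rb) = ⊤ from hr]; trivial
    induction hy using Submodule.span_induction with
    | mem _ hx =>
      obtain ⟨h, rfl⟩ := hx
      have h0 : trace (L' c * rb' h) = 0 := by rw [LinearMap.mem_ker.mp hc, zero_mul, trace_zero]
      simp only [L, L', Finsupp.linearCombination_apply, Finsupp.sum, Finset.sum_mul,
        smul_mul_assoc, trace_sum, trace_smul, ← map_mul, htrb] at h0 ⊢
      exact h0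
    | zero => simp
    | add _ _ _ _ hx hy => rw [mul_add, trace_add, hx, hy, add_zero]
    | smul a _ _ hx => rw [mul_smul_comm, trace_smul, hx, smul_zero]
  let Ψ : LinearMap.range L' →ₗ[(ResidueField A)] M2 (ResidueField A) :=
    ((LinearMap.ker L').liftQ L hker).comp L'.quotKerEquivRange.symm.toLinearMap
  have hΨ : Function.Surjective Ψ := by
    intro y
    obtain ⟨c, rfl⟩ := LinearMap.range_eq_top.mp hL y
    refine ⟨⟨L' c, ⟨c, rfl⟩⟩, ?_⟩
    have h1 : L'.quotKerEquivRange.symm ⟨L' c, ⟨c, rfl⟩⟩ = Submodule.Quotient.mk c := by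
      rw [LinearEquiv.symm_apply_eq]; rfl
    simp only [Ψ, LinearMap.comp_apply, LinearEquiv.coe_coe, h1]
    rfl
  have htop : LinearMap.range L' = ⊤ := Submodule.eq_top_of_finrank_eq
    (le_antisymm (Submodule.finrank_le _) (LinearMap.finrank_le_finrank_of_surjective hΨ))
  rw [Finsupp.range_linearCombination] at htop
  exact htop

/-- Residually spanning lifts are determined up to conjugation by their traces. -/
theorem exists_conj_of_trace_eq' (r r' : G →* M2 A) (hr : SpansResidue r)
    (htr : ∀ g, trace (r g) = trace (r' g)) :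
    ∃ P : M2 A, IsUnit P ∧ ∀ g, P * r g = r' g * P := by
  have hr' := hr.of_trace_eq htr
  obtain ⟨Θ, hΘ, hone, hmul⟩ := exists_hom_of_trace_eq r r' hr hr' htr
  have hsurj : ∀ y, ∃ x, Θ x = y := fun y => by
    have hy : y ∈ Submodule.span A (Set.range r') := span_range_eq_top hr' ▸ trivial
    induction hy using Submodule.span_induction with
    | mem _ hx => obtain ⟨g, rfl⟩ := hx; exact ⟨r g, hΘ g⟩
    | zero => exact ⟨0, map_zero Θ⟩
    | add _ _ _ _ hu hv =>
      obtain ⟨a, rfl⟩ := hu; obtain ⟨b, rfl⟩ := hv
      exact ⟨a + b, map_add Θ a b⟩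
    | smul c _ _ hu => obtain ⟨a, rfl⟩ := hu; exact ⟨c • a, map_smul Θ c a⟩
  -- the image of the first idempotent does not vanish residually
  have hne : ∃ v, ∃ i, residue A ((Θ (Matrix.single 0 0 (1 : A)) *ᵥ v) i) ≠ 0 := by
    by_contra h
    push Not at h
    have hzero : ∀ i j, residue A (Θ (Matrix.single 0 0 (1 : A)) i j) = 0 := fun i j => by
      simpa using h (Pi.single j 1) i
    have hall : ∀ u v, ∀ i j, residue A (Θ (Matrix.single u v (1 : A)) i j) = 0 := by
      intro u v i j
      have h1 : Matrix.single u v (1 : A) =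
          Matrix.single u 0 1 * Matrix.single 0 0 1 * Matrix.single 0 v 1 := by simp
      rw [h1, hmul, hmul, Matrix.mul_apply, map_sum]
      refine Finset.sum_eq_zero fun w _ => ?_
      rw [Matrix.mul_apply, Finset.sum_mul, map_sum]
      exact Finset.sum_eq_zero fun t _ => by simp [hzero]
    have h11 : residue A ((Θ 1) 0 0) = 0 := by
      have h1 : (1 : M2 A) = Matrix.single 0 0 1 + Matrix.single 1 1 1 := by
        ext i j; fin_cases i <;> fin_cases j <;> simp
      rw [h1, map_add, Matrix.add_apply, map_add, hall, hall, add_zero]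
    simp [hone] at h11
  obtain ⟨v, i₀, hv⟩ := hne
  let P := intertwiner Θ v
  refine ⟨P, ?_, fun g => by rw [intertwiner_mul Θ hmul, hΘ]⟩
  rw [Matrix.isUnit_iff_isUnit_det]
  refine IsUnit.of_map (residue A) _ ?_
  rw [isUnit_iff_ne_zero, RingHom.map_det, RingHom.mapMatrix_apply]
  intro hdet
  obtain ⟨w, hw, hPw⟩ := Matrix.exists_mulVec_eq_zero_iff.mpr hdet
  -- the residual kernel of `P` is stable under all matrices, hence everything
  have hstab : ∀ y : M2 A, (P.map (residue A)) *ᵥ (y.map (residue A) *ᵥ w) = 0 := fun y => by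
    rw [Matrix.mulVec_mulVec, ← Matrix.map_mul, intertwiner_mul Θ hmul, Matrix.map_mul,
      ← Matrix.mulVec_mulVec, hPw, Matrix.mulVec_zero]
  obtain ⟨j₀, hj₀⟩ : ∃ j, w j ≠ 0 := by
    by_contra h
    push Not at h
    exact hw (funext h)
  have hcol : (P.map (residue A)) *ᵥ (Pi.single 0 1) = 0 := by
    have h := hstab (Matrix.single 0 j₀ 1)
    have h1 : (Matrix.single 0 j₀ (1 : A)).map (residue A) *ᵥ w = w j₀ • (Pi.single (0 : Fin 2) 1 : Fin 2 → ResidueField A) := by
      ext i; fin_cases i <;> simp [Matrix.mulVec, dotProduct, Fin.sum_univ_two] <;>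
        fin_cases j₀ <;> simp
    rw [h1, Matrix.mulVec_smul, smul_eq_zero] at h
    exact h.resolve_left hj₀
  exact hv (by simpa [P, intertwiner] using congrFun hcol i₀)

/-- Descent of a residually spanning lift to a subring containing its traces. -/
theorem exists_descent {B : Type} [CommRing B] (ι : B →+* A) (hι : Function.Injective ι)
    [IsLocalHom ι] {N : ℕ} (hnil : maximalIdeal A ^ N = ⊥)
    (hres : ∀ a : A, ∃ b, residue A (ι b) = residue A a)
    (r : G →* M2 A) (hr : SpansResidue r) (htr : ∀ g, trace (r g) ∈ Set.range ι) :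
    ∃ (r₀ : G →* M2 B) (P : M2 A), IsUnit P ∧ P.map (residue A) = 1 ∧
      ∀ g, r g * P = P * (r₀ g).map ι := by
  classical
  let : Algebra B A := ι.toAlgebra
  let M : Submodule B (M2 A) := Submodule.span B (Set.range r)
  have hM1 : (1 : M2 A) ∈ M := Submodule.subset_span ⟨1, map_one r⟩
  have hMmul : ∀ x ∈ M, ∀ y ∈ M, x * y ∈ M := by
    intro x hx y hy
    induction hx using Submodule.span_induction with
    | mem _ hx =>
      obtain ⟨g, rfl⟩ := hx
      induction hy using Submodule.span_induction with
      | mem _ hy =>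
        obtain ⟨h, rfl⟩ := hy
        exact Submodule.subset_span ⟨g * h, map_mul r g h⟩
      | zero => simp
      | add _ _ _ _ hu hv => rw [mul_add]; exact add_mem hu hv
      | smul a _ _ hu => rw [mul_smul_comm]; exact M.smul_mem a hu
    | zero => simp
    | add _ _ _ _ hu hv => rw [add_mul]; exact add_mem hu hv
    | smul a _ _ hu => rw [smul_mul_assoc]; exact M.smul_mem a hu
  have hMtr : ∀ x ∈ M, trace x ∈ Set.range ι := by
    intro x hx
    induction hx using Submodule.span_induction with
    | mem _ hx => obtain ⟨g, rfl⟩ := hx; exact htr g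
    | zero => exact ⟨0, by simp⟩
    | add _ _ _ _ hu hv =>
      obtain ⟨a, ha⟩ := hu; obtain ⟨b, hb⟩ := hv
      exact ⟨a + b, by simp [ha, hb]⟩
    | smul a _ _ hu =>
      obtain ⟨b, hb⟩ := hu
      exact ⟨a * b, by rw [trace_smul, map_mul, hb, Algebra.smul_def]; rfl⟩
  have hlift : ∀ y : M2 A, ∃ x ∈ M, x.map (residue A) = y.map (residue A) := by
    intro y
    obtain ⟨c, hc, hcy⟩ := map_residue_mem_span_lift (Set.range ι)
      (fun a => by obtain ⟨b, hb⟩ := hres a; exact ⟨ι b, ⟨b, rfl⟩, hb⟩) hr y
    refine ⟨_, Submodule.sum_mem _ fun g _ => ?_, hcy⟩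
    obtain ⟨b, hb⟩ : c g ∈ Set.range ι := by
      rcases hc g with h | h
      · exact ⟨0, by rw [h, map_zero]⟩
      · exact h
    show c g • r g ∈ M
    rw [← hb, show (ι b • r g : M2 A) = b • r g from algebraMap_smul A b (r g)]
    exact M.smul_mem b (Submodule.subset_span ⟨g, rfl⟩)
  -- an idempotent lifting the first diagonal idempotent
  obtain ⟨e, heM, hered, heidem⟩ : ∃ e ∈ M, e.map (residue A) =
      (Matrix.single 0 0 (1 : A)).map (residue A) ∧ e * e = e := by
    obtain ⟨e₀, he₀M, he₀⟩ := hlift (Matrix.single 0 0 1)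
    have hstep : ∀ j, ∃ e ∈ M, e.map (residue A) = (Matrix.single 0 0 (1 : A)).map (residue A) ∧
        ∀ u v, (e * e - e) u v ∈ maximalIdeal A ^ (j + 1) := by
      intro j
      induction j with
      | zero =>
        refine ⟨e₀, he₀M, he₀, fun u v => ?_⟩
        rw [zero_add, pow_one, ← residue_eq_zero_iff, Matrix.sub_apply, map_sub, sub_eq_zero]
        have h1 : (e₀ * e₀).map (residue A) = e₀.map (residue A) := by
          rw [Matrix.map_mul, he₀, ← Matrix.map_mul]
          simp
        exact congrFun (congrFun h1 u) v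
      | succ j ih =>
        obtain ⟨e, heM, he, hd⟩ := ih
        have hd0 : (e * e - e).map (residue A) = 0 := by
          ext u v
          exact (residue_eq_zero_iff _).mpr (Ideal.pow_le_self j.succ_ne_zero (hd u v))
        refine ⟨e + (e * e - e) * (1 - 2 * e), ?_, ?_, fun u v => ?_⟩
        · have h2 : (1 : M2 A) - 2 * e ∈ M := by
            rw [two_mul]; exact sub_mem hM1 (add_mem heM heM)
          exact add_mem heM (hMmul _ (sub_mem (hMmul _ heM _ heM) heM) _ h2)
        · rw [Matrix.map_add _ (map_add _), Matrix.map_mul, hd0, zero_mul, add_zero, he]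
        · have hid : (e + (e * e - e) * (1 - 2 * e)) * (e + (e * e - e) * (1 - 2 * e)) -
              (e + (e * e - e) * (1 - 2 * e)) =
              (e * e - e) * ((e * e - e) * (4 * (e * e - e) - 3)) := by noncomm_ring
          rw [hid, Matrix.mul_apply]
          refine Submodule.sum_mem _ fun w _ => ?_
          rw [pow_succ]
          refine Ideal.mul_mem_mul (hd u w) ?_
          rw [Matrix.mul_apply]
          exact Submodule.sum_mem _ fun t _ =>
            Ideal.mul_mem_right _ _ (Ideal.pow_le_self j.succ_ne_zero (hd w t))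
    obtain ⟨e, heM, he, hd⟩ := hstep N
    refine ⟨e, heM, he, sub_eq_zero.mp (Matrix.ext fun u v => ?_)⟩
    have h := Ideal.pow_le_pow_right N.le_succ (hd u v)
    rw [hnil, Ideal.mem_bot] at h
    exact h
  obtain ⟨x, hxM, hx⟩ := hlift (Matrix.single 1 0 1)
  obtain ⟨x', hx'M, hx'⟩ := hlift (Matrix.single 0 1 1)
  let f : M2 A := 1 - e
  have hfM : f ∈ M := sub_mem hM1 heM
  have hfe : f * e = 0 := by simp [f, sub_mul, heidem]
  have hef : e * f = 0 := by simp [f, mul_sub, heidem]
  let y := f * x * e
  have hyM : y ∈ M := hMmul _ (hMmul _ hfM _ hxM) _ heM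
  let z := e * x' * f
  have hzM : z ∈ M := hMmul _ (hMmul _ heM _ hx'M) _ hfM
  have hey : e * y = 0 := by rw [show e * y = e * f * x * e by simp [y, mul_assoc], hef]; simp
  have hye : y * e = y := by simp [y, mul_assoc, heidem]
  have hfred : f.map (residue A) = (Matrix.single 1 1 (1 : A)).map (residue A) := by
    rw [Matrix.map_sub _ (map_sub _), hered, Matrix.map_one _ (map_zero _) (map_one _)]
    ext i j
    fin_cases i <;> fin_cases j <;> simp
  have hyred : y.map (residue A) = (Matrix.single 1 0 (1 : A)).map (residue A) := by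
    rw [Matrix.map_mul, Matrix.map_mul, hfred, hx, hered, ← Matrix.map_mul, ← Matrix.map_mul]
    simp
  have hzred : z.map (residue A) = (Matrix.single 0 1 (1 : A)).map (residue A) := by
    rw [Matrix.map_mul, Matrix.map_mul, hfred, hx', hered, ← Matrix.map_mul, ← Matrix.map_mul]
    simp
  let P : M2 A := Matrix.of fun i j => if j = 0 then e i 0 else y i 0
  have hP : P.map (residue A) = 1 := by
    ext i j
    have h1 := congrFun (congrFun hered i) 0
    have h2 := congrFun (congrFun hyred i) 0
    simp only [Matrix.map_apply] at h1 h2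
    fin_cases j <;> simp only [P, Matrix.map_apply, Matrix.of_apply] <;> fin_cases i <;>
      simp_all
  obtain ⟨u, hu⟩ := isUnit_of_map_residue_eq_one hP
  let conjP : M2 A → M2 A := fun m => (↑u⁻¹ : M2 A) * m * P
  have hconj_mul : ∀ a b, conjP (a * b) = conjP a * conjP b := by
    intro a b
    simp only [conjP, mul_assoc]
    rw [← hu, ← mul_assoc (↑u : M2 A) (↑u⁻¹ : M2 A), Units.mul_inv, one_mul]
  have hconj_tr : ∀ a, trace (conjP a) = trace a := by
    intro a
    simp only [conjP, ← hu]
    rw [trace_mul_cycle, Units.mul_inv, one_mul]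
  have hmulP : ∀ (m m' : M2 A), m * P = P * m' → conjP m = m' := by
    intro m m' h
    simp only [conjP, mul_assoc, h]
    rw [← mul_assoc, ← hu, Units.inv_mul, one_mul]
  have he' : conjP e = Matrix.single 0 0 1 := by
    refine hmulP _ _ ?_
    ext i j
    have h1 := congrFun (congrFun heidem i) 0
    have h2 := congrFun (congrFun hey i) 0
    fin_cases j <;>
      simp_all [P, Matrix.mul_apply, Fin.sum_univ_two]
  have hy' : conjP y = Matrix.single 1 0 1 := by
    refine hmulP _ _ ?_
    have hyy : y * y = 0 := by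
      rw [show y * y = f * x * (e * y) by simp [y, mul_assoc], hey, mul_zero]
    ext i j
    have h1 := congrFun (congrFun hye i) 0
    have h2 := congrFun (congrFun hyy i) 0
    fin_cases j <;>
      simp_all [P, Matrix.mul_apply, Fin.sum_univ_two]
  have hf' : conjP f = Matrix.single 1 1 1 := by
    have h1 : conjP f = 1 - conjP e := by
      simp only [conjP, f, mul_sub, sub_mul, mul_one]
      rw [← hu, Units.inv_mul]
    rw [h1, he']
    ext i j
    fin_cases i <;> fin_cases j <;> simp
  obtain ⟨c, hc⟩ := hMtr _ (hMmul _ hzM _ hyM)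
  have hz' : conjP z = Matrix.single 0 1 (ι c) := by
    have h1 : conjP z = Matrix.single 0 0 1 * conjP x' * Matrix.single 1 1 1 := by
      simp only [z, hconj_mul, he', hf']
    have h2 : ι c = conjP x' 0 1 := by
      rw [hc, ← hconj_tr, hconj_mul, h1, hy']
      simp [Matrix.trace_fin_two, Matrix.mul_apply, Fin.sum_univ_two]
    rw [h1, h2]
    ext i j
    fin_cases i <;> fin_cases j <;> simp [Matrix.mul_apply, Fin.sum_univ_two]
  have hcu : IsUnit c := by
    refine IsUnit.of_map ι c (IsUnit.of_map (residue A) _ ?_)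
    rw [hc, Matrix.trace_fin_two, map_add]
    have h1 : (z * y).map (residue A) = (Matrix.single 0 0 (1 : A)).map (residue A) := by
      rw [Matrix.map_mul, hzred, hyred, ← Matrix.map_mul]
      simp
    have h2 := congrFun (congrFun h1 0) 0
    have h3 := congrFun (congrFun h1 1) 1
    simp only [Matrix.map_apply] at h2 h3
    rw [h2, h3]
    simp
  obtain ⟨d, hd⟩ := hcu.exists_right_inv
  have hentry : ∀ m ∈ M, ∀ i j, conjP m i j ∈ Set.range ι := by
    intro m hm i j
    have key : ∀ a ∈ M, trace (conjP a * conjP m) ∈ Set.range ι := fun a ha => by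
      rw [← hconj_mul, hconj_tr]; exact hMtr _ (hMmul _ ha _ hm)
    have k1 := key e heM
    have k2 := key f hfM
    have k3 := key y hyM
    obtain ⟨b, hb⟩ := key z hzM
    rw [he'] at k1
    rw [hf'] at k2
    rw [hy'] at k3
    rw [hz'] at hb
    simp [Matrix.trace_fin_two, Matrix.mul_apply, Fin.sum_univ_two] at k1 k2 k3 hb
    fin_cases i <;> fin_cases j
    · exact k1
    · exact k3
    · exact ⟨d * b, by rw [map_mul, hb, ← mul_assoc, ← map_mul, mul_comm d c, hd]; simp⟩
    · exact k2
  choose g0 hg0 using fun σ i j => hentry (r σ) (Submodule.subset_span ⟨σ, rfl⟩) i j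
  have hmapinj : Function.Injective (fun m : M2 B => m.map ι) := Matrix.map_injective hι
  have hr0 : ∀ σ, (Matrix.of (g0 σ)).map ι = conjP (r σ) := fun σ => Matrix.ext (hg0 σ)
  refine ⟨{ toFun := fun σ => Matrix.of (g0 σ)
            map_one' := hmapinj ?_
            map_mul' := fun σ τ => hmapinj ?_ }, P, ⟨u, hu⟩, hP, fun σ => ?_⟩
  · simp only [hr0, map_one, Matrix.map_one _ (map_zero ι) (map_one ι)]
    simp only [conjP, mul_one]
    rw [← hu, Units.inv_mul]
  · simp only [Matrix.map_mul, hr0, map_mul, hconj_mul]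
  · simp only [MonoidHom.coe_mk, OneHom.coe_mk, hr0, conjP]
    rw [mul_assoc (↑u⁻¹ : M2 A), ← mul_assoc P, ← hu, Units.mul_inv, one_mul]

end FLTAgent.Deformation
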