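import Fermat.Agent.Deformation.RegularSeq
import Fermat.Prelude.Def_Algebra_PatchingDatum

/-!
# Descent from a patching level with trivial relation ideal
-/

set_option autoImplicit false

namespace FLTAgent.Deformation

open RingTheory.Sequence IsLocalRing Pointwise

variable {O : Type} [CommRing O] {r : ℕ} {R : Type} [CommRing R] [Algebra O R]
  {M : Type} [AddCommGroup M] [Module R M]

section

variable {J : Ideal (MvPowerSeries (Fin r) O)} (L : Algebra.PatchingLevel O r R M J)

/-- The relation ideal of a patching level. -/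
noncomputable def levelIdeal : Ideal (MvPowerSeries (Fin r) O) :=
  Ideal.span (Set.range fun i : Fin r => L.φ (MvPowerSeries.X i))

lemma levelIdeal_le_ker : levelIdeal L ≤ RingHom.ker L.ψ := by
  rw [levelIdeal, Ideal.span_le]
  rintro _ ⟨i, rfl⟩
  exact L.ψ_φ_X i

variable [IsDomain O] [IsDiscreteValuationRing O] [Nontrivial M]

lemma φ_X_mem_maximalIdeal (i : Fin r) :
    L.φ (MvPowerSeries.X i) ∈ maximalIdeal (MvPowerSeries (Fin r) O) := by
  by_contra h
  rw [IsLocalRing.notMem_maximalIdeal] at h
  have htop : levelIdeal L = ⊤ :=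
    Ideal.eq_top_of_isUnit_mem _ (Ideal.subset_span ⟨i, rfl⟩) h
  obtain ⟨m, hm⟩ := exists_ne (0 : M)
  obtain ⟨x, rfl⟩ := L.π_surjective m
  refine hm ((L.ker_π x).mpr ?_)
  rw [levelIdeal] at htop
  simp [htop]

lemma nontrivial_N : Nontrivial L.N := by
  obtain ⟨m, hm⟩ := exists_ne (0 : M)
  obtain ⟨x, rfl⟩ := L.π_surjective m
  exact ⟨x, 0, fun h => hm (by simp [h])⟩

lemma finite_N : Module.Finite (MvPowerSeries (Fin r) O) L.N := by
  refine Module.Finite.of_surjective
    (Fintype.linearCombination (MvPowerSeries (Fin r) O) L.b) ?_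
  intro x
  obtain ⟨c, hc⟩ := L.b_span x
  exact ⟨fun i => L.φ (c i), by simp [Fintype.linearCombination_apply, hc]⟩

end

variable [IsDomain O] [IsDiscreteValuationRing O] [Nontrivial M]
variable (L : Algebra.PatchingLevel O r R M (⊥ : Ideal (MvPowerSeries (Fin r) O)))

/-- The semilinear coordinates given by the basis of a patching level. -/
noncomputable def levelEquiv : (Fin L.d → MvPowerSeries (Fin r) O) ≃+ L.N :=
  AddEquiv.ofBijective
    ({ toFun := fun c => ∑ i, L.φ (c i) • L.b i
       map_zero' := by simp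
       map_add' := fun c c' => by simp [add_smul, Finset.sum_add_distrib] } :
      (Fin L.d → MvPowerSeries (Fin r) O) →+ L.N)
    ⟨(injective_iff_map_eq_zero _).mpr fun c hc => funext fun i => by
        simpa using (L.b_rel c).mp hc i,
     fun x => by obtain ⟨c, hc⟩ := L.b_span x; exact ⟨c, hc.symm⟩⟩

theorem free_N : Module.Free (MvPowerSeries (Fin r) O) L.N := by
  obtain ⟨w, hw⟩ := IsDiscreteValuationRing.exists_irreducible O
  have := finite_N L
  have := nontrivial_N L
  let rs := (stdSeq r w).map L.φ
  have hφC : ∀ a : O, L.φ (MvPowerSeries.C a) = MvPowerSeries.C a := fun a => L.φ.commutes a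
  have hmem : ∀ x ∈ rs, x ∈ maximalIdeal (MvPowerSeries (Fin r) O) := by
    intro x hx
    simp only [rs, stdSeq, List.map_append, List.map_ofFn, List.mem_append, List.mem_ofFn,
      List.map_cons, List.map_nil, List.mem_singleton, Function.comp_def] at hx
    rcases hx with ⟨j, rfl⟩ | rfl
    · exact φ_X_mem_maximalIdeal L j
    · rw [hφC, mem_maximalIdeal, mem_nonunits_iff, MvPowerSeries.isUnit_iff_constantCoeff]
      simpa using hw.not_isUnit
  have hreg : IsWeaklyRegular L.N rs := by
    have h0 := (stdSeq_isWeaklyRegular hw.ne_zero r).isWeaklyRegular_lTensor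
      (M₂ := Fin L.d → MvPowerSeries (Fin r) O)
    rw [(TensorProduct.rid (MvPowerSeries (Fin r) O)
      (Fin L.d → MvPowerSeries (Fin r) O)).isWeaklyRegular_congr] at h0
    refine ((levelEquiv L).isWeaklyRegular_congr ?_).mp h0
    refine List.forall₂_map_right_iff.mpr (List.forall₂_same.mpr fun a _ c => ?_)
    show (∑ i, L.φ (a * c i) • L.b i) = L.φ a • ∑ i, L.φ (c i) • L.b i
    simp [Finset.smul_sum, mul_smul]
  refine free_of_isWeaklyRegular rs (by simp [rs]) hreg hmem ?_
  -- finite length of the quotient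
  rw [isFiniteLength_iff_isNoetherian_isArtinian]
  refine ⟨inferInstance, ?_⟩
  let Q := L.N ⧸ Ideal.ofList rs • (⊤ : Submodule (MvPowerSeries (Fin r) O) L.N)
  let : Module O Q := Module.compHom Q (algebraMap O (MvPowerSeries (Fin r) O))
  have : IsScalarTower O (MvPowerSeries (Fin r) O) Q :=
    IsScalarTower.of_algebraMap_smul fun _ _ => rfl
  have hX : ∀ j : Fin r, L.φ (MvPowerSeries.X j) ∈ Ideal.ofList rs := fun j =>
    Ideal.subset_span (List.mem_map.mpr ⟨_, List.mem_append_left _ (List.mem_ofFn.mpr ⟨j, rfl⟩),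
      rfl⟩)
  have hC : MvPowerSeries.C w ∈ Ideal.ofList rs := by
    rw [← hφC w]
    exact Ideal.subset_span (List.mem_map.mpr ⟨_, List.mem_append_right _ (by simp), rfl⟩)
  let bq : Fin L.d → Q := fun i => Submodule.Quotient.mk (L.b i)
  let g : (Fin L.d → O) →ₗ[O] Q := Fintype.linearCombination O bq
  have hg : Function.Surjective g := by
    intro q
    obtain ⟨x, rfl⟩ := Submodule.Quotient.mk_surjective _ q
    obtain ⟨c, rfl⟩ := L.b_span x
    refine ⟨fun i => MvPowerSeries.constantCoeff (c i), ?_⟩
    show ∑ i, MvPowerSeries.constantCoeff (c i) • bq i = _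
    have : ∀ i, MvPowerSeries.constantCoeff (c i) • bq i =
        Submodule.Quotient.mk (L.φ (MvPowerSeries.C (MvPowerSeries.constantCoeff (c i))) • L.b i) := by
      intro i
      rw [hφC]
      rfl
    rw [Finset.sum_congr rfl fun i _ => this i, ← Submodule.mkQ_apply, map_sum]
    refine Finset.sum_congr rfl fun i _ => ?_
    rw [Submodule.mkQ_apply, Submodule.Quotient.eq, ← sub_smul, ← map_sub]
    refine Submodule.smul_mem_smul ?_ Submodule.mem_top
    have h1 := mem_span_range_X_of_constantCoeff_eq_zero r
      (MvPowerSeries.C (MvPowerSeries.constantCoeff (c i)) - c i) (by simp)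
    have h2 : Ideal.span (Set.range (MvPowerSeries.X : Fin r → MvPowerSeries (Fin r) O)) ≤
        (Ideal.ofList rs).comap L.φ := by
      rw [Ideal.span_le]; rintro _ ⟨j, rfl⟩; exact hX j
    exact h2 h1
  -- the same map factors through the residue field
  let Kw := O ⧸ maximalIdeal O
  have hker : ∀ (c : Fin L.d → O), (∀ i, c i ∈ maximalIdeal O) → g c = 0 := by
    intro c hc
    show ∑ i, c i • bq i = 0
    refine Finset.sum_eq_zero fun i _ => ?_
    obtain ⟨u, hu⟩ := Ideal.mem_span_singleton.mp (hw.maximalIdeal_eq ▸ hc i)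
    rw [hu]
    show Submodule.Quotient.mk (MvPowerSeries.C (w * u) • L.b i) = (0 : Q)
    rw [Submodule.Quotient.mk_eq_zero, map_mul]
    exact Submodule.smul_mem_smul (Ideal.mul_mem_right _ _ hC) Submodule.mem_top
  let p : (Fin L.d → O) →ₗ[O] (Fin L.d → Kw) :=
    LinearMap.pi fun i => (Submodule.mkQ (maximalIdeal O)).comp (LinearMap.proj i)
  have hp : LinearMap.ker p ≤ LinearMap.ker g := by
    intro c hc
    refine hker c fun i => ?_
    have := congrFun (LinearMap.mem_ker.mp hc) i
    exact (Submodule.Quotient.mk_eq_zero _).mp (by simpa [p] using this)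
  have : IsSimpleModule O Kw := isSimpleModule_iff_quot_maximal.mpr
    ⟨maximalIdeal O, inferInstance, ⟨LinearEquiv.refl _ _⟩⟩
  have hps : Function.Surjective p := fun c => by
    choose d hd using fun i => Submodule.mkQ_surjective (maximalIdeal O) (c i)
    exact ⟨d, funext hd⟩
  have : IsArtinian O Q := by
    let g' : (Fin L.d → Kw) →ₗ[O] Q :=
      ((LinearMap.ker p).liftQ g hp).comp (p.quotKerEquivOfSurjective hps).symm.toLinearMap
    refine isArtinian_of_surjective (Fin L.d → Kw) g' fun q => ?_
    obtain ⟨c, rfl⟩ := hg q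
    refine ⟨p c, ?_⟩
    have h1 : (p.quotKerEquivOfSurjective hps).symm (p c) = Submodule.Quotient.mk c := by
      rw [LinearEquiv.symm_apply_eq]
      rfl
    simp only [g', LinearMap.comp_apply, LinearEquiv.coe_coe, h1]
    rfl
  exact isArtinian_of_tower O this

theorem free_and_ker_eq_span :
    Module.Free R M ∧ Module.annihilator R M = ⊥ ∧
      RingHom.ker L.ψ = Ideal.span (Set.range fun i : Fin r => L.φ (MvPowerSeries.X i)) := by
  have := free_N L
  have := finite_N L
  have := nontrivial_N L
  let B := Module.Free.chooseBasis (MvPowerSeries (Fin r) O) L.N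
  have hne : Nonempty (Module.Free.ChooseBasisIndex (MvPowerSeries (Fin r) O) L.N) :=
    B.index_nonempty
  have hcoord : ∀ x ∈ levelIdeal L • (⊤ : Submodule (MvPowerSeries (Fin r) O) L.N), ∀ j,
      B.repr x j ∈ levelIdeal L := by
    intro x hx
    refine Submodule.smul_induction_on hx (fun a ha y _ j => ?_) (fun y z hy hz j => ?_)
    · simpa using Ideal.mul_mem_right _ _ ha
    · simpa using add_mem (hy j) (hz j)
  have key : ∀ f, (∀ x, L.π (f • x) = 0) → f ∈ levelIdeal L := by
    intro f hf
    obtain ⟨j⟩ := hne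
    simpa using hcoord _ ((L.ker_π _).mp (hf (B j))) j
  have hker : RingHom.ker L.ψ = levelIdeal L := by
    refine le_antisymm (fun f hf => key f fun x => ?_) (levelIdeal_le_ker L)
    rw [L.π_smul, RingHom.mem_ker.mp hf, zero_smul]
  refine ⟨?_, ?_, hker⟩
  · have hli : LinearIndependent R (fun j => L.π (B j)) := by
      rw [Fintype.linearIndependent_iff]
      intro c hc
      choose f hf using fun j => L.ψ_surjective (c j)
      have h0 : L.π (∑ j, f j • B j) = 0 := by
        rw [map_sum]
        simpa [L.π_smul, hf] using hc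
      intro j
      have := hcoord _ ((L.ker_π _).mp h0) j
      rw [Module.Basis.repr_sum_self] at this
      rw [← hf j]
      exact levelIdeal_le_ker L this
    have hsp : ⊤ ≤ Submodule.span R (Set.range fun j => L.π (B j)) := by
      intro m _
      obtain ⟨x, rfl⟩ := L.π_surjective m
      rw [← B.sum_repr x, map_sum]
      refine sum_mem fun j _ => ?_
      rw [L.π_smul]
      exact Submodule.smul_mem _ _ (Submodule.subset_span ⟨j, rfl⟩)
    exact Module.Free.of_basis (Module.Basis.mk hli hsp)
  · rw [eq_bot_iff]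
    intro s hs
    obtain ⟨f, rfl⟩ := L.ψ_surjective s
    have : f ∈ levelIdeal L := key f fun x => by
      rw [L.π_smul]
      exact Module.mem_annihilator.mp hs _
    exact levelIdeal_le_ker L this

end FLTAgent.Deformation
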