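import Mathlib

/-!
# The standard regular sequence of `𝒪⟦X₁, …, X_r⟧` and finite length modules
-/

set_option autoImplicit false

namespace FLTAgent.Deformation

open RingTheory.Sequence CategoryTheory IsLocalRing Pointwise

variable {O : Type} [CommRing O]



/-- Set the first variable to zero. -/
noncomputable def dropVar (O : Type) [CommRing O] (r : ℕ) :
    MvPowerSeries (Fin (r + 1)) O →+* MvPowerSeries (Fin r) O :=
  (PowerSeries.constantCoeff).comp (MvPowerSeries.finSuccEquiv O r).toAlgHom.toRingHom

lemma dropVar_X_zero (r : ℕ) : dropVar O r (MvPowerSeries.X 0) = 0 := by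
  simp [dropVar]

lemma dropVar_X_succ (r : ℕ) (j : Fin r) :
    dropVar O r (MvPowerSeries.X j.succ) = MvPowerSeries.X j := by
  simp [dropVar]

lemma dropVar_C (r : ℕ) (a : O) :
    dropVar O r (MvPowerSeries.C a) = MvPowerSeries.C a := by
  simp [dropVar]

lemma dropVar_surjective (r : ℕ) : Function.Surjective (dropVar O r) := by
  intro g
  refine ⟨(MvPowerSeries.finSuccEquiv O r).symm (PowerSeries.C g), ?_⟩
  simp [dropVar]

lemma constantCoeff_dropVar (r : ℕ) (f : MvPowerSeries (Fin (r + 1)) O) :
    MvPowerSeries.constantCoeff (dropVar O r f) = MvPowerSeries.constantCoeff f := by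
  rw [← MvPowerSeries.coeff_zero_eq_constantCoeff_apply,
    ← MvPowerSeries.coeff_zero_eq_constantCoeff_apply]
  show MvPowerSeries.coeff 0 (PowerSeries.constantCoeff (MvPowerSeries.finSuccEquiv O r f)) = _
  rw [← PowerSeries.coeff_zero_eq_constantCoeff_apply, MvPowerSeries.coeff_coeff_finSuccEquiv,
    Finsupp.cons_zero_zero]

lemma ker_dropVar (r : ℕ) :
    RingHom.ker (dropVar O r) = Ideal.span {(MvPowerSeries.X 0 : MvPowerSeries (Fin (r + 1)) O)} := by
  refine le_antisymm ?_ ?_
  · intro f hf
    have : PowerSeries.X ∣ MvPowerSeries.finSuccEquiv O r f :=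
      PowerSeries.X_dvd_iff.mpr (by simpa [dropVar] using hf)
    obtain ⟨g, hg⟩ := this
    refine Ideal.mem_span_singleton.mpr ⟨(MvPowerSeries.finSuccEquiv O r).symm g, ?_⟩
    apply (MvPowerSeries.finSuccEquiv O r).injective
    simp [hg]
  · rw [Ideal.span_le, Set.singleton_subset_iff]
    exact dropVar_X_zero r

theorem mem_span_range_X_of_constantCoeff_eq_zero :
    ∀ (r : ℕ) (f : MvPowerSeries (Fin r) O), MvPowerSeries.constantCoeff f = 0 →
      f ∈ Ideal.span (Set.range (MvPowerSeries.X : Fin r → MvPowerSeries (Fin r) O))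
  | 0, f, hf => by
    have : f = 0 := by
      ext x
      rw [Subsingleton.elim x 0, MvPowerSeries.coeff_zero_eq_constantCoeff_apply, hf, map_zero]
    simp [this]
  | r + 1, f, hf => by
    have h1 := mem_span_range_X_of_constantCoeff_eq_zero r (dropVar O r f)
      (by rw [constantCoeff_dropVar, hf])
    have h2 : Ideal.span (Set.range (MvPowerSeries.X : Fin r → MvPowerSeries (Fin r) O)) ≤
        (Ideal.span (Set.range
          (MvPowerSeries.X : Fin (r + 1) → MvPowerSeries (Fin (r + 1)) O))).map (dropVar O r) := by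
      rw [Ideal.span_le]
      rintro _ ⟨j, rfl⟩
      rw [← dropVar_X_succ r j]
      exact Ideal.mem_map_of_mem _ (Ideal.subset_span ⟨j.succ, rfl⟩)
    obtain ⟨g, hg, hgf⟩ :=
      (Ideal.mem_map_iff_of_surjective _ (dropVar_surjective r)).mp (h2 h1)
    have h3 : f - g ∈ RingHom.ker (dropVar O r) := by simp [RingHom.mem_ker, hgf]
    rw [ker_dropVar] at h3
    have h4 : f - g ∈ Ideal.span (Set.range
        (MvPowerSeries.X : Fin (r + 1) → MvPowerSeries (Fin (r + 1)) O)) :=
      Ideal.span_mono (by rintro _ rfl; exact ⟨0, rfl⟩) h3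
    simpa using add_mem h4 hg

/-- The list `X₀, …, X_{r-1}, C ϖ`. -/
noncomputable def stdSeq (r : ℕ) (w : O) : List (MvPowerSeries (Fin r) O) :=
  List.ofFn (MvPowerSeries.X : Fin r → MvPowerSeries (Fin r) O) ++ [MvPowerSeries.C w]

@[simp] lemma length_stdSeq (r : ℕ) (w : O) : (stdSeq r w).length = r + 1 := by simp [stdSeq]

theorem stdSeq_isWeaklyRegular [IsDomain O] {w : O} (hw : w ≠ 0) :
    ∀ r, IsWeaklyRegular (MvPowerSeries (Fin r) O) (stdSeq r w)
  | 0 => by
    have : IsDomain (MvPowerSeries (Fin 0) O) := NoZeroDivisors.to_isDomain _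
    simp only [stdSeq, List.ofFn_zero, List.nil_append]
    rw [isWeaklyRegular_singleton_iff]
    intro a b hab
    have hC : (MvPowerSeries.C w : MvPowerSeries (Fin 0) O) ≠ 0 := by
      intro h
      exact hw (by simpa using congrArg MvPowerSeries.constantCoeff h)
    exact mul_left_cancel₀ hC (by simpa [smul_eq_mul] using hab)
  | r + 1 => by
    have : IsDomain (MvPowerSeries (Fin (r + 1)) O) := NoZeroDivisors.to_isDomain _
    have ih := stdSeq_isWeaklyRegular hw r
    let : Algebra (MvPowerSeries (Fin (r + 1)) O) (MvPowerSeries (Fin r) O) :=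
      (dropVar O r).toAlgebra
    have hlist : (List.ofFn (fun j : Fin r => (MvPowerSeries.X j.succ :
        MvPowerSeries (Fin (r + 1)) O)) ++ [MvPowerSeries.C w]).map
        (algebraMap (MvPowerSeries (Fin (r + 1)) O) (MvPowerSeries (Fin r) O)) = stdSeq r w := by
      simp [stdSeq, RingHom.algebraMap_toAlgebra, dropVar_C, List.map_ofFn, Function.comp_def,
        dropVar_X_succ]
    simp only [stdSeq, List.ofFn_succ, List.cons_append]
    rw [isWeaklyRegular_cons_iff]
    refine ⟨fun a b hab => mul_left_cancel₀ ?_ (by simpa [smul_eq_mul] using hab), ?_⟩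
    · intro h
      have := congrArg (MvPowerSeries.coeff (Finsupp.single 0 1)) h
      simp at this
    · let f := Algebra.linearMap (MvPowerSeries (Fin (r + 1)) O) (MvPowerSeries (Fin r) O)
      have hf : Function.Surjective f := dropVar_surjective r
      have hker : LinearMap.ker f = (MvPowerSeries.X 0 : MvPowerSeries (Fin (r + 1)) O) •
          (⊤ : Submodule (MvPowerSeries (Fin (r + 1)) O) (MvPowerSeries (Fin (r + 1)) O)) := by
        ext x
        rw [Submodule.mem_smul_pointwise_iff_exists, LinearMap.mem_ker]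
        refine ⟨fun hx => ?_, ?_⟩
        · have : x ∈ RingHom.ker (dropVar O r) := hx
          rw [ker_dropVar, Ideal.mem_span_singleton] at this
          obtain ⟨y, rfl⟩ := this
          exact ⟨y, trivial, rfl⟩
        · rintro ⟨y, -, rfl⟩
          show dropVar O r (MvPowerSeries.X 0 * y) = 0
          simp [dropVar_X_zero]
      let e := (Submodule.quotEquivOfEq _ _ hker.symm).trans (f.quotKerEquivOfSurjective hf)
      rw [e.isWeaklyRegular_congr, ← isWeaklyRegular_map_algebraMap_iff
        (S := MvPowerSeries (Fin r) O), hlist]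
      exact ih

variable [IsDomain O] [IsDiscreteValuationRing O]

lemma ofList_stdSeq {w : O} (hw : Irreducible w) (r : ℕ) :
    Ideal.ofList (stdSeq r w) = maximalIdeal (MvPowerSeries (Fin r) O) := by
  refine le_antisymm ?_ ?_
  · rw [Ideal.ofList, Ideal.span_le]
    intro x hx
    rw [SetLike.mem_coe, mem_maximalIdeal, mem_nonunits_iff, MvPowerSeries.isUnit_iff_constantCoeff]
    simp only [stdSeq, List.mem_append, List.mem_ofFn, List.mem_singleton, Set.mem_ofPred_eq] at hx
    rcases hx with ⟨j, rfl⟩ | rfl
    · simp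
    · simpa using hw.not_isUnit
  · intro f hf
    rw [mem_maximalIdeal, mem_nonunits_iff, MvPowerSeries.isUnit_iff_constantCoeff,
      ← mem_nonunits_iff, ← mem_maximalIdeal, hw.maximalIdeal_eq, Ideal.mem_span_singleton] at hf
    obtain ⟨u, hu⟩ := hf
    have h1 : f - MvPowerSeries.C w * MvPowerSeries.C u ∈ Ideal.ofList (stdSeq r w) := by
      refine Ideal.span_mono ?_ (mem_span_range_X_of_constantCoeff_eq_zero r _ (by simp [hu]))
      rintro _ ⟨j, rfl⟩
      simp [stdSeq]
    have h2 : MvPowerSeries.C w * MvPowerSeries.C u ∈ Ideal.ofList (stdSeq r w) :=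
      Ideal.mul_mem_right _ _ (Ideal.subset_span (by simp [stdSeq]))
    simpa using add_mem h1 h2

lemma projectiveDimension_residue (r : ℕ) :
    projectiveDimension (ModuleCat.of (MvPowerSeries (Fin r) O)
      (MvPowerSeries (Fin r) O ⧸ maximalIdeal (MvPowerSeries (Fin r) O))) ≤ (r + 1 : ℕ) := by
  obtain ⟨w, hw⟩ := IsDiscreteValuationRing.exists_irreducible O
  have hreg := stdSeq_isWeaklyRegular hw.ne_zero r
  have hmem : ∀ x ∈ stdSeq r w, x ∈ maximalIdeal (MvPowerSeries (Fin r) O) := by
    intro x hx
    rw [← ofList_stdSeq hw r]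
    exact Ideal.subset_span hx
  have h := ModuleCat.projectiveDimension_quotient_eq_add_length_of_isWeaklyRegular
    (ModuleCat.of (MvPowerSeries (Fin r) O) (MvPowerSeries (Fin r) O)) (stdSeq r w) hreg hmem
  rw [ModuleCat.projectiveDimension_eq_zero_of_projective
    (ModuleCat.of (MvPowerSeries (Fin r) O) (MvPowerSeries (Fin r) O)), zero_add, length_stdSeq] at h
  refine le_of_eq ((projectiveDimension_eq_of_iso (LinearEquiv.toModuleIso ?_)).trans h)
  exact Submodule.quotEquivOfEq _ _ (by
    rw [smul_eq_mul, ofList_stdSeq hw r, Ideal.mul_top])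

theorem hasProjectiveDimensionLE_of_isFiniteLength (r : ℕ) {M : Type} [AddCommGroup M]
    [Module (MvPowerSeries (Fin r) O) M] (h : IsFiniteLength (MvPowerSeries (Fin r) O) M) :
    HasProjectiveDimensionLE (ModuleCat.of (MvPowerSeries (Fin r) O) M) (r + 1) := by
  induction h with
  | @of_subsingleton M _ _ _ =>
    have := (ModuleCat.isZero_iff_subsingleton
      (M := ModuleCat.of (MvPowerSeries (Fin r) O) M)).mpr ‹_›
    have := this.hasProjectiveDimensionLT_zero
    exact hasProjectiveDimensionLT_of_ge _ 0 _ (Nat.zero_le _)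
  | @of_simple_quotient M _ _ N hs hN ih =>
    have hS := LinearMap.shortExact_shortComplexKer (Submodule.mkQ_surjective N)
    refine hS.hasProjectiveDimensionLT_X₂ _ ?_ ?_
    · exact (Retract.ofIso (LinearEquiv.ofEq _ _ (Submodule.ker_mkQ N)).symm.toModuleIso.symm
        ).hasProjectiveDimensionLT _
    · obtain ⟨I, hI, ⟨e⟩⟩ := isSimpleModule_iff_quot_maximal.mp hs
      obtain rfl := eq_maximalIdeal hI
      have := (projectiveDimension_le_iff _ _).mp (projectiveDimension_residue (O := O) r)
      exact (Retract.ofIso e.toModuleIso).hasProjectiveDimensionLT _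

/-- A finite module over `O⟦X⟧` with a weakly regular sequence of length `r + 1` in the maximal
ideal, with finite-length quotient, is free. -/
theorem free_of_isWeaklyRegular {r : ℕ} {N : Type} [AddCommGroup N]
    [Module (MvPowerSeries (Fin r) O) N] [Module.Finite (MvPowerSeries (Fin r) O) N]
    [Nontrivial N] (rs : List (MvPowerSeries (Fin r) O)) (hlen : rs.length = r + 1)
    (hreg : IsWeaklyRegular N rs)
    (hmem : ∀ x ∈ rs, x ∈ maximalIdeal (MvPowerSeries (Fin r) O))
    (hfl : IsFiniteLength (MvPowerSeries (Fin r) O)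
      (N ⧸ Ideal.ofList rs • (⊤ : Submodule (MvPowerSeries (Fin r) O) N))) :
    Module.Free (MvPowerSeries (Fin r) O) N := by
  have h := ModuleCat.projectiveDimension_quotient_eq_add_length_of_isWeaklyRegular
    (ModuleCat.of (MvPowerSeries (Fin r) O) N) rs hreg hmem
  have h2 := (projectiveDimension_le_iff _ _).mpr
    (hasProjectiveDimensionLE_of_isFiniteLength r hfl)
  rw [h, hlen] at h2
  have h3 : projectiveDimension (ModuleCat.of (MvPowerSeries (Fin r) O) N) ≤ (0 : ℕ) := by
    rw [← ENat.WithBot.add_le_add_natCast_right_iff (c := r + 1)]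
    simpa using h2
  rw [projectiveDimension_le_iff, HasProjectiveDimensionLE, zero_add,
    ← projective_iff_hasProjectiveDimensionLT_one, ← IsProjective.iff_projective] at h3
  exact Module.free_of_flat_of_isLocalRing

end FLTAgent.Deformation
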