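import Fermat.Agent.Frobenius.Exists
import Fermat.Prelude.Def_CuspForm_HeckeGaloisRepDatum
import Fermat.Prelude.Def_GaloisRep_DeformationRingData

/-!
# The map from a universal deformation ring onto a Hecke ring
-/

set_option autoImplicit false

namespace FLTAgent.Deformation

open Polynomial

lemma charpoly_baseChangeAlong {A B : Type} [CommRing A] [IsLocalRing A] [CommRing B]
    [IsLocalRing B] (φ : A →+* B) (hφ : IsLocalHom φ) (ρ : GaloisRepAdic A)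
    (σ : AlgebraicClosure ℚ ≃ₐ[ℚ] AlgebraicClosure ℚ) :
    ((ρ.baseChangeAlong φ hφ).ρ σ).charpoly = (ρ.ρ σ).charpoly.map φ := by
  let : Algebra A B := φ.toAlgebra
  exact LinearMap.charpoly_baseChange (ρ.ρ σ) B

lemma charpoly_eq_of_equiv {A : Type} [CommRing A] [IsLocalRing A] {ρ₁ ρ₂ : GaloisRepAdic A}
    (e : GaloisRepAdic.Equiv ρ₁ ρ₂) (σ : AlgebraicClosure ℚ ≃ₐ[ℚ] AlgebraicClosure ℚ) :
    (ρ₂.ρ σ).charpoly = (ρ₁.ρ σ).charpoly := by
  have h : ρ₂.ρ σ = e.toLinearEquiv.conj (ρ₁.ρ σ) := by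
    refine LinearMap.ext fun y => ?_
    rw [LinearEquiv.conj_apply_apply, e.map_apply, LinearEquiv.apply_symm_apply]
  rw [h, LinearEquiv.charpoly_conj]

theorem surjective_algHom_to_hecke {𝒪 : Type} [CommRing 𝒪] [IsDomain 𝒪]
    [IsDiscreteValuationRing 𝒪] [IsAdicComplete (IsLocalRing.maximalIdeal 𝒪) 𝒪]
    {N : ℕ} [NeZero N] {S : Set ℕ}
    {θ : CuspForm.heckeAlgebra N 2 S →+* IsLocalRing.ResidueField 𝒪}
    {T : Type} [CommRing T] [IsLocalRing T] [IsNoetherianRing T]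
    [IsAdicComplete (IsLocalRing.maximalIdeal T) T] [Algebra 𝒪 T] [IsLocalHom (algebraMap 𝒪 T)]
    [Module.Finite 𝒪 T] [Module.Free 𝒪 T] (H : CuspForm.HeckeGaloisRepDatum N S 𝒪 θ T)
    (hS : ∀ q : ℕ, q.Prime → q ∣ N → q ∈ S)
    {R : Type} [CommRing R] [IsLocalRing R] [Algebra 𝒪 R] (ρ : GaloisRepAdic R)
    (φ : R →ₐ[𝒪] T) (hφ : IsLocalHom (φ : R →+* T))
    (e : (ρ.baseChangeAlong (φ : R →+* T) hφ).IsEquiv H.ρ) :
    Function.Surjective φ := by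
  obtain ⟨e⟩ := e
  have hT : ∀ (ℓ : ℕ) (hℓ : ℓ.Prime) (hℓN : ¬ ℓ ∣ N) (hℓS : ℓ ∉ S),
      H.π (CuspForm.heckeAlgebra.T hℓ hℓN hℓS) ∈ φ.range := by
    intro ℓ hℓ hℓN hℓS
    obtain ⟨V, hV⟩ := FLTAgent.Frobenius.exists_liesOverPrime ℓ hℓ
    obtain ⟨σ, hσ⟩ := FLTAgent.Frobenius.exists_isFrobeniusAt V ℓ hℓ hV
    have h := H.charpoly_frob ℓ hℓ hℓN hℓS V hV σ hσ
    rw [charpoly_eq_of_equiv e, charpoly_baseChangeAlong] at h
    have h1 := congrArg (fun p : T[X] => p.coeff 1) h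
    simp only [coeff_map, coeff_add, coeff_sub, coeff_C_mul, coeff_X_one, mul_one, coeff_X_pow,
      coeff_C] at h1
    refine ⟨-((ρ.ρ σ).charpoly.coeff 1), ?_⟩
    show φ (-((ρ.ρ σ).charpoly.coeff 1)) = _
    rw [map_neg]
    exact neg_eq_iff_eq_neg.mpr (by simpa using h1)
  have hrange : Algebra.adjoin 𝒪 (Set.range H.π) ≤ φ.range := by
    refine Algebra.adjoin_le ?_
    rintro _ ⟨⟨t, ht⟩, rfl⟩
    refine Algebra.adjoin_induction (p := fun t ht =>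
      H.π (⟨t, ht⟩ : CuspForm.heckeAlgebra N 2 S) ∈ φ.range) ?_ ?_ ?_ ?_ ht
    · rintro x (⟨ℓ, hℓ, hℓN, hℓS, rfl⟩ | ⟨q, hqN, hq, hqS, rfl⟩)
      · exact hT ℓ hℓ hℓN hℓS
      · exact absurd (hS q hq hqN) hqS
    · intro z
      have : H.π (algebraMap ℤ (CuspForm.heckeAlgebra N 2 S) z) = (z : T) := by simp
      rw [show (⟨algebraMap ℤ _ z, _⟩ : CuspForm.heckeAlgebra N 2 S) =
        algebraMap ℤ (CuspForm.heckeAlgebra N 2 S) z from rfl, this]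
      exact intCast_mem _ z
    · intro x y hx hy px py
      rw [show (⟨x + y, _⟩ : CuspForm.heckeAlgebra N 2 S) = ⟨x, hx⟩ + ⟨y, hy⟩ from rfl, map_add]
      exact add_mem px py
    · intro x y hx hy px py
      rw [show (⟨x * y, _⟩ : CuspForm.heckeAlgebra N 2 S) = ⟨x, hx⟩ * ⟨y, hy⟩ from rfl, map_mul]
      exact mul_mem px py
  rw [H.adjoin_range_π] at hrange
  exact fun t => hrange (Algebra.mem_top : t ∈ (⊤ : Subalgebra 𝒪 T))

end FLTAgent.Deformation
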