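import Fermat.Agent.Deformation.Bridge
import Fermat.Prelude.Def_GaloisRep_DeformationCondition

/-!
# Finite test algebras, trace-generated deformations and their joins
-/

set_option autoImplicit false

namespace FLTAgent.Deformation

open IsLocalRing Matrix GaloisRep

local notation "GG" => (AlgebraicClosure ℚ ≃ₐ[ℚ] AlgebraicClosure ℚ)

variable {O : Type} [CommRing O] [IsLocalRing O]

section Basics

variable {A : Type} [CommRing A] [IsLocalRing A] [Algebra O A]

/-- A surjection onto the residue field forces the structure map to be local. -/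
lemma isLocalHom_of_residue_surjective
    (h : Function.Surjective (residue A ∘ algebraMap O A)) : IsLocalHom (algebraMap O A) := by
  have hmax : (RingHom.ker ((residue A).comp (algebraMap O A))).IsMaximal :=
    RingHom.ker_isMaximal_of_surjective _ h
  refine ⟨fun a ha => ?_⟩
  by_contra hna
  have hmem : a ∈ RingHom.ker ((residue A).comp (algebraMap O A)) := by
    rw [IsLocalRing.eq_maximalIdeal hmax]
    exact (mem_maximalIdeal a).mpr hna
  rw [RingHom.mem_ker, RingHom.comp_apply, residue_eq_zero_iff] at hmem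
  exact (mem_maximalIdeal _).mp hmem ha

/-- Ring maps out of an Artinian local ring into a local ring are local. -/
lemma isLocalHom_of_isArtinian [IsArtinianRing A] {B : Type} [CommRing B] [IsLocalRing B]
    (f : A →+* B) : IsLocalHom f := by
  refine ⟨fun a ha => ?_⟩
  by_contra hna
  have hnil : IsNilpotent a := by
    obtain ⟨N, hN⟩ := IsArtinianRing.isNilpotent_jacobson_bot (R := A)
    refine ⟨N, ?_⟩
    have hm : a ∈ (⊥ : Ideal A).jacobson := by
      rw [IsLocalRing.jacobson_eq_maximalIdeal ⊥ bot_ne_top]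
      exact (mem_maximalIdeal a).mpr hna
    have h := Ideal.pow_mem_pow hm N
    rw [hN] at h
    exact h
  exact (hnil.map f).not_isUnit ha

lemma exists_pow_maximalIdeal_eq_bot [IsArtinianRing A] : ∃ N, maximalIdeal A ^ N = ⊥ := by
  obtain ⟨N, hN⟩ := IsArtinianRing.isNilpotent_jacobson_bot (R := A)
  rw [IsLocalRing.jacobson_eq_maximalIdeal ⊥ bot_ne_top] at hN
  exact ⟨N, hN⟩

lemma finite_residueField [Finite (ResidueField O)]
    (h : Function.Surjective (residue A ∘ algebraMap O A)) : Finite (ResidueField A) := by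
  have := isLocalHom_of_residue_surjective h
  refine Finite.of_surjective (ResidueField.map (algebraMap O A)) fun y => ?_
  obtain ⟨a, rfl⟩ := h y
  exact ⟨residue O a, by rw [ResidueField.map_residue]; rfl⟩

lemma finite_of_test [Finite (ResidueField O)] (h : IsArtinianTestAlgebra O A) :
    Finite A := by
  have := h.isArtinian
  have : Finite (A ⧸ maximalIdeal A) := finite_residueField h.residue_surjective
  obtain ⟨N, hN⟩ := exists_pow_maximalIdeal_eq_bot (A := A)
  have := Ideal.finite_quotient_pow (IsNoetherian.noetherian (maximalIdeal A)) N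
  rw [hN] at this
  exact Finite.of_equiv _ (RingEquiv.quotientBot A).toEquiv

lemma isArtinianTestAlgebra_of_finite [Finite A]
    (h : Function.Surjective (residue A ∘ algebraMap O A)) : IsArtinianTestAlgebra O A :=
  ⟨isLocalHom_of_residue_surjective h, h, inferInstance⟩

lemma bijective_residueMap [IsLocalHom (algebraMap O A)]
    (h : Function.Surjective (residue A ∘ algebraMap O A)) :
    Function.Bijective (ResidueField.map (algebraMap O A)) :=
  ⟨RingHom.injective _, fun y => (h y).elim fun a ha => ⟨residue O a, by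
    rw [ResidueField.map_residue]; exact ha⟩⟩

/-- A finite local algebra of residue degree one sends to the residue field of the base. -/
noncomputable def toResidue (h : Function.Surjective (residue A ∘ algebraMap O A)) :
    A →ₐ[O] ResidueField O :=
  have := isLocalHom_of_residue_surjective h
  { toRingHom := ((RingEquiv.ofBijective (ResidueField.map (algebraMap O A))
      (bijective_residueMap h)).symm.toRingHom).comp (residue A)
    commutes' := fun a => by
      show (RingEquiv.ofBijective (ResidueField.map (algebraMap O A)) (bijective_residueMap h)).symm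
        (residue A (algebraMap O A a)) = algebraMap O (ResidueField O) a
      rw [RingEquiv.symm_apply_eq, ResidueField.algebraMap_eq]
      show _ = ResidueField.map (algebraMap O A) (residue O a)
      rw [ResidueField.map_residue] }

lemma toResidue_eq_zero_iff (h : Function.Surjective (residue A ∘ algebraMap O A)) (a : A) :
    toResidue h a = 0 ↔ a ∈ maximalIdeal A := by
  have := isLocalHom_of_residue_surjective h
  show (RingEquiv.ofBijective (ResidueField.map (algebraMap O A)) (bijective_residueMap h)).symm (residue A a) = 0 ↔ _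
  rw [map_eq_zero_iff _ (RingEquiv.injective _), residue_eq_zero_iff]

lemma isArtinianTestAlgebra_residueField : IsArtinianTestAlgebra O (ResidueField O) := by
  have h : Function.Surjective (residue (ResidueField O) ∘ algebraMap O (ResidueField O)) :=
    residue_surjective.comp residue_surjective
  exact ⟨isLocalHom_of_residue_surjective h, h, inferInstance⟩

lemma matCts_of_level {r : GG →* M2 A} (L : IntermediateField ℚ (AlgebraicClosure ℚ))
    (hL : FiniteDimensional ℚ L) (h : ∀ σ : GG, (∀ x ∈ L, σ x = x) → r σ = 1) : MatCts r :=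
  fun n => ⟨L, hL, fun σ hσ i j => by rw [h σ hσ]; simp⟩

lemma MatCts.exists_level {r : GG →* M2 A} (h : MatCts r) [IsArtinianRing A] :
    ∃ L : IntermediateField ℚ (AlgebraicClosure ℚ), FiniteDimensional ℚ L ∧
      ∀ σ : GG, (∀ x ∈ L, σ x = x) → r σ = 1 := by
  obtain ⟨N, hN⟩ := exists_pow_maximalIdeal_eq_bot (A := A)
  obtain ⟨L, hL, h1⟩ := h N
  refine ⟨L, hL, fun σ hσ => Matrix.ext fun i j => sub_eq_zero.mp ?_⟩
  have h2 := h1 σ hσ i j
  rw [hN, Ideal.mem_bot, Matrix.sub_apply] at h2
  exact h2

end Basics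

variable (ρbar : ResidualGaloisRep (ResidueField O))
  (𝒟 : ∀ ⦃A : Type⦄ [CommRing A] [IsLocalRing A] [Algebra O A], GaloisRepAdic A → Prop)

/-- A deformation to a test algebra generated by its traces. -/
structure TDef : Type 1 where
  /-- The coefficient ring. -/
  A : Type
  [ring : CommRing A]
  [loc : IsLocalRing A]
  [alg : Algebra O A]
  test : IsArtinianTestAlgebra O A
  /-- The matrix representation. -/
  r : GG →* M2 A
  reduces : Reduces ρbar r
  cts : MatCts r
  mem : 𝒟 (repOfMatrix r cts)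
  gen : Algebra.adjoin O (Set.range fun σ => Matrix.trace (r σ)) = ⊤

attribute [instance] TDef.ring TDef.loc TDef.alg

variable {ρbar} {𝒟}

/-- A map of trace-generated deformations. -/
def TraceCompat (T : TDef ρbar 𝒟) {B : Type} [CommRing B] [Algebra O B] (φ : T.A →ₐ[O] B)
    (t : GG → B) : Prop :=
  ∀ σ, φ (Matrix.trace (T.r σ)) = t σ

lemma TraceCompat.ext {T : TDef ρbar 𝒟} {B : Type} [CommRing B] [Algebra O B]
    {φ ψ : T.A →ₐ[O] B} {t : GG → B} (hφ : TraceCompat T φ t) (hψ : TraceCompat T ψ t) : φ = ψ :=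
  AlgHom.ext_of_adjoin_eq_top T.gen (by rintro _ ⟨σ, rfl⟩; rw [hφ σ, hψ σ])

lemma TraceCompat.surjective {T T' : TDef ρbar 𝒟} {φ : T.A →ₐ[O] T'.A}
    (h : TraceCompat T φ fun σ => Matrix.trace (T'.r σ)) : Function.Surjective φ := by
  have hle : Algebra.adjoin O (Set.range fun σ => Matrix.trace (T'.r σ)) ≤ φ.range :=
    Algebra.adjoin_le (by rintro _ ⟨σ, rfl⟩; exact ⟨_, h σ⟩)
  rw [T'.gen] at hle
  exact fun y => hle (Algebra.mem_top : y ∈ (⊤ : Subalgebra O T'.A))

lemma mem_of_conj (h𝒟 : IsDeformationCondition O 𝒟) {A : Type} [CommRing A] [IsLocalRing A]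
    [Algebra O A] (htest : IsArtinianTestAlgebra O A) {r r' : GG →* M2 A} (h : MatCts r)
    (h' : MatCts r') {P : M2 A} (hP : IsUnit P) (hconj : ∀ σ, P * r σ = r' σ * P)
    (hmem : 𝒟 (repOfMatrix r h)) : 𝒟 (repOfMatrix r' h') :=
  h𝒟.of_isEquiv htest (isEquiv_repOfMatrix_of_conj h h' hP hconj) hmem

lemma mem_map (h𝒟 : IsDeformationCondition O 𝒟) {A B : Type} [CommRing A] [IsLocalRing A]
    [Algebra O A] [CommRing B] [IsLocalRing B] [Algebra O B] (hA : IsArtinianTestAlgebra O A)
    (hB : IsArtinianTestAlgebra O B) (φ : A →ₐ[O] B) (hφ : IsLocalHom (φ : A →+* B))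
    {r : GG →* M2 A} (h : MatCts r) (hmem : 𝒟 (repOfMatrix r h))
    (h' : MatCts (mapMat (φ : A →+* B) r)) :
    𝒟 (repOfMatrix (mapMat (φ : A →+* B) r) h') :=
  h𝒟.of_isEquiv hB (isEquiv_symm (baseChange_repOfMatrix (φ : A →+* B) hφ r h))
    (h𝒟.baseChangeAlong hA hB φ hφ hmem)

variable [Finite (ResidueField O)]

/-- Descent to the subalgebra generated by the traces. -/
theorem exists_tdef_descent (h𝒟 : IsDeformationCondition O 𝒟)
    (habs : ρbar.IsAbsolutelyIrreducible) {A : Type} [CommRing A] [IsLocalRing A] [Algebra O A]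
    (htest : IsArtinianTestAlgebra O A) (r : GG →* M2 A) (hred : Reduces ρbar r) (hcts : MatCts r)
    (hmem : 𝒟 (repOfMatrix r hcts)) :
    ∃ (T : TDef ρbar 𝒟) (ι : T.A →ₐ[O] A), Function.Injective ι ∧
      TraceCompat T ι fun σ => Matrix.trace (r σ) := by
  have := htest.isLocalHom
  have := htest.isArtinian
  have := finite_of_test htest
  let U := Algebra.adjoin O (Set.range fun σ => Matrix.trace (r σ))
  have hunit : ∀ u : U, IsUnit (u : A) → IsUnit u := by
    intro u hu
    have hinj : Function.Injective fun v : U => u * v := fun v w hvw =>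
      Subtype.ext (hu.mul_left_cancel (by simpa using congrArg Subtype.val hvw))
    obtain ⟨v, hv⟩ := Finite.surjective_of_injective hinj 1
    exact isUnit_iff_exists_inv.mpr ⟨v, hv⟩
  have : IsLocalRing U := IsLocalRing.of_nonunits_add fun a b ha hb h => by
    have h1 : ((a + b : U) : A) ∈ nonunits A := IsLocalRing.nonunits_add
      (fun h' => ha (hunit a h')) (fun h' => hb (hunit b h'))
    exact h1 (h.map U.val)
  have hloc : IsLocalHom (U.val : U →+* A) := ⟨fun u hu => hunit u hu⟩
  have hsurj : Function.Surjective (residue U ∘ algebraMap O U) := by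
    intro y
    obtain ⟨u, rfl⟩ := residue_surjective y
    obtain ⟨a, ha⟩ := htest.residue_surjective (residue A (u : A))
    refine ⟨a, ?_⟩
    simp only [Function.comp_apply] at ha ⊢
    rw [← sub_eq_zero, ← map_sub, residue_eq_zero_iff] at ha ⊢
    intro hu
    exact ha (hu.map U.val)
  have hU : IsArtinianTestAlgebra O U := isArtinianTestAlgebra_of_finite hsurj
  obtain ⟨N, hN⟩ := exists_pow_maximalIdeal_eq_bot (A := A)
  obtain ⟨r₀, P, hP, hPres, hconj⟩ := exists_descent (B := U) (U.val : U →+* A)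
    Subtype.val_injective hN
    (fun a => (htest.residue_surjective (residue A a)).elim fun o ho => ⟨algebraMap O U o, ho⟩)
    r (spansResidue_of_reduces ρbar habs hred)
    (fun σ => ⟨⟨_, Algebra.subset_adjoin ⟨σ, rfl⟩⟩, rfl⟩)
  have hred0 : Reduces ρbar r₀ := by
    intro σ i j
    have h1 := congrArg (fun M : M2 A => M.map (residue A)) (hconj σ)
    simp only [Matrix.map_mul, hPres, mul_one, one_mul] at h1
    have h2 := congrFun (congrFun h1 i) j
    have h3 := hred σ i j
    rw [← residue_eq_zero_iff, map_sub, sub_eq_zero] at h3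
    simp only [Matrix.map_apply] at h2
    rw [mem_maximalIdeal, mem_nonunits_iff]
    intro hu
    have h4 := hu.map (U.val : U →+* A)
    rw [map_sub] at h4
    refine (mem_maximalIdeal _).mp ?_ h4
    rw [← residue_eq_zero_iff, map_sub, sub_eq_zero, ← h2, h3]
    rfl
  obtain ⟨L, hL, hLr⟩ := hcts.exists_level
  have hcts0 : MatCts r₀ := matCts_of_level L hL fun σ hσ => by
    have h1 := hconj σ
    rw [hLr σ hσ, one_mul] at h1
    have h2 : P * 1 = P * (r₀ σ).map (U.val : U →+* A) := by rw [mul_one]; exact h1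
    refine Matrix.map_injective (f := ((U.val : U →+* A) : U → A)) Subtype.val_injective ?_
    show (r₀ σ).map (U.val : U →+* A) = (1 : M2 U).map (U.val : U →+* A)
    rw [← hP.mul_left_cancel h2, Matrix.map_one _ (map_zero _) (map_one _)]
  have hmem0 : 𝒟 (repOfMatrix r₀ hcts0) := by
    refine h𝒟.of_baseChangeAlong_injective hU htest U.val hloc Subtype.val_injective ?_
    refine h𝒟.of_isEquiv htest ?_ hmem
    exact isEquiv_trans (isEquiv_symm (isEquiv_repOfMatrix_of_conj
      (hcts0.map _ hloc) hcts hP fun σ => (hconj σ).symm))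
      (baseChange_repOfMatrix _ hloc r₀ hcts0)
  have htr : ∀ σ, (U.val : U →+* A) (Matrix.trace (r₀ σ)) = Matrix.trace (r σ) := by
    intro σ
    rw [← trace_mapMat, mapMat_apply]
    obtain ⟨u, rfl⟩ := hP
    have h1 : (r₀ σ).map (U.val : U →+* A) = (↑u⁻¹ : M2 A) * r σ * (u : M2 A) := by
      rw [mul_assoc, hconj σ, ← mul_assoc, Units.inv_mul, one_mul]
    rw [h1, Matrix.trace_mul_cycle, Units.mul_inv, one_mul]
  have hgen : Algebra.adjoin O (Set.range fun σ => Matrix.trace (r₀ σ)) = ⊤ := by
    apply Subalgebra.map_injective (f := U.val) Subtype.val_injective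
    rw [AlgHom.map_adjoin, ← Set.range_comp, Algebra.map_top, Subalgebra.range_val]
    congr 2
    funext σ
    exact htr σ
  exact ⟨{ A := U, test := hU, r := r₀, reduces := hred0, cts := hcts0, mem := hmem0, gen := hgen },
    U.val, Subtype.val_injective, htr⟩

/-- Two trace-generated deformations are dominated by a third one inside their product. -/
theorem exists_tdef_join (h𝒟 : IsDeformationCondition O 𝒟) (habs : ρbar.IsAbsolutelyIrreducible)
    (T₁ T₂ : TDef ρbar 𝒟) :
    ∃ (T : TDef ρbar 𝒟) (φ₁ : T.A →ₐ[O] T₁.A) (φ₂ : T.A →ₐ[O] T₂.A),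
      TraceCompat T φ₁ (fun σ => Matrix.trace (T₁.r σ)) ∧
      TraceCompat T φ₂ (fun σ => Matrix.trace (T₂.r σ)) ∧
      Function.Injective fun x => (φ₁ x, φ₂ x) := by
  have := finite_of_test T₁.test
  have := finite_of_test T₂.test
  have := T₁.test.isArtinian
  have := T₂.test.isArtinian
  let π₁ := toResidue T₁.test.residue_surjective
  let π₂ := toResidue T₂.test.residue_surjective
  let P : Subalgebra O (T₁.A × T₂.A) := AlgHom.equalizer
    (π₁.comp (AlgHom.fst O T₁.A T₂.A)) (π₂.comp (AlgHom.snd O T₁.A T₂.A))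
  have hP : ∀ x : P, π₁ x.1.1 = π₂ x.1.2 := fun x => x.2
  have hunit : ∀ x : P, π₁ x.1.1 ≠ 0 → IsUnit x := by
    intro x hx
    have h1 : IsUnit x.1.1 := by
      by_contra h
      exact hx ((toResidue_eq_zero_iff _ _).mpr ((mem_maximalIdeal _).mpr h))
    have h2 : IsUnit x.1.2 := by
      by_contra h
      rw [hP x] at hx
      exact hx ((toResidue_eq_zero_iff _ _).mpr ((mem_maximalIdeal _).mpr h))
    have hinj : Function.Injective fun v : P => x * v := fun v w hvw => by
      have h' := congrArg Subtype.val hvw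
      refine Subtype.ext (Prod.ext ?_ ?_)
      · exact h1.mul_left_cancel (by simpa using congrArg Prod.fst h')
      · exact h2.mul_left_cancel (by simpa using congrArg Prod.snd h')
    obtain ⟨v, hv⟩ := Finite.surjective_of_injective hinj 1
    exact isUnit_iff_exists_inv.mpr ⟨v, hv⟩
  have hnon : ∀ x : P, ¬ IsUnit x → π₁ x.1.1 = 0 := fun x hx => by
    by_contra h; exact hx (hunit x h)
  have : Nontrivial P := ⟨0, 1, fun h => zero_ne_one
    (α := T₁.A) (congrArg (fun x : P => x.1.1) h)⟩
  have : IsLocalRing P := IsLocalRing.of_nonunits_add fun a b ha hb h => by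
    have h1 : IsUnit (π₁ (a + b : P).1.1) := h.map (π₁.comp ((AlgHom.fst O T₁.A T₂.A).comp P.val))
    have h2 : π₁ (a + b : P).1.1 = 0 := by
      show π₁ (a.1.1 + b.1.1) = 0
      rw [map_add, hnon a ha, hnon b hb, add_zero]
    exact not_isUnit_zero (h2 ▸ h1)
  let p₁ : P →ₐ[O] T₁.A := (AlgHom.fst O T₁.A T₂.A).comp P.val
  let p₂ : P →ₐ[O] T₂.A := (AlgHom.snd O T₁.A T₂.A).comp P.val
  have hPsurj : Function.Surjective (residue P ∘ algebraMap O P) := by
    intro y
    obtain ⟨x, rfl⟩ := residue_surjective y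
    obtain ⟨a, ha⟩ := residue_surjective (π₁ x.1.1)
    refine ⟨a, ?_⟩
    show residue P (algebraMap O P a) = residue P x
    rw [← sub_eq_zero, ← map_sub, residue_eq_zero_iff, mem_maximalIdeal, mem_nonunits_iff]
    intro hu
    have h1 : IsUnit (π₁ (p₁ (algebraMap O P a - x))) := (hu.map p₁).map π₁
    rw [map_sub, map_sub, AlgHom.commutes, AlgHom.commutes, ResidueField.algebraMap_eq, ha] at h1
    simp [p₁] at h1
  have hPtest : IsArtinianTestAlgebra O P := isArtinianTestAlgebra_of_finite hPsurj
  have := hPtest.isArtinian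
  have hres : ∀ σ i j, π₁ (T₁.r σ i j) = π₂ (T₂.r σ i j) := by
    intro σ i j
    have h1 := (toResidue_eq_zero_iff T₁.test.residue_surjective _).mpr (T₁.reduces σ i j)
    have h2 := (toResidue_eq_zero_iff T₂.test.residue_surjective _).mpr (T₂.reduces σ i j)
    rw [map_sub, sub_eq_zero, AlgHom.commutes] at h1 h2
    exact h1.trans h2.symm
  let mk : GG → M2 P := fun σ => Matrix.of fun i j => ⟨(T₁.r σ i j, T₂.r σ i j), hres σ i j⟩
  have hmk1 : ∀ σ, (mk σ).map p₁ = T₁.r σ := fun σ => rfl
  have hmk2 : ∀ σ, (mk σ).map p₂ = T₂.r σ := fun σ => rfl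
  have hjinj : ∀ x y : M2 P, x.map p₁ = y.map p₁ → x.map p₂ = y.map p₂ → x = y := by
    intro x y h1 h2
    ext i j : 1
    exact Subtype.ext (Prod.ext (congrFun (congrFun h1 i) j) (congrFun (congrFun h2 i) j))
  let r : GG →* M2 P :=
    { toFun := mk
      map_one' := hjinj _ _
        (by rw [hmk1, map_one, Matrix.map_one _ (map_zero p₁) (map_one p₁)])
        (by rw [hmk2, map_one, Matrix.map_one _ (map_zero p₂) (map_one p₂)])
      map_mul' := fun σ τ => hjinj _ _
        (by rw [hmk1, Matrix.map_mul, hmk1, hmk1, map_mul])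
        (by rw [hmk2, Matrix.map_mul, hmk2, hmk2, map_mul]) }
  obtain ⟨L₁, hL₁, hr₁⟩ := T₁.cts.exists_level
  obtain ⟨L₂, hL₂, hr₂⟩ := T₂.cts.exists_level
  have := hL₁; have := hL₂
  have hcts : MatCts r := matCts_of_level (L₁ ⊔ L₂) inferInstance fun σ hσ => hjinj _ _
    (by
      show (mk σ).map p₁ = _
      rw [hmk1, hr₁ σ (fun x hx => hσ x ((le_sup_left : L₁ ≤ L₁ ⊔ L₂) hx)),
        Matrix.map_one _ (map_zero p₁) (map_one p₁)])
    (by
      show (mk σ).map p₂ = _
      rw [hmk2, hr₂ σ (fun x hx => hσ x ((le_sup_right : L₂ ≤ L₁ ⊔ L₂) hx)),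
        Matrix.map_one _ (map_zero p₂) (map_one p₂)])
  have hred : Reduces ρbar r := by
    intro σ i j
    rw [mem_maximalIdeal, mem_nonunits_iff]
    intro hu
    have h1 := hu.map p₁
    rw [map_sub, AlgHom.commutes] at h1
    exact (mem_maximalIdeal _).mp (T₁.reduces σ i j) h1
  have hp₁ : IsLocalHom (p₁ : P →+* T₁.A) := isLocalHom_of_isArtinian _
  have hp₂ : IsLocalHom (p₂ : P →+* T₂.A) := isLocalHom_of_isArtinian _
  have hmem : 𝒟 (repOfMatrix r hcts) := by
    refine h𝒟.of_fibreProduct T₁.test T₂.test isArtinianTestAlgebra_residueField hPtest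
      π₁ π₂ p₁ p₂ hp₁ hp₂ ?_ ?_ ?_ ?_ ?_
    · exact AlgHom.ext hP
    · intro x y hxy
      exact Subtype.ext (Prod.ext (congrArg Prod.fst hxy) (congrArg Prod.snd hxy))
    · intro a b hab
      exact ⟨⟨(a, b), hab⟩, rfl, rfl⟩
    · have h : mapMat (p₁ : P →+* T₁.A) r = T₁.r := MonoidHom.ext hmk1
      refine h𝒟.of_isEquiv T₁.test ?_ T₁.mem
      have := baseChange_repOfMatrix (p₁ : P →+* T₁.A) hp₁ r hcts
      simp only [h] at this
      exact this
    · have h : mapMat (p₂ : P →+* T₂.A) r = T₂.r := MonoidHom.ext hmk2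
      refine h𝒟.of_isEquiv T₂.test ?_ T₂.mem
      have := baseChange_repOfMatrix (p₂ : P →+* T₂.A) hp₂ r hcts
      simp only [h] at this
      exact this
  obtain ⟨T, ι, hι, htr⟩ := exists_tdef_descent h𝒟 habs hPtest r hred hcts hmem
  refine ⟨T, p₁.comp ι, p₂.comp ι, fun σ => ?_, fun σ => ?_, fun x y hxy => hι ?_⟩
  · rw [AlgHom.comp_apply, htr σ]
    exact map_sum p₁ _ _
  · rw [AlgHom.comp_apply, htr σ]
    exact map_sum p₂ _ _
  · exact Subtype.ext (Prod.ext (congrArg Prod.fst hxy) (congrArg Prod.snd hxy))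

end FLTAgent.Deformation
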