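import Fermat.Agent.Deformation.TestAlgebra

/-!
# The tower of maximal trace-generated deformations
-/

set_option autoImplicit false

namespace FLTAgent.Deformation

open IsLocalRing Matrix GaloisRep

local notation "GG" => (AlgebraicClosure ℚ ≃ₐ[ℚ] AlgebraicClosure ℚ)

section Generation

variable {O : Type} [CommRing O] [IsLocalRing O] {A : Type} [CommRing A] [IsLocalRing A]
  [Algebra O A]

/-- The square of the maximal ideal plus the maximal ideal of the base. -/
def cotIdeal (O A : Type) [CommRing O] [IsLocalRing O] [CommRing A] [IsLocalRing A] [Algebra O A] :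
    Ideal A :=
  maximalIdeal A ^ 2 ⊔ (maximalIdeal O).map (algebraMap O A)

lemma exists_sub_mem_sq (hA : IsArtinianTestAlgebra O A) {s : A} (hs : s ∈ cotIdeal O A) :
    ∃ o : O, s - algebraMap O A o ∈ maximalIdeal A ^ 2 := by
  obtain ⟨u, hu, v, hv, rfl⟩ := Submodule.mem_sup.mp hs
  suffices h : ∃ o : O, v - algebraMap O A o ∈ maximalIdeal A ^ 2 by
    obtain ⟨o, ho⟩ := h
    exact ⟨o, by rw [add_sub_assoc]; exact add_mem hu ho⟩
  have hle : ∀ o ∈ maximalIdeal O, algebraMap O A o ∈ maximalIdeal A := fun o ho =>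
    (have := hA.isLocalHom; map_nonunit (algebraMap O A) o ho)
  clear hs
  induction hv using Submodule.span_induction with
  | mem _ hx =>
    obtain ⟨o, -, rfl⟩ := hx
    exact ⟨o, by simp⟩
  | zero => exact ⟨0, by simp⟩
  | add _ _ _ _ hx hy =>
    obtain ⟨o, ho⟩ := hx; obtain ⟨o', ho'⟩ := hy
    exact ⟨o + o', by rw [map_add, add_sub_add_comm]; exact add_mem ho ho'⟩
  | smul c w hw hx =>
    obtain ⟨o, ho⟩ := hx
    obtain ⟨o', ho'⟩ := hA.residue_surjective (residue A c)
    refine ⟨o' * o, ?_⟩
    have hw' : w ∈ maximalIdeal A :=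
      (Submodule.span_le.mpr (by rintro _ ⟨o, ho, rfl⟩; exact hle o ho)) hw
    have hc : c - algebraMap O A o' ∈ maximalIdeal A := by
      rw [← residue_eq_zero_iff, map_sub, sub_eq_zero]
      exact ho'.symm
    have : c • w - algebraMap O A (o' * o) =
        (c - algebraMap O A o') * w + algebraMap O A o' * (w - algebraMap O A o) := by
      rw [smul_eq_mul, map_mul]; ring
    rw [this]
    exact add_mem (by rw [pow_two]; exact Ideal.mul_mem_mul hc hw') (Ideal.mul_mem_left _ _ ho)

/-- An algebra map hitting generators of the cotangent space is surjective. -/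
theorem surjective_of_cot (hA : IsArtinianTestAlgebra O A) {R : Type} [CommRing R] [Algebra O R]
    (f : R →ₐ[O] A) (hf : ∀ a ∈ maximalIdeal A, ∃ b, a - f b ∈ cotIdeal O A) :
    Function.Surjective f := by
  have := hA.isArtinian
  have h1 : ∀ a ∈ maximalIdeal A, ∃ b, a - f b ∈ maximalIdeal A ^ 2 := by
    intro a ha
    obtain ⟨b, hb⟩ := hf a ha
    obtain ⟨o, ho⟩ := exists_sub_mem_sq hA hb
    exact ⟨b + algebraMap O R o, by rw [map_add, AlgHom.commutes, ← sub_sub]; exact ho⟩
  have h2 : ∀ j, ∀ a ∈ maximalIdeal A ^ (j + 1), ∃ b, a - f b ∈ maximalIdeal A ^ (j + 2) := by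
    intro j
    induction j with
    | zero => intro a ha; exact h1 a (by simpa using ha)
    | succ j ih =>
      intro a ha
      rw [pow_succ] at ha
      refine Submodule.mul_induction_on ha (fun u hu v hv => ?_) (fun x y hx hy => ?_)
      ·
        obtain ⟨bu, hbu⟩ := ih u hu
        obtain ⟨bv, hbv⟩ := h1 v hv
        refine ⟨bu * bv, ?_⟩
        have hfu : f bu ∈ maximalIdeal A ^ (j + 1) := by
          have := sub_mem hu (Ideal.pow_le_pow_right (Nat.le_succ _) hbu)
          simpa using this
        rw [map_mul, show u * v - f bu * f bv = (u - f bu) * v + f bu * (v - f bv) by ring]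
        refine add_mem ?_ ?_
        · rw [show j + 1 + 2 = (j + 2) + 1 by omega, pow_succ]
          exact Ideal.mul_mem_mul hbu hv
        · rw [show j + 1 + 2 = (j + 1) + 2 by omega, pow_add]
          exact Ideal.mul_mem_mul hfu hbv
      · obtain ⟨b, hb⟩ := hx; obtain ⟨b', hb'⟩ := hy
        exact ⟨b + b', by rw [map_add, add_sub_add_comm]; exact add_mem hb hb'⟩
  intro a
  have h3 : ∀ j, ∃ b, a - f b ∈ maximalIdeal A ^ (j + 1) := by
    intro j
    induction j with
    | zero =>
      obtain ⟨o, ho⟩ := hA.residue_surjective (residue A a)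
      refine ⟨algebraMap O R o, ?_⟩
      rw [zero_add, pow_one, AlgHom.commutes, ← residue_eq_zero_iff, map_sub, sub_eq_zero]
      exact ho.symm
    | succ j ih =>
      obtain ⟨b, hb⟩ := ih
      obtain ⟨b', hb'⟩ := h2 j _ hb
      exact ⟨b + b', by rw [map_add, ← sub_sub]; exact hb'⟩
  obtain ⟨N, hN⟩ := exists_pow_maximalIdeal_eq_bot (A := A)
  obtain ⟨b, hb⟩ := h3 N
  refine ⟨b, (sub_eq_zero.mp ?_).symm⟩
  have := Ideal.pow_le_pow_right N.le_succ hb
  rw [hN] at this
  exact this

end Generation

variable {O : Type} [CommRing O] [IsLocalRing O] [Finite (ResidueField O)]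
  {ρbar : ResidualGaloisRep (ResidueField O)}
  {𝒟 : ∀ ⦃A : Type⦄ [CommRing A] [IsLocalRing A] [Algebra O A], GaloisRepAdic A → Prop}

/-- Few maps to dual numbers force few generators of the cotangent space. -/
theorem exists_generators_of_homs {A : Type} [CommRing A] [IsLocalRing A] [Algebra O A]
    (htest : IsArtinianTestAlgebra O A) [Algebra O (DualNumber (ResidueField O))]
    (halg : ∀ o : O, algebraMap O (DualNumber (ResidueField O)) o =
      TrivSqZeroExt.inl (residue O o))
    [Finite (A →ₐ[O] DualNumber (ResidueField O))] {C : ℕ}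
    (hcard : Nat.card (A →ₐ[O] DualNumber (ResidueField O)) ≤ C) :
    ∃ x : Fin C → A, (∀ i, x i ∈ maximalIdeal A) ∧
      ∀ a ∈ maximalIdeal A, ∃ i, a - x i ∈ cotIdeal O A := by
  classical
  have := htest.isArtinian
  have := finite_of_test htest
  -- functionals on the cotangent space
  let J := cotIdeal O A
  have hJm : J ≤ maximalIdeal A :=
    sup_le (Ideal.pow_le_self two_ne_zero)
      (Ideal.map_le_iff_le_comap.mpr fun o ho => Ideal.mem_comap.mpr
        (have := htest.isLocalHom; map_nonunit (algebraMap O A) o ho))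
  let B := A ⧸ J
  let ιk : (ResidueField O) →+* B := Ideal.Quotient.lift (maximalIdeal O)
    ((Ideal.Quotient.mk J).comp (algebraMap O A)) fun o ho => by
      rw [RingHom.comp_apply, Ideal.Quotient.eq_zero_iff_mem]
      exact Submodule.mem_sup_right (Ideal.mem_map_of_mem _ ho)
  have hιk : ∀ o, ιk (residue O o) = Ideal.Quotient.mk J (algebraMap O A o) := fun o => rfl
  letI : Algebra (ResidueField O) B := ιk.toAlgebra
  let π : B →+* (ResidueField O) := Ideal.Quotient.lift J (toResidue htest.residue_surjective).toRingHom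
    fun a ha => (toResidue_eq_zero_iff _ a).mpr (hJm ha)
  have hπ : ∀ a, π (Ideal.Quotient.mk J a) = toResidue htest.residue_surjective a := fun a => rfl
  have hπι : ∀ c : (ResidueField O), π (ιk c) = c := by
    intro c
    obtain ⟨o, rfl⟩ := residue_surjective c
    rw [hιk, hπ, AlgHom.commutes, ResidueField.algebraMap_eq]
  let V : Submodule (ResidueField O) B :=
    { carrier := {b | π b = 0}
      add_mem' := fun {x y} hx hy => by
        simp only [Set.mem_ofPred_eq] at hx hy ⊢; rw [map_add, hx, hy, add_zero]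
      zero_mem' := map_zero π
      smul_mem' := fun c x hx => by
        simp only [Set.mem_ofPred_eq] at hx ⊢
        rw [Algebra.smul_def, map_mul, hx, mul_zero] }
  have hVsq : ∀ x y : B, π x = 0 → π y = 0 → x * y = 0 := by
    intro x y hx hy
    obtain ⟨a, rfl⟩ := Ideal.Quotient.mk_surjective x
    obtain ⟨b, rfl⟩ := Ideal.Quotient.mk_surjective y
    rw [hπ, toResidue_eq_zero_iff] at hx hy
    rw [← map_mul, Ideal.Quotient.eq_zero_iff_mem]
    exact Submodule.mem_sup_left (by rw [pow_two]; exact Ideal.mul_mem_mul hx hy)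
  have hVmem : ∀ b : B, b - ιk (π b) ∈ V := fun b => by
    show π (b - ιk (π b)) = 0
    rw [map_sub, hπι, sub_self]
  let pr : B →ₗ[(ResidueField O)] V :=
    { toFun := fun b => ⟨b - ιk (π b), hVmem b⟩
      map_add' := fun x y => Subtype.ext (by simp only [map_add, Submodule.coe_add]; ring)
      map_smul' := fun c x => Subtype.ext (by
        simp only [Algebra.smul_def, map_mul, RingHom.id_apply, SetLike.val_smul,
          RingHom.algebraMap_toAlgebra, hπι]
        ring) }
  have hprmul : ∀ x y, pr (x * y) = π x • pr y + π y • pr x := by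
    intro x y
    apply Subtype.ext
    have h0 := hVsq _ _ (hVmem x) (hVmem y)
    show x * y - ιk (π (x * y)) = π x • (y - ιk (π y)) + π y • (x - ιk (π x))
    simp only [Algebra.smul_def, map_mul, RingHom.algebraMap_toAlgebra]
    linear_combination h0
  have : Finite B := Finite.of_surjective _ Ideal.Quotient.mk_surjective
  have hfinV : Finite V := inferInstance
  have hinl : ∀ c, algebraMap (ResidueField O) (DualNumber (ResidueField O)) c = TrivSqZeroExt.inl c := fun c => rfl
  let mkHom : Module.Dual (ResidueField O) V → (A →ₐ[O] (DualNumber (ResidueField O))) := fun f =>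
    { toFun := fun a => TrivSqZeroExt.inl (π (Ideal.Quotient.mk J a)) +
        TrivSqZeroExt.inr (f (pr (Ideal.Quotient.mk J a)))
      map_one' := by
        have : pr 1 = 0 := Subtype.ext (by show (1 : B) - ιk (π 1) = 0; simp)
        simp [this]
      map_zero' := by simp
      map_add' := fun a b => by
        simp only [map_add, TrivSqZeroExt.inl_add, TrivSqZeroExt.inr_add]; abel
      map_mul' := fun a b => by
        simp only [map_mul, hprmul, map_add, map_smul, smul_eq_mul]
        refine TrivSqZeroExt.ext ?_ ?_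
        · simp
        · simp only [TrivSqZeroExt.snd_add, TrivSqZeroExt.snd_inl, TrivSqZeroExt.snd_inr,
            TrivSqZeroExt.snd_mul, TrivSqZeroExt.fst_add, TrivSqZeroExt.fst_inl,
            TrivSqZeroExt.fst_inr, smul_eq_mul, MulOpposite.smul_eq_mul_unop, MulOpposite.unop_op]
          ring
      commutes' := fun o => by
        have h1 : pr (Ideal.Quotient.mk J (algebraMap O A o)) = 0 := Subtype.ext (by
          show Ideal.Quotient.mk J (algebraMap O A o) - ιk (π _) = 0
          rw [← hιk, hπι, sub_self])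
        rw [h1, map_zero, TrivSqZeroExt.inr_zero, add_zero, hπ, AlgHom.commutes]
        exact (halg o).symm }
  have hmkinj : Function.Injective mkHom := by
    intro f g h
    refine LinearMap.ext fun v => ?_
    obtain ⟨a, ha⟩ := Ideal.Quotient.mk_surjective (v : B)
    have h1 := congrArg TrivSqZeroExt.snd (DFunLike.congr_fun h a)
    have h2 : pr (Ideal.Quotient.mk J a) = v := Subtype.ext (by
      show _ - ιk (π _) = _
      rw [ha, show π (v : B) = 0 from v.2, map_zero, sub_zero])
    simpa [mkHom, h2] using h1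
  have hV : Nat.card V ≤ C := by
    refine le_trans (le_of_eq ?_) ((Nat.card_le_card_of_injective mkHom hmkinj).trans hcard)
    rw [Module.natCard_eq_pow_finrank (K := (ResidueField O)) (V := V),
      Module.natCard_eq_pow_finrank (K := (ResidueField O)) (V := Module.Dual (ResidueField O) V), Subspace.dual_finrank_eq]
  have : Nonempty V := ⟨0⟩
  obtain ⟨g, hg⟩ : ∃ g : Fin C → V, Function.Surjective g := by
    let e := Finite.equivFin V
    refine ⟨fun i => if h : (i : ℕ) < Nat.card V then e.symm ⟨i, h⟩ else 0, fun v => ?_⟩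
    exact ⟨⟨e v, lt_of_lt_of_le (e v).2 hV⟩, by simp⟩
  choose x hx using fun i => Ideal.Quotient.mk_surjective (g i : B)
  refine ⟨x, fun i => ?_, fun a ha => ?_⟩
  · rw [← toResidue_eq_zero_iff htest.residue_surjective, ← hπ, hx]
    exact (g i).2
  · have hva : π (Ideal.Quotient.mk J a) = 0 := by rw [hπ]; exact (toResidue_eq_zero_iff _ a).mpr ha
    obtain ⟨i, hi⟩ := hg ⟨Ideal.Quotient.mk J a, hva⟩
    refine ⟨i, ?_⟩
    rw [← Ideal.Quotient.eq, hx, hi]

/-- Finiteness of the tangent space bounds the number of generators of every cotangent space. -/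
theorem exists_tangent_bound (h𝒟 : IsDeformationCondition O 𝒟) (hfin : TangentFinite O ρbar 𝒟) :
    ∃ C : ℕ, ∀ T : TDef ρbar 𝒟, ∃ x : Fin C → T.A, (∀ i, x i ∈ maximalIdeal T.A) ∧
      ∀ a ∈ maximalIdeal T.A, ∃ i, a - x i ∈ cotIdeal O T.A := by
  classical
  unfold TangentFinite at hfin
  let k := ResidueField O
  letI algD : Algebra O (DualNumber (ResidueField O)) :=
    ((algebraMap (ResidueField O) (DualNumber (ResidueField O))).comp
      (algebraMap O (ResidueField O))).toAlgebra
  letI algK : Algebra (ResidueField O) (ResidueField (DualNumber (ResidueField O))) :=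
    ((IsLocalRing.residue (DualNumber (ResidueField O))).comp
      (algebraMap (ResidueField O) (DualNumber (ResidueField O)))).toAlgebra
  let D := DualNumber (ResidueField O)
  have : Finite D := Finite.of_equiv (k × k) (Equiv.refl _)
  have hDsurj : Function.Surjective (residue D ∘ algebraMap O D) := by
    intro y
    obtain ⟨d, rfl⟩ := residue_surjective y
    obtain ⟨a, ha⟩ := residue_surjective (TrivSqZeroExt.fst d)
    refine ⟨a, ?_⟩
    show residue D (algebraMap O D a) = residue D d
    rw [← sub_eq_zero, ← map_sub, residue_eq_zero_iff, mem_maximalIdeal, mem_nonunits_iff]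
    intro hu
    have h1 := hu.map (TrivSqZeroExt.fstHom k k k)
    simp [RingHom.algebraMap_toAlgebra, D, ResidueField.algebraMap_eq, ha,
      TrivSqZeroExt.algebraMap_eq_inl] at h1
  have hD : IsArtinianTestAlgebra O D := isArtinianTestAlgebra_of_finite hDsurj
  have := hD.isLocalHom
  obtain ⟨C, ⟨eC⟩⟩ := finite_iff_exists_equiv_fin.mp hfin
  refine ⟨C, fun T => ?_⟩
  have := T.test.isArtinian
  have := finite_of_test T.test
  -- classes of deformations to dual numbers
  have hloc : ∀ φ : T.A →ₐ[O] D, IsLocalHom (φ : T.A →+* D) := fun φ => isLocalHom_of_isArtinian _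
  have hcls : ∀ φ : T.A →ₐ[O] D, ∃ h : MatCts (mapMat (φ : T.A →+* D) T.r),
      𝒟 (repOfMatrix _ h) ∧ (repOfMatrix _ h).residual.IsEquiv
        (ρbar.baseChange (ResidueField (DualNumber (ResidueField O)))) := by
    intro φ
    refine ⟨T.cts.map _ (hloc φ), mem_map h𝒟 T.test hD φ (hloc φ) T.cts T.mem _, ?_⟩
    have hbc : ρbar.baseChange (ResidueField (DualNumber (ResidueField O))) =
        ρbar.baseChangeAlong (ResidueField.map (algebraMap O D)) := by
      have : ResidueField.map (algebraMap O D) = (IsLocalRing.residue D).comp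
          (algebraMap (ResidueField O) D) := RingHom.ext fun y => by
        obtain ⟨a, rfl⟩ := residue_surjective y
        rfl
      rw [this]
      rfl
    rw [hbc]
    have hred := T.reduces.map ρbar φ (hloc φ)
    let b : Module.Basis (Fin 2) D (repOfMatrix _ (T.cts.map _ (hloc φ))).V :=
      Pi.basisFun D (Fin 2)
    refine residual_isEquiv_of_reduces ρbar _ b fun σ i j => ?_
    have hmat : matOf _ b σ i j = mapMat (φ : T.A →+* D) T.r σ i j := by
      rw [matOf_apply]
      show (Pi.basisFun D (Fin 2)).repr ((mapMat (φ : T.A →+* D) T.r σ).mulVec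
        (Pi.basisFun D (Fin 2) j)) i = _
      simp [Matrix.mulVec, dotProduct, Pi.single_apply]
    rw [hmat]
    exact hred σ i j
  choose hc hc𝒟 hcres using hcls
  let F : (T.A →ₐ[O] D) → Fin C := fun φ => eC (Quotient.mk _ ⟨_, hc𝒟 φ, hcres φ⟩)
  have hFinj : Function.Injective F := by
    intro φ ψ h
    have h' := Quotient.exact (eC.injective h)
    refine TraceCompat.ext (T := T) (t := fun σ => φ (Matrix.trace (T.r σ))) (fun σ => rfl) ?_
    intro σ
    have h1 := trace_eq_of_isEquiv h' σ
    rw [trace_repOfMatrix, trace_repOfMatrix, trace_mapMat, trace_mapMat] at h1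
    exact h1.symm
  have hcard : Nat.card (T.A →ₐ[O] D) ≤ C := by
    simpa using Nat.card_le_card_of_injective F hFinj
  have : Finite (T.A →ₐ[O] D) := Finite.of_injective F hFinj
  exact exists_generators_of_homs T.test (fun o => rfl) hcard

/-- Deformations killed by a fixed power of the maximal ideal have bounded cardinality. -/
theorem exists_card_bound [IsNoetherianRing O] {C : ℕ} (hC : ∀ T : TDef ρbar 𝒟,
    ∃ x : Fin C → T.A, (∀ i, x i ∈ maximalIdeal T.A) ∧
      ∀ a ∈ maximalIdeal T.A, ∃ i, a - x i ∈ cotIdeal O T.A) (N : ℕ) :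
    ∃ B : ℕ, ∀ T : TDef ρbar 𝒟, maximalIdeal T.A ^ N = ⊥ → Nat.card T.A ≤ B := by
  let P := MvPolynomial (Fin C) O
  let c : P →+* ResidueField O := (residue O).comp MvPolynomial.constantCoeff
  have hc : Function.Surjective c := fun y => by
    obtain ⟨o, rfl⟩ := residue_surjective y
    exact ⟨MvPolynomial.C o, congrArg (residue O) (MvPolynomial.constantCoeff_C _ o)⟩
  let I := RingHom.ker c
  have : Finite (P ⧸ I) :=
    Finite.of_equiv _ (RingHom.quotientKerEquivOfSurjective hc).symm.toEquiv
  have hfinQ : Finite (P ⧸ I ^ N) := Ideal.finite_quotient_pow (IsNoetherian.noetherian I) N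
  refine ⟨Nat.card (P ⧸ I ^ N), fun T hN => ?_⟩
  obtain ⟨x, hxm, hx⟩ := hC T
  let ev : P →ₐ[O] T.A := MvPolynomial.aeval x
  have hle : I ≤ (maximalIdeal T.A).comap ev := by
    intro p hp
    have := T.test.isLocalHom
    have h : (residue T.A).comp ev.toRingHom =
        (ResidueField.map (algebraMap O T.A)).comp c := by
      refine MvPolynomial.ringHom_ext (fun o => ?_) (fun i => ?_)
      · show residue T.A (MvPolynomial.aeval x (MvPolynomial.C o)) =
          ResidueField.map _ (residue O (MvPolynomial.constantCoeff (MvPolynomial.C o)))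
        rw [MvPolynomial.aeval_C, MvPolynomial.constantCoeff_C, ResidueField.map_residue]
      · show residue T.A (MvPolynomial.aeval x (MvPolynomial.X i)) =
          ResidueField.map _ (residue O (MvPolynomial.constantCoeff (MvPolynomial.X i)))
        rw [MvPolynomial.aeval_X, MvPolynomial.constantCoeff_X, map_zero, map_zero]
        exact (residue_eq_zero_iff _).mpr (hxm i)
    rw [Ideal.mem_comap, ← residue_eq_zero_iff]
    refine (DFunLike.congr_fun h p).trans ?_
    rw [RingHom.comp_apply, RingHom.mem_ker.mp hp, map_zero]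
  have hker : ∀ p ∈ I ^ N, ev p = 0 := by
    intro p hp
    have h1 : ev p ∈ maximalIdeal T.A ^ N := by
      have h2 : (I ^ N).map ev ≤ maximalIdeal T.A ^ N := by
        rw [Ideal.map_pow]; exact Ideal.pow_right_mono (Ideal.map_le_iff_le_comap.mpr hle) N
      exact h2 (Ideal.mem_map_of_mem ev hp)
    rwa [hN, Ideal.mem_bot] at h1
  have hsurj : Function.Surjective (Ideal.Quotient.liftₐ (I ^ N) ev hker) := by
    intro a
    obtain ⟨p, hp⟩ := surjective_of_cot T.test ev
      (fun a ha => (hx a ha).elim fun i hi => ⟨MvPolynomial.X i, (MvPolynomial.aeval_X (R := O) x i).symm ▸ hi⟩) a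
    exact ⟨Ideal.Quotient.mk _ p, hp⟩
  exact Nat.card_le_card_of_surjective _ hsurj

/-- For every `N ≥ 1` there is a largest trace-generated deformation with `m ^ N = 0`. -/
theorem exists_tdef_max [IsNoetherianRing O] (h𝒟 : IsDeformationCondition O 𝒟)
    (habs : ρbar.IsAbsolutelyIrreducible) (T₀ : TDef ρbar 𝒟) (hT₀ : maximalIdeal T₀.A = ⊥)
    {C : ℕ} (hC : ∀ T : TDef ρbar 𝒟, ∃ x : Fin C → T.A, (∀ i, x i ∈ maximalIdeal T.A) ∧
      ∀ a ∈ maximalIdeal T.A, ∃ i, a - x i ∈ cotIdeal O T.A) (N : ℕ) :
    ∃ E : TDef ρbar 𝒟, maximalIdeal E.A ^ (N + 1) = ⊥ ∧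
      ∀ T : TDef ρbar 𝒟, maximalIdeal T.A ^ (N + 1) = ⊥ →
        ∃ φ : E.A →ₐ[O] T.A, TraceCompat E φ fun σ => Matrix.trace (T.r σ) := by
  classical
  obtain ⟨B, hB⟩ := exists_card_bound hC (N + 1)
  let pred : ℕ → Prop := fun c =>
    ∃ T : TDef ρbar 𝒟, maximalIdeal T.A ^ (N + 1) = ⊥ ∧ Nat.card T.A = c
  have h0 : pred (Nat.card T₀.A) := ⟨T₀, by rw [hT₀, Ideal.bot_pow N.succ_ne_zero], rfl⟩
  obtain ⟨E, hE, hEc⟩ := Nat.findGreatest_spec (P := pred) (hB T₀ (by
    rw [hT₀, Ideal.bot_pow N.succ_ne_zero])) h0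
  refine ⟨E, hE, fun T hT => ?_⟩
  obtain ⟨J, φE, φT, hφE, hφT, hinj⟩ := exists_tdef_join h𝒟 habs E T
  have hJ : maximalIdeal J.A ^ (N + 1) = ⊥ := by
    rw [eq_bot_iff]
    intro a ha
    have := J.test.isArtinian
    have h1 : φE a ∈ maximalIdeal E.A ^ (N + 1) := map_maximalIdeal_pow_le (φE : J.A →+* E.A)
      (isLocalHom_of_isArtinian _) _ (Ideal.mem_map_of_mem _ ha)
    have h2 : φT a ∈ maximalIdeal T.A ^ (N + 1) := map_maximalIdeal_pow_le (φT : J.A →+* T.A)
      (isLocalHom_of_isArtinian _) _ (Ideal.mem_map_of_mem _ ha)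
    rw [hE, Ideal.mem_bot] at h1
    rw [hT, Ideal.mem_bot] at h2
    exact Ideal.mem_bot.mpr (hinj (by simp [h1, h2]))
  have := finite_of_test J.test
  have := finite_of_test E.test
  have hle : Nat.card J.A ≤ Nat.card E.A := by
    rw [hEc]
    exact Nat.le_findGreatest (hB J hJ) ⟨J, hJ, rfl⟩
  have hsurj := hφE.surjective
  have hbij : Function.Bijective φE :=
    (Nat.bijective_iff_surjective_and_card φE).mpr
      ⟨hsurj, le_antisymm hle (Nat.card_le_card_of_surjective φE hsurj)⟩
  let e := AlgEquiv.ofBijective φE hbij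
  refine ⟨φT.comp e.symm.toAlgHom, fun σ => ?_⟩
  have : e.symm (Matrix.trace (E.r σ)) = Matrix.trace (J.r σ) := by
    rw [AlgEquiv.symm_apply_eq]; exact (hφE σ).symm
  rw [AlgHom.comp_apply]
  show φT (e.symm (Matrix.trace (E.r σ))) = _
  rw [this]
  exact hφT σ

/-- The quotient of a trace-generated deformation by an ideal. -/
theorem exists_tdef_quotient (h𝒟 : IsDeformationCondition O 𝒟) (T : TDef ρbar 𝒟) (I : Ideal T.A)
    (hI : I ≠ ⊤) : ∃ (T' : TDef ρbar 𝒟) (π : T.A →ₐ[O] T'.A), Function.Surjective π ∧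
      RingHom.ker π = I ∧ TraceCompat T π fun σ => Matrix.trace (T'.r σ) := by
  have := T.test.isArtinian
  have := finite_of_test T.test
  have : Finite (T.A ⧸ I) := Finite.of_surjective _ Ideal.Quotient.mk_surjective
  have : Nontrivial (T.A ⧸ I) := Ideal.Quotient.nontrivial_iff.mpr hI
  have : IsLocalRing (T.A ⧸ I) :=
    IsLocalRing.of_surjective' (Ideal.Quotient.mk I) Ideal.Quotient.mk_surjective
  let π : T.A →ₐ[O] T.A ⧸ I := Ideal.Quotient.mkₐ O I
  have hloc : IsLocalHom (π : T.A →+* T.A ⧸ I) := isLocalHom_of_isArtinian _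
  have hsurj : Function.Surjective (residue (T.A ⧸ I) ∘ algebraMap O (T.A ⧸ I)) := by
    intro y
    obtain ⟨z, rfl⟩ := residue_surjective y
    obtain ⟨a, rfl⟩ := Ideal.Quotient.mk_surjective z
    obtain ⟨o, ho⟩ := T.test.residue_surjective (residue T.A a)
    refine ⟨o, ?_⟩
    have h1 : algebraMap O T.A o - a ∈ maximalIdeal T.A := by
      rw [← residue_eq_zero_iff, map_sub, sub_eq_zero]; exact ho
    have h2 := map_nonunit (π : T.A →+* T.A ⧸ I) _ h1
    show residue _ (algebraMap O (T.A ⧸ I) o) = residue _ _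
    rw [← sub_eq_zero, ← map_sub, residue_eq_zero_iff]
    simpa [π] using h2
  have htest : IsArtinianTestAlgebra O (T.A ⧸ I) := isArtinianTestAlgebra_of_finite hsurj
  let T' : TDef ρbar 𝒟 :=
    { A := T.A ⧸ I
      test := htest
      r := mapMat (π : T.A →+* T.A ⧸ I) T.r
      reduces := T.reduces.map ρbar π hloc
      cts := T.cts.map _ hloc
      mem := mem_map h𝒟 T.test htest π hloc T.cts T.mem _
      gen := by
        rw [← top_le_iff]
        intro y _
        obtain ⟨a, rfl⟩ := Ideal.Quotient.mk_surjective y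
        have ha : a ∈ Algebra.adjoin O (Set.range fun σ => Matrix.trace (T.r σ)) :=
          T.gen.symm ▸ Algebra.mem_top
        have h1 : π a ∈ (Algebra.adjoin O (Set.range fun σ => Matrix.trace (T.r σ))).map π :=
          Subalgebra.mem_map.mpr ⟨a, ha, rfl⟩
        rw [AlgHom.map_adjoin, ← Set.range_comp] at h1
        have heq : (fun σ => Matrix.trace (mapMat (π : T.A →+* T.A ⧸ I) T.r σ)) =
            π ∘ fun σ => Matrix.trace (T.r σ) := funext fun σ => trace_mapMat _ _ σ
        rw [heq]
        exact h1 }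
  exact ⟨T', π, Ideal.Quotient.mk_surjective, Ideal.mk_ker, fun σ => (trace_mapMat _ _ σ).symm⟩

end FLTAgent.Deformation
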