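import Fermat.Agent.Deformation.LimitRing
import Fermat.Prelude.Def_GaloisRep_DeformationRingData

/-!
# Existence of the universal deformation ring of an absolutely irreducible representation
-/

set_option autoImplicit false

namespace FLTAgent.Deformation

open IsLocalRing Matrix GaloisRep

local notation "GG" => (AlgebraicClosure ℚ ≃ₐ[ℚ] AlgebraicClosure ℚ)

/-- Algebra maps into an algebra of residue degree one are local. -/
lemma isLocalHom_algHom {O A B : Type} [CommRing O] [CommRing A] [IsLocalRing A] [Algebra O A]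
    [CommRing B] [IsLocalRing B] [Algebra O B]
    (h : Function.Surjective (residue B ∘ algebraMap O B)) (φ : A →ₐ[O] B) :
    IsLocalHom (φ : A →+* B) := by
  have hsurj : Function.Surjective ((residue B).comp (φ : A →+* B)) := fun y =>
    (h y).elim fun o ho => ⟨algebraMap O A o, by simpa using ho⟩
  have hmax := RingHom.ker_isMaximal_of_surjective _ hsurj
  refine ⟨fun a ha => ?_⟩
  by_contra hna
  have hmem : a ∈ RingHom.ker ((residue B).comp (φ : A →+* B)) := by
    rw [IsLocalRing.eq_maximalIdeal hmax]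
    exact (mem_maximalIdeal a).mpr hna
  rw [RingHom.mem_ker, RingHom.comp_apply, residue_eq_zero_iff] at hmem
  exact (mem_maximalIdeal _).mp hmem ha

variable {O : Type} [CommRing O] [IsDomain O] [IsDiscreteValuationRing O]
  [Finite (ResidueField O)] {ρbar : ResidualGaloisRep (ResidueField O)}
  {𝒟 : ∀ ⦃A : Type⦄ [CommRing A] [IsLocalRing A] [Algebra O A], GaloisRepAdic A → Prop}

omit [Finite (ResidueField O)] in
/-- The residual representation as a trace-generated deformation. -/
theorem exists_tdef_residual (h𝒟 : IsDeformationCondition O 𝒟)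
    (hbar : 𝒟 (GaloisRepAdic.ofResidualGaloisRep ρbar)) :
    ∃ T₀ : TDef ρbar 𝒟, maximalIdeal T₀.A = ⊥ := by
  let b : Module.Basis (Fin 2) (ResidueField O)
      (GaloisRepAdic.ofResidualGaloisRep ρbar).V := barBasis ρbar
  have hcts : MatCts (barMat ρbar) :=
    matCts_matOf (GaloisRepAdic.ofResidualGaloisRep ρbar) b
  have hred : Reduces ρbar (barMat ρbar) := fun σ i j => by
    rw [ResidueField.algebraMap_eq, residue_barLift, sub_self]
    exact zero_mem _
  refine ⟨{ A := ResidueField O
            test := isArtinianTestAlgebra_residueField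
            r := barMat ρbar
            reduces := hred
            cts := hcts
            mem := h𝒟.of_isEquiv isArtinianTestAlgebra_residueField (isEquiv_symm
              (isEquiv_repOfMatrix _ b _ hcts fun σ => rfl)) hbar
            gen := top_le_iff.mp fun y _ =>
              (residue_surjective y).elim fun o ho => ho ▸ Subalgebra.algebraMap_mem _ o },
    (Ideal.eq_bot_or_top _).resolve_right (Ideal.IsMaximal.ne_top inferInstance)⟩

/-- The tower of maximal trace-generated deformations. -/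
theorem exists_tower (h𝒟 : IsDeformationCondition O 𝒟) (habs : ρbar.IsAbsolutelyIrreducible)
    (hbar : 𝒟 (GaloisRepAdic.ofResidualGaloisRep ρbar)) (hfin : TangentFinite O ρbar 𝒟) :
    ∃ (E : ℕ → TDef ρbar 𝒟) (t : ∀ n, (E (n + 1)).A →ₐ[O] (E n).A) (C : ℕ)
      (x : Fin C → (E 0).A),
      (∀ n, maximalIdeal (E n).A ^ (n + 2) = ⊥) ∧
      (∀ n, ∀ T : TDef ρbar 𝒟, maximalIdeal T.A ^ (n + 2) = ⊥ →
        ∃ φ : (E n).A →ₐ[O] T.A, TraceCompat (E n) φ fun σ => trace (T.r σ)) ∧
      (∀ n, TraceCompat (E (n + 1)) (t n) fun σ => trace ((E n).r σ)) ∧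
      (∀ n, RingHom.ker (t n) = maximalIdeal (E (n + 1)).A ^ (n + 2)) ∧
      (∀ i, x i ∈ maximalIdeal (E 0).A) ∧
      (∀ a ∈ maximalIdeal (E 0).A, ∃ i, a - x i ∈ cotIdeal O (E 0).A) := by
  obtain ⟨T₀, hT₀⟩ := exists_tdef_residual h𝒟 hbar
  obtain ⟨C, hC⟩ := exists_tangent_bound h𝒟 hfin
  choose E hnil hmax using fun n => exists_tdef_max h𝒟 habs T₀ hT₀ hC (n + 1)
  have hstep : ∀ n, ∃ t : (E (n + 1)).A →ₐ[O] (E n).A,
      TraceCompat (E (n + 1)) t fun σ => trace ((E n).r σ) := fun n =>
    hmax (n + 1) (E n) (le_bot_iff.mp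
      ((Ideal.pow_le_pow_right (Nat.le_succ _)).trans (hnil n).le))
  choose t ht using hstep
  obtain ⟨x, hxm, hx⟩ := hC (E 0)
  refine ⟨E, t, C, x, hnil, hmax, ht, fun n => le_antisymm ?_ ?_, hxm, hx⟩
  · obtain ⟨T', π, hπs, hπk, hπt⟩ := exists_tdef_quotient h𝒟 (E (n + 1))
      (maximalIdeal (E (n + 1)).A ^ (n + 2))
      (ne_top_of_le_ne_top (Ideal.IsMaximal.ne_top inferInstance)
        (Ideal.pow_le_self (by omega)))
    have hT' : maximalIdeal T'.A ^ (n + 2) = ⊥ := by
      rw [← map_maximalIdeal_of_surjective (π : (E (n + 1)).A →+* T'.A) hπs, ← Ideal.map_pow,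
        ← hπk]
      exact (Ideal.map_eq_bot_iff_le_ker _).mpr le_rfl
    obtain ⟨φ, hφ⟩ := hmax n T' hT'
    have h1 : TraceCompat (E (n + 1)) (φ.comp (t n)) fun σ => trace (T'.r σ) := fun σ => by
      rw [AlgHom.comp_apply, ht n σ]
      exact hφ σ
    rw [← hπk, ← h1.ext hπt]
    intro a ha
    rw [RingHom.mem_ker] at ha ⊢
    rw [AlgHom.comp_apply, ha, map_zero]
  · have := (E (n + 1)).test.isArtinian
    intro a ha
    have h1 := map_maximalIdeal_pow_le (t n : (E (n + 1)).A →+* (E n).A)
      (isLocalHom_of_isArtinian _) (n + 2) (Ideal.mem_map_of_mem _ ha)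
    rw [hnil n, Ideal.mem_bot] at h1
    exact h1

omit [Finite (ResidueField O)] in
/-- Strictly compatible matrices along a tower. -/
theorem exists_strict (habs : ρbar.IsAbsolutelyIrreducible) (E : ℕ → TDef ρbar 𝒟)
    (t : ∀ n, (E (n + 1)).A →ₐ[O] (E n).A)
    (htc : ∀ n, TraceCompat (E (n + 1)) (t n) fun σ => trace ((E n).r σ)) :
    ∃ rs : ∀ n, GG →* M2 (E n).A, (∀ n, Reduces ρbar (rs n)) ∧ (∀ n, MatCts (rs n)) ∧
      (∀ n σ, trace (rs n σ) = trace ((E n).r σ)) ∧
      ∀ n σ, (rs (n + 1) σ).map (t n) = rs n σ := by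
  let S : ℕ → Type := fun n =>
    {r : GG →* M2 (E n).A // Reduces ρbar r ∧ MatCts r ∧ ∀ σ, trace (r σ) = trace ((E n).r σ)}
  have step : ∀ n (s : S n), ∃ s' : S (n + 1), ∀ σ, (s'.1 σ).map (t n) = s.1 σ := by
    intro n ⟨r, hred, hcts, htr⟩
    have := (E n).test.isLocalHom
    have := (E (n + 1)).test.isLocalHom
    have := (E (n + 1)).test.isArtinian
    have htloc : IsLocalHom (t n : (E (n + 1)).A →+* (E n).A) := isLocalHom_of_isArtinian _
    have hts := (htc n).surjective
    have hred' := (E (n + 1)).reduces.map ρbar (t n) htloc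
    obtain ⟨P, -, hPres, hconj⟩ := exists_conj_of_trace_eq
      (mapMat (t n : (E (n + 1)).A →+* (E n).A) (E (n + 1)).r) r
      (fun σ => hred'.residue_eq ρbar hred σ) (spansResidue_of_reduces ρbar habs hred')
      (fun σ => by rw [trace_mapMat, htr σ]; exact htc n σ)
    choose Q hQ using fun i j => hts (P i j)
    have hQP : (Matrix.of Q).map (t n) = P := Matrix.ext hQ
    have hQres : (Matrix.of Q).map (residue (E (n + 1)).A) = 1 := by
      ext i j
      obtain ⟨o, ho⟩ : ∃ o : (E (n + 1)).A, o = (1 : M2 (E (n + 1)).A) i j := ⟨_, rfl⟩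
      have h1 : t n o = (1 : M2 (E n).A) i j := by
        rw [ho, Matrix.one_apply, Matrix.one_apply, apply_ite (t n), map_one, map_zero]
      have h2 : Q i j - o ∈ maximalIdeal (E (n + 1)).A := by
        rw [mem_maximalIdeal, mem_nonunits_iff]
        intro hu
        have h3 := congrFun (congrFun hPres i) j
        have h4 : residue (E n).A (P i j - (1 : M2 (E n).A) i j) = 0 := by
          rw [map_sub, sub_eq_zero]
          simpa [Matrix.one_apply, apply_ite (residue (E n).A)] using h3
        rw [residue_eq_zero_iff, mem_maximalIdeal, mem_nonunits_iff] at h4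
        refine h4 ?_
        have h5 := hu.map (t n)
        rwa [map_sub, hQ, h1] at h5
      rw [← residue_eq_zero_iff, map_sub, sub_eq_zero, ho] at h2
      rw [Matrix.map_apply, Matrix.of_apply, h2]
      simp [Matrix.one_apply, apply_ite (residue (E (n + 1)).A)]
    obtain ⟨u, hu⟩ := isUnit_of_map_residue_eq_one hQres
    let r' : GG →* M2 (E (n + 1)).A :=
      { toFun := fun σ => (u : M2 (E (n + 1)).A) * (E (n + 1)).r σ * (↑u⁻¹ : M2 (E (n + 1)).A)
        map_one' := by rw [map_one, mul_one, Units.mul_inv]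
        map_mul' := fun σ τ => by
          simp only [map_mul, mul_assoc, Units.inv_mul_cancel_left] }
    have hr' : ∀ σ, r' σ = (u : M2 (E (n + 1)).A) * (E (n + 1)).r σ *
        (↑u⁻¹ : M2 (E (n + 1)).A) := fun σ => rfl
    have hures : (residue (E (n + 1)).A).mapMatrix (↑u⁻¹ : M2 (E (n + 1)).A) = 1 := by
      have h1 := congrArg (residue (E (n + 1)).A).mapMatrix (Units.mul_inv u)
      rwa [map_mul, hu, RingHom.mapMatrix_apply, hQres, one_mul, map_one] at h1
    have hred1 : Reduces ρbar r' := by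
      refine (reduces_iff ρbar r').mpr fun σ => ?_
      rw [← RingHom.mapMatrix_apply, hr', map_mul, map_mul, hures, hu, mul_one,
        RingHom.mapMatrix_apply, RingHom.mapMatrix_apply, hQres, one_mul]
      exact (reduces_iff ρbar _).mp (E (n + 1)).reduces σ
    obtain ⟨L, hL, hLr⟩ := (E (n + 1)).cts.exists_level
    have hcts1 : MatCts r' := matCts_of_level L hL fun σ hσ => by
      rw [hr', hLr σ hσ, mul_one, Units.mul_inv]
    refine ⟨⟨r', hred1, hcts1, fun σ => by rw [hr', Matrix.trace_units_conj]⟩, fun σ => ?_⟩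
    let T : M2 (E (n + 1)).A →+* M2 (E n).A :=
      (t n : (E (n + 1)).A →+* (E n).A).mapMatrix
    have huP : T (u : M2 (E (n + 1)).A) = P := by rw [hu]; exact hQP
    have hPinv : P * T (↑u⁻¹ : M2 (E (n + 1)).A) = 1 := by
      rw [← huP, ← map_mul, Units.mul_inv, map_one]
    show T (r' σ) = r σ
    rw [hr', map_mul, map_mul, huP]
    have h1 : P * T ((E (n + 1)).r σ) = r σ * P := hconj σ
    rw [h1, mul_assoc, hPinv, mul_one]
  choose nxt hnxt using step
  let s : ∀ n, S n := fun n => Nat.rec (motive := S)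
    ⟨(E 0).r, (E 0).reduces, (E 0).cts, fun σ => rfl⟩ (fun n prev => nxt n prev) n
  exact ⟨fun n => (s n).1, fun n => (s n).2.1, fun n => (s n).2.2.1, fun n => (s n).2.2.2,
    fun n σ => hnxt n (s n) σ⟩

section Limit

variable {E : ℕ → TDef ρbar 𝒟} {t : ∀ n, (E (n + 1)).A →ₐ[O] (E n).A} (L : LimitData E t)

omit [Finite (ResidueField O)] in
lemma limit_ext {x y : L.R} (h : ∀ n, L.q n x = L.q n y) : x = y := by
  rw [← sub_eq_zero]
  refine IsHausdorff.haus (I := maximalIdeal L.R) inferInstance _ fun n => ?_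
  rw [SModEq.zero, smul_eq_mul, Ideal.mul_top]
  refine Ideal.pow_le_pow_right (show n ≤ n + 2 by omega) ?_
  rw [← L.ker_q n, RingHom.mem_ker, map_sub, h n, sub_self]

omit [Finite (ResidueField O)] in
lemma limit_exists (z : ∀ n, (E n).A) (hz : ∀ n, t n (z (n + 1)) = z n) :
    ∃ y : L.R, ∀ n, L.q n y = z n := by
  choose a ha using fun n => L.q_surjective n (z n)
  have hdown : ∀ i j, i ≤ j → ∀ x : L.R, L.q j x = z j → L.q i x = z i := by
    intro i j hij
    induction j, hij using Nat.le_induction with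
    | base => exact fun x hx => hx
    | succ j hj ih => exact fun x hx => ih x (by rw [← L.q_compat, hx, hz])
  have hdiff : ∀ i j, i ≤ j → a i - a j ∈ maximalIdeal L.R ^ (i + 2) := fun i j hij => by
    rw [← L.ker_q i, RingHom.mem_ker, map_sub, ha i, hdown i j hij (a j) (ha j), sub_self]
  obtain ⟨y, hy⟩ := IsPrecomplete.prec (I := maximalIdeal L.R) inferInstance (f := a)
    (fun {i j} hij => by
      rw [SModEq.sub_mem, smul_eq_mul, Ideal.mul_top]
      exact Ideal.pow_le_pow_right (by omega) (hdiff i j hij))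
  refine ⟨y, fun n => ?_⟩
  have h1 := hy (n + 2)
  rw [SModEq.sub_mem, smul_eq_mul, Ideal.mul_top, ← L.ker_q n, RingHom.mem_ker, map_sub,
    sub_eq_zero, hdown n (n + 2) (by omega) _ (ha _)] at h1
  exact h1.symm

omit [Finite (ResidueField O)] in
lemma limit_factor {B : Type} [CommRing B] [Algebra O B] (f : L.R →ₐ[O] B) (n : ℕ)
    (h : ∀ x ∈ maximalIdeal L.R ^ (n + 2), f x = 0) :
    ∃ g : (E n).A →ₐ[O] B, ∀ x, g (L.q n x) = f x := by
  refine ⟨(Ideal.Quotient.liftₐ (RingHom.ker (L.q n)) f fun x hx => h x (L.ker_q n ▸ hx)).comp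
    (Ideal.quotientKerAlgEquivOfSurjective (L.q_surjective n)).symm.toAlgHom, fun x => ?_⟩
  have h1 : (Ideal.quotientKerAlgEquivOfSurjective (L.q_surjective n)).symm (L.q n x) =
      Ideal.Quotient.mk (RingHom.ker (L.q n)) x := by
    rw [AlgEquiv.symm_apply_eq]
    rfl
  rw [AlgHom.comp_apply]
  show Ideal.Quotient.liftₐ _ f _
    ((Ideal.quotientKerAlgEquivOfSurjective (L.q_surjective n)).symm (L.q n x)) = f x
  rw [h1]
  rfl

/-- The universal matrices over the limit ring. -/
theorem exists_limit_rep (rs : ∀ n, GG →* M2 (E n).A) (hred : ∀ n, Reduces ρbar (rs n))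
    (hcts : ∀ n, MatCts (rs n)) (hcompat : ∀ n σ, (rs (n + 1) σ).map (t n) = rs n σ) :
    ∃ r : GG →* M2 L.R, MatCts r ∧ Reduces ρbar r ∧ ∀ n σ, (r σ).map (L.q n) = rs n σ := by
  have hex : ∀ σ i j, ∃ y : L.R, ∀ n, L.q n y = rs n σ i j := fun σ i j =>
    limit_exists L (fun n => rs n σ i j) fun n => congrFun (congrFun (hcompat n σ) i) j
  choose y hy using hex
  let mk : GG → M2 L.R := fun σ => Matrix.of (y σ)
  have hmk : ∀ n σ, (mk σ).map (L.q n) = rs n σ := fun n σ => Matrix.ext fun i j => hy σ i j n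
  have hext : ∀ u v : M2 L.R, (∀ n, u.map (L.q n) = v.map (L.q n)) → u = v := fun u v h =>
    Matrix.ext fun i j => limit_ext L fun n => congrFun (congrFun (h n) i) j
  let r : GG →* M2 L.R :=
    { toFun := mk
      map_one' := hext _ _ fun n => by
        rw [hmk, map_one, Matrix.map_one _ (map_zero (L.q n)) (map_one (L.q n))]
      map_mul' := fun σ τ => hext _ _ fun n => by
        rw [Matrix.map_mul, hmk, hmk, hmk, map_mul] }
  refine ⟨r, fun k => ?_, fun σ i j => ?_, fun n σ => hmk n σ⟩
  · have := (E k).test.isArtinian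
    obtain ⟨K, hK, hK1⟩ := (hcts k).exists_level
    refine ⟨K, hK, fun σ hσ i j => Ideal.pow_le_pow_right (show k ≤ k + 2 by omega) ?_⟩
    rw [← L.ker_q k, RingHom.mem_ker, Matrix.sub_apply, map_sub]
    show L.q k (y σ i j) - _ = 0
    rw [hy, hK1 σ hσ, Matrix.one_apply, Matrix.one_apply, apply_ite (L.q k), map_one, map_zero,
      sub_self]
  · rw [mem_maximalIdeal, mem_nonunits_iff]
    intro hu
    refine (mem_maximalIdeal _).mp (hred 0 σ i j) ?_
    have h1 := hu.map (L.q 0)
    rw [map_sub, AlgHom.commutes] at h1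
    exact hy σ i j 0 ▸ h1

end Limit

/-- The universal deformation ring of an absolutely irreducible representation. -/
theorem nonempty_deformationRingData [IsAdicComplete (maximalIdeal O) O]
    (habs : ρbar.IsAbsolutelyIrreducible) (h𝒟 : IsDeformationCondition O 𝒟)
    (hbar : 𝒟 (GaloisRepAdic.ofResidualGaloisRep ρbar)) (hfin : TangentFinite O ρbar 𝒟) :
    Nonempty (DeformationRingData O ρbar 𝒟) := by
  obtain ⟨E, t, C, x, hnil, hmax, htc, hker, hxm, hx⟩ := exists_tower h𝒟 habs hbar hfin
  obtain ⟨L⟩ := nonempty_limitData E t (fun n => (htc n).surjective) hker hnil x hxm hx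
  obtain ⟨rs, hred, hcts, htr, hcompat⟩ := exists_strict habs E t htc
  obtain ⟨r, hr, hrred, hrq⟩ := exists_limit_rep L rs hred hcts hcompat
  have hO : IsLocalHom (algebraMap O L.R) :=
    isLocalHom_of_residue_surjective L.residue_surjective
  have hqtr : ∀ n σ, L.q n (trace (r σ)) = trace ((E n).r σ) := fun n σ => by
    rw [← htr n σ, ← hrq n σ]
    exact (trace_mapMat (L.q n : L.R →+* (E n).A) r σ).symm
  have hρ : 𝒟 (repOfMatrix r hr) := by
    refine (h𝒟.iff_forall_surjective hO L.residue_surjective _).mpr ?_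
    intro B _ _ _ hB q hq hqs
    have := hB.isArtinian
    obtain ⟨N, hN⟩ := exists_pow_maximalIdeal_eq_bot (A := B)
    obtain ⟨g, hg⟩ := limit_factor L q N fun z hz => by
      have h1 := map_maximalIdeal_pow_le (q : L.R →+* B) hq N
        (Ideal.mem_map_of_mem _ (Ideal.pow_le_pow_right (show N ≤ N + 2 by omega) hz))
      rw [hN, Ideal.mem_bot] at h1
      exact h1
    have := (E N).test.isArtinian
    have := (E N).test.isLocalHom
    obtain ⟨P, hP, -, hconj⟩ := exists_conj_of_trace_eq (E N).r (rs N)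
      (fun σ => (E N).reduces.residue_eq ρbar (hred N) σ)
      (spansResidue_of_reduces ρbar habs (E N).reduces) (fun σ => (htr N σ).symm)
    have h1 := mem_of_conj h𝒟 (E N).test (E N).cts (hcts N) hP hconj (E N).mem
    have hgl : IsLocalHom (g : (E N).A →+* B) := isLocalHom_of_isArtinian _
    have hmat : mapMat (g : (E N).A →+* B) (rs N) = mapMat (q : L.R →+* B) r :=
      MonoidHom.ext fun σ => by
        rw [mapMat_apply, mapMat_apply, ← hrq N σ]
        exact Matrix.ext fun i j => hg (r σ i j)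
    have h2 := mem_map h𝒟 (E N).test hB g hgl (hcts N) h1 ((hcts N).map _ hgl)
    have h3 : 𝒟 (repOfMatrix (mapMat (q : L.R →+* B) r) (hr.map _ hq)) := by
      convert h2 using 2
      exact hmat.symm
    exact h𝒟.of_isEquiv hB (baseChange_repOfMatrix _ hq r hr) h3
  let bb : Module.Basis (Fin 2) L.R (repOfMatrix r hr).V := Pi.basisFun L.R (Fin 2)
  have hbb : ∀ σ, matOf _ bb σ = r σ := fun σ => by
    ext i j
    rw [matOf_apply]
    show (Pi.basisFun L.R (Fin 2)).repr (r σ *ᵥ Pi.basisFun L.R (Fin 2) j) i = _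
    simp [Matrix.mulVec, dotProduct, Pi.single_apply]
  refine ⟨{ R := L.R
            residue_surjective := L.residue_surjective
            absIrr := habs
            ρ := repOfMatrix r hr
            isOfType := hρ
            residual_isEquiv := residual_isEquiv_of_reduces ρbar _ bb
              (fun σ i j => by rw [hbb]; exact hrred σ i j)
            universal := ?_ }⟩
  intro A _ _ _ _ _ hAloc hAres ρA hρA hAeq
  obtain ⟨b, hb⟩ := exists_basis_reduces ρbar ρA hAeq
  let m := maximalIdeal A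
  have hkA : Finite (ResidueField A) := finite_residueField hAres
  have hne : ∀ n, m ^ (n + 2) ≠ ⊤ := fun n =>
    ne_top_of_le_ne_top (Ideal.IsMaximal.ne_top inferInstance) (Ideal.pow_le_self (by omega))
  have key : ∀ n, ∃ g : (E n).A →ₐ[O] A ⧸ m ^ (n + 2),
      ∀ σ, g (trace ((E n).r σ)) = Ideal.Quotient.mk _ (ρA.trace σ) := by
    intro n
    let An := A ⧸ m ^ (n + 2)
    have : Nontrivial An := Ideal.Quotient.nontrivial_iff.mpr (hne n)
    have : IsLocalRing An :=
      IsLocalRing.of_surjective' (Ideal.Quotient.mk _) Ideal.Quotient.mk_surjective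
    have : Finite An := by
      have : Finite (A ⧸ m) := hkA
      exact Ideal.finite_quotient_pow (IsNoetherian.noetherian m) (n + 2)
    let π : A →ₐ[O] An := Ideal.Quotient.mkₐ O _
    have hπs : Function.Surjective π := Ideal.Quotient.mk_surjective
    have hπl : IsLocalHom (π : A →+* An) := IsLocalHom.of_surjective _ hπs
    have hAn : Function.Surjective (residue An ∘ algebraMap O An) := by
      intro z
      obtain ⟨w, rfl⟩ := residue_surjective z
      obtain ⟨a, rfl⟩ := hπs w
      obtain ⟨o, ho⟩ := hAres (residue A a)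
      refine ⟨o, ?_⟩
      have h1 : algebraMap O A o - a ∈ maximalIdeal A := by
        rw [← residue_eq_zero_iff, map_sub, sub_eq_zero]; exact ho
      have h2 := map_nonunit (π : A →+* An) _ h1
      show residue _ (algebraMap O An o) = residue _ _
      rw [← sub_eq_zero, ← map_sub, residue_eq_zero_iff]
      simpa [π] using h2
    have htest : IsArtinianTestAlgebra O An := isArtinianTestAlgebra_of_finite hAn
    have := htest.isArtinian
    have hmem : 𝒟 (repOfMatrix (mapMat (π : A →+* An) (matOf ρA b))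
        ((matCts_matOf ρA b).map _ hπl)) :=
      h𝒟.of_isEquiv htest (isEquiv_symm (baseChange_isEquiv _ hπl ρA _ (matCts_matOf ρA b) b
        fun σ => rfl)) ((h𝒟.iff_forall_surjective hAloc hAres ρA).mp hρA htest π hπl hπs)
    obtain ⟨T, ι, hι, hιt⟩ := exists_tdef_descent h𝒟 habs htest _ (hb.map ρbar π hπl) _ hmem
    have := T.test.isArtinian
    have hT : maximalIdeal T.A ^ (n + 2) = ⊥ := by
      rw [eq_bot_iff]
      intro a ha
      have h1 := map_maximalIdeal_pow_le (ι : T.A →+* An) (isLocalHom_of_isArtinian _) _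
        (Ideal.mem_map_of_mem _ ha)
      have hbot : Ideal.map (π : A →+* An) (m ^ (n + 2)) = ⊥ := Ideal.map_quotient_self _
      rw [← map_maximalIdeal_of_surjective (π : A →+* An) hπs, ← Ideal.map_pow,
        hbot, Ideal.mem_bot] at h1
      exact Ideal.mem_bot.mpr (hι (h1.trans (map_zero ι).symm))
    obtain ⟨φ, hφ⟩ := hmax n T hT
    refine ⟨ι.comp φ, fun σ => ?_⟩
    rw [AlgHom.comp_apply, hφ σ, hιt σ]
    exact (trace_mapMat (π : A →+* An) (matOf ρA b) σ).trans
      (congrArg _ (trace_matOf ρA b σ))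
  choose g hg using key
  have hgc : ∀ n, (Ideal.Quotient.factorₐ O (Ideal.pow_le_pow_right (n + 2).le_succ)).comp
      (g (n + 1)) = (g n).comp (t n) := fun n => by
    refine TraceCompat.ext (T := E (n + 1))
      (t := fun σ => Ideal.Quotient.mk (m ^ (n + 2)) (ρA.trace σ)) (fun σ => ?_) (fun σ => ?_)
    · rw [AlgHom.comp_apply, hg]; rfl
    · rw [AlgHom.comp_apply, htc n σ, hg]
  let h : ∀ n, L.R →ₐ[O] A ⧸ m ^ n := fun n =>
    (Ideal.Quotient.factorₐ O (Ideal.pow_le_pow_right (show n ≤ n + 2 by omega))).comp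
      ((g n).comp (L.q n))
  have hh : ∀ {i j : ℕ} (hij : i ≤ j),
      (Ideal.Quotient.factorₐ O (Ideal.pow_le_pow_right hij)).comp (h j) = h i := by
    intro i j hij
    refine AlgHom.ext fun z => ?_
    have key : ∀ k (hk : i ≤ k),
        Ideal.Quotient.factor (Ideal.pow_le_pow_right (show i ≤ k + 2 by omega) :
          m ^ (k + 2) ≤ m ^ i) (g k (L.q k z)) = h i z := by
      intro k hk
      induction k, hk using Nat.le_induction with
      | base => rfl
      | succ k hk ih =>
        have h1 : Ideal.Quotient.factor (Ideal.pow_le_pow_right (k + 2).le_succ)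
            (g (k + 1) (L.q (k + 1) z)) = g k (L.q k z) := by
          rw [← L.q_compat k z]
          exact DFunLike.congr_fun (hgc k) (L.q (k + 1) z)
        rw [← ih, ← h1]
        exact (Ideal.Quotient.factor_comp_apply _ _ _).symm
    rw [← key j hij]
    exact Ideal.Quotient.factor_comp_apply (Ideal.pow_le_pow_right (show j ≤ j + 2 by omega))
      (Ideal.pow_le_pow_right hij) (g j (L.q j z))
  let φ : L.R →ₐ[O] A := IsAdicComplete.liftAlgHom m h (fun hle => hh hle)
  have hφl : IsLocalHom (φ : L.R →+* A) := isLocalHom_algHom hAres φ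
  have hφt : ∀ σ, φ (trace (r σ)) = ρA.trace σ := by
    intro σ
    rw [← sub_eq_zero]
    refine IsHausdorff.haus (I := maximalIdeal A) inferInstance _ fun n => ?_
    rw [SModEq.zero, smul_eq_mul, Ideal.mul_top, ← Ideal.Quotient.eq]
    refine (IsAdicComplete.mk_liftAlgHom m h (fun hle => hh hle) n _).trans ?_
    show Ideal.Quotient.factor (Ideal.pow_le_pow_right (show n ≤ n + 2 by omega))
      (g n (L.q n (trace (r σ)))) = _
    rw [hqtr, hg]
    rfl
  have htrbc : ∀ (ψ : L.R →ₐ[O] A) (hψ : IsLocalHom (ψ : L.R →+* A)) σ,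
      ((repOfMatrix r hr).baseChangeAlong (ψ : L.R →+* A) hψ).trace σ = ψ (trace (r σ)) := by
    intro ψ hψ σ
    rw [← trace_eq_of_isEquiv (baseChange_repOfMatrix _ hψ r hr) σ, trace_repOfMatrix,
      trace_mapMat]
    rfl
  refine ⟨φ, ⟨hφl, ?_⟩, ?_⟩
  · have hred1 := hrred.map ρbar φ hφl
    obtain ⟨P, hP, -, hconj⟩ := exists_conj_of_trace_eq
      (mapMat (φ : L.R →+* A) r) (matOf ρA b)
      (fun σ => hred1.residue_eq ρbar hb σ) (spansResidue_of_reduces ρbar habs hred1)
      (fun σ => by rw [trace_mapMat, trace_matOf]; exact hφt σ)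
    exact isEquiv_trans (isEquiv_symm (baseChange_repOfMatrix _ hφl r hr))
      (isEquiv_trans (isEquiv_repOfMatrix_of_conj _ (matCts_matOf ρA b) hP hconj)
        (isEquiv_repOfMatrix ρA b _ _ fun σ => rfl))
  · rintro ψ ⟨hψl, hψ⟩
    have hψt : ∀ σ, ψ (trace (r σ)) = ρA.trace σ := fun σ => by
      rw [← htrbc ψ hψl σ]; exact trace_eq_of_isEquiv hψ σ
    refine AlgHom.ext fun z => ?_
    rw [← sub_eq_zero]
    refine IsHausdorff.haus (I := maximalIdeal A) inferInstance _ fun n => ?_
    rw [SModEq.zero, smul_eq_mul, Ideal.mul_top]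
    refine Ideal.pow_le_pow_right (show n ≤ n + 2 by omega) ?_
    rw [← Ideal.Quotient.eq]
    have hkill : ∀ (θ : L.R →ₐ[O] A) (hθ : IsLocalHom (θ : L.R →+* A)),
        ∀ w ∈ maximalIdeal L.R ^ (n + 2),
          ((Ideal.Quotient.mkₐ O (m ^ (n + 2))).comp θ) w = 0 := fun θ hθ w hw =>
      Ideal.Quotient.eq_zero_iff_mem.mpr
        (map_maximalIdeal_pow_le (θ : L.R →+* A) hθ _ (Ideal.mem_map_of_mem _ hw))
    obtain ⟨χ, hχ⟩ := limit_factor L _ n (hkill ψ hψl)
    obtain ⟨χ', hχ'⟩ := limit_factor L _ n (hkill φ hφl)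
    have heq : χ = χ' := by
      refine TraceCompat.ext (T := E n)
        (t := fun σ => Ideal.Quotient.mk (m ^ (n + 2)) (ρA.trace σ)) (fun σ => ?_) (fun σ => ?_)
      · rw [← hqtr n σ, hχ]
        show Ideal.Quotient.mk _ (ψ _) = _
        rw [hψt]
      · rw [← hqtr n σ, hχ']
        show Ideal.Quotient.mk _ (φ _) = _
        rw [hφt]
    exact ((hχ z).symm.trans (DFunLike.congr_fun heq (L.q n z))).trans (hχ' z)

end FLTAgent.Deformation
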